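/-
S48 (Deligne–Serre) / node (N3), congruence package, part 1 (helper12).  Mathlib only.

The Teichmüller character at a maximal ideal `𝔪 ∋ ℓ` of `ℤ̄ = integralClosure ℤ ℂ`:

* `exists_root_lift`  : every `a ∈ 𝔽_ℓˣ` is congruent mod `𝔪` to an `(ℓ-1)`-th root of unity of `ℤ̄`;
* `root_unique`       : two `(ℓ-1)`-th roots of unity congruent mod `𝔪` are equal;
* `teich 𝔪 a : ℤ̄`, `teichHom`, `teichChar : DirichletCharacter ℂ ℓ` with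
  `teichChar a ≡ a mod 𝔪` (`teichChar_cong`), `teichChar (-1) = -1` for `ℓ ≠ 2`;
* `bernoulliSum_cong` : `S = ∑_{a ∈ 𝔽_ℓˣ} a · ω⁻¹(a) ≡ -1 mod 𝔪`, so `S ∉ 𝔪`: the generalised
  Bernoulli number `B_{1,ω⁻¹} = S / ℓ` has `𝔪`-adic valuation `-1`, and the normalised weight-one
  Eisenstein series `G = 1 - (2ℓ/S) ∑ σ_{ω⁻¹}(n) qⁿ` is `≡ 1 mod 𝔪`.
-/
import Mathlib

set_option autoImplicit false
set_option linter.style.haveILetI false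

noncomputable section

namespace Fermat.Agent.DS.N3

open Polynomial Finset

/-- `ℤ̄ ⊂ ℂ` -/
local notation "Zbar" => integralClosure ℤ ℂ

section Basic

variable {ℓ : ℕ} {𝔪 : Ideal Zbar}

/-- integers congruent mod `ℓ` are congruent mod `𝔪` -/
theorem natCast_sub_mem (hℓ𝔪 : ((ℓ : ℕ) : Zbar) ∈ 𝔪) {n m : ℕ} (h : n ≡ m [MOD ℓ]) :
    ((n : ℕ) : Zbar) - ((m : ℕ) : Zbar) ∈ 𝔪 := by
  obtain ⟨k, hk⟩ := (Nat.modEq_iff_dvd.1 h.symm)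
  have : ((n : ℕ) : Zbar) - ((m : ℕ) : Zbar) = ((ℓ : ℕ) : Zbar) * ((k : ℤ) : Zbar) := by
    have h2 : ((n : ℤ) - (m : ℤ) : ℤ) = (ℓ : ℤ) * k := hk
    have h3 := congrArg (fun z : ℤ => (z : Zbar)) h2
    simpa using h3
  rw [this]
  exact 𝔪.mul_mem_right _ hℓ𝔪

theorem one_not_mem (hmax : 𝔪.IsMaximal) : (1 : Zbar) ∉ 𝔪 :=
  fun h => hmax.ne_top ((Ideal.eq_top_iff_one 𝔪).2 h)

/-- `ℓ - 1 ∉ 𝔪` -/
theorem pred_not_mem [hℓ : Fact ℓ.Prime] (hmax : 𝔪.IsMaximal) (hℓ𝔪 : ((ℓ : ℕ) : Zbar) ∈ 𝔪) :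
    (((ℓ - 1 : ℕ) : ℕ) : Zbar) ∉ 𝔪 := by
  intro h
  have h1 : ((ℓ : ℕ) : Zbar) - (((ℓ - 1 : ℕ) : ℕ) : Zbar) = 1 := by
    rw [Nat.cast_pred hℓ.out.pos]
    ring
  exact one_not_mem hmax (h1 ▸ 𝔪.sub_mem hℓ𝔪 h)

end Basic

section Roots

variable {ℓ : ℕ} [hℓ : Fact ℓ.Prime] {𝔪 : Ideal Zbar}

/-- a root of unity of `ℤ̄` is not in `𝔪` -/
theorem not_mem_of_pow_eq_one (hmax : 𝔪.IsMaximal) {z : Zbar} {n : ℕ} (hn : 0 < n)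
    (hz : z ^ n = 1) : z ∉ 𝔪 := by
  intro h
  have : z ^ n ∈ 𝔪 := Ideal.pow_mem_of_mem 𝔪 h n hn
  rw [hz] at this
  exact one_not_mem hmax this

/-- **uniqueness**: two `(ℓ-1)`-th roots of unity of `ℤ̄` congruent mod `𝔪` are equal. -/
theorem root_unique (hmax : 𝔪.IsMaximal) (hℓ𝔪 : ((ℓ : ℕ) : Zbar) ∈ 𝔪) {z w : Zbar}
    (hz : z ^ (ℓ - 1) = 1) (hw : w ^ (ℓ - 1) = 1) (hzw : z - w ∈ 𝔪) : z = w := by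
  have := hmax.isPrime
  set n := ℓ - 1 with hn
  have hgeo : (∑ i ∈ range n, z ^ i * w ^ (n - 1 - i)) * (z - w) = 0 := by
    rw [(Commute.all z w).geom_sum₂_mul, hz, hw, sub_self]
  rcases mul_eq_zero.1 hgeo with h0 | h0
  · exfalso
    -- the sum is `≡ n * w ^ (n - 1)`
    have hq : Ideal.Quotient.mk 𝔪 z = Ideal.Quotient.mk 𝔪 w := Ideal.Quotient.eq.2 hzw
    have h1 : Ideal.Quotient.mk 𝔪 (∑ i ∈ range n, z ^ i * w ^ (n - 1 - i)) =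
        Ideal.Quotient.mk 𝔪 (((n : ℕ) : Zbar) * w ^ (n - 1)) := by
      rw [map_sum, map_mul, map_natCast, map_pow]
      have : ∀ i ∈ range n, Ideal.Quotient.mk 𝔪 (z ^ i * w ^ (n - 1 - i)) =
          Ideal.Quotient.mk 𝔪 w ^ (n - 1) := by
        intro i hi
        rw [map_mul, map_pow, map_pow, hq, ← pow_add]
        congr 1
        have := mem_range.1 hi
        omega
      rw [sum_congr rfl this, sum_const, card_range, nsmul_eq_mul]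
    rw [h0, map_zero] at h1
    have h2 : ((n : ℕ) : Zbar) * w ^ (n - 1) ∈ 𝔪 := Ideal.Quotient.eq_zero_iff_mem.1 h1.symm
    rcases (Ideal.IsPrime.mem_or_mem inferInstance h2) with h3 | h3
    · exact pred_not_mem hmax hℓ𝔪 h3
    · have hnpos : 0 < n := Nat.sub_pos_of_lt hℓ.out.one_lt
      have hw1 : (w ^ (n - 1)) ^ n = 1 := by rw [← pow_mul, mul_comm, pow_mul, hw, one_pow]
      exact not_mem_of_pow_eq_one hmax hnpos hw1 h3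
  · exact sub_eq_zero.1 h0

/-- **existence**: every nonzero residue class mod `ℓ` is congruent mod `𝔪` to an `(ℓ-1)`-th root of
unity of `ℤ̄`. -/
theorem exists_root_lift (hmax : 𝔪.IsMaximal) (hℓ𝔪 : ((ℓ : ℕ) : Zbar) ∈ 𝔪) (a : (ZMod ℓ)ˣ) :
    ∃ z : Zbar, z ^ (ℓ - 1) = 1 ∧ z - (((a : ZMod ℓ).val : ℕ) : Zbar) ∈ 𝔪 := by
  have := hmax.isPrime
  set n := ℓ - 1 with hn
  have hnpos : 0 < n := Nat.sub_pos_of_lt hℓ.out.one_lt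
  have : NeZero n := ⟨hnpos.ne'⟩
  set x : ℕ := (a : ZMod ℓ).val with hx
  -- `x ^ n ≡ 1 mod ℓ`
  have hfer : x ^ n ≡ 1 [MOD ℓ] := by
    rw [← ZMod.natCast_eq_natCast_iff]
    push_cast
    rw [hx, ZMod.natCast_zmod_val]
    have := ZMod.pow_card_sub_one_eq_one (p := ℓ) (a := (a : ZMod ℓ)) a.ne_zero
    simpa [hn] using this
  have hmem : ((x : ℕ) : Zbar) ^ n - 1 ∈ 𝔪 := by
    have := natCast_sub_mem hℓ𝔪 hfer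
    simpa using this
  -- the product formula in `ℂ`
  have hprim : IsPrimitiveRoot (Complex.exp (2 * Real.pi * Complex.I / n)) n :=
    Complex.isPrimitiveRoot_exp n hnpos.ne'
  have hprod := Polynomial.X_pow_sub_one_eq_prod hnpos hprim
  have hev := congrArg (Polynomial.eval ((x : ℕ) : ℂ)) hprod
  rw [eval_sub, eval_pow, eval_X, eval_one, eval_prod] at hev
  simp only [eval_sub, eval_X, eval_C] at hev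
  -- the roots are integral
  have hint : ∀ ζ ∈ nthRootsFinset n (1 : ℂ), ζ ∈ Zbar := by
    intro ζ hζ
    have h1 : ζ ^ n = 1 := (mem_nthRootsFinset hnpos 1).1 hζ
    exact ⟨X ^ n - 1, monic_X_pow_sub_C 1 hnpos.ne', by simp [h1]⟩
  -- the product in `ℤ̄`
  have hprodZ : ∏ ζ ∈ (nthRootsFinset n (1 : ℂ)).attach,
      (((x : ℕ) : Zbar) - ⟨ζ.1, hint ζ.1 ζ.2⟩) ∈ 𝔪 := by
    have : ∏ ζ ∈ (nthRootsFinset n (1 : ℂ)).attach,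
        (((x : ℕ) : Zbar) - ⟨ζ.1, hint ζ.1 ζ.2⟩) = ((x : ℕ) : Zbar) ^ n - 1 := by
      apply Subtype.ext
      show (integralClosure ℤ ℂ).val (∏ ζ ∈ (nthRootsFinset n (1 : ℂ)).attach,
        (((x : ℕ) : Zbar) - ⟨ζ.1, hint ζ.1 ζ.2⟩)) = (integralClosure ℤ ℂ).val (((x : ℕ) : Zbar) ^ n - 1)
      rw [map_prod, map_sub, map_pow, map_one, map_natCast]
      have h2 : ∀ ζ ∈ (nthRootsFinset n (1 : ℂ)).attach,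
          (integralClosure ℤ ℂ).val (((x : ℕ) : Zbar) - ⟨ζ.1, hint ζ.1 ζ.2⟩) = ((x : ℕ) : ℂ) - ζ.1 := by
        intro ζ _
        rw [map_sub, map_natCast]
        rfl
      rw [Finset.prod_congr rfl h2, Finset.prod_attach (nthRootsFinset n (1 : ℂ))
        (fun ζ => ((x : ℕ) : ℂ) - ζ)]
      exact hev.symm
    rw [this]
    exact hmem
  obtain ⟨ζ, -, hζ⟩ := (Ideal.IsPrime.prod_mem_iff).1 hprodZ
  refine ⟨⟨ζ.1, hint ζ.1 ζ.2⟩, ?_, ?_⟩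
  · apply Subtype.ext
    have h1 : ζ.1 ^ n = 1 := (mem_nthRootsFinset hnpos 1).1 ζ.2
    simpa using h1
  · have := 𝔪.neg_mem hζ
    simpa using this

end Roots

/-! ### the Teichmüller character -/

section Teich

variable {ℓ : ℕ} [hℓ : Fact ℓ.Prime] {𝔪 : Ideal Zbar}

/-- the Teichmüller lift of `a ∈ 𝔽_ℓˣ` in `ℤ̄`, relative to `𝔪` -/
def teich (hmax : 𝔪.IsMaximal) (hℓ𝔪 : ((ℓ : ℕ) : Zbar) ∈ 𝔪) (a : (ZMod ℓ)ˣ) : Zbar :=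
  Classical.choose (exists_root_lift hmax hℓ𝔪 a)

theorem teich_pow (hmax : 𝔪.IsMaximal) (hℓ𝔪 : ((ℓ : ℕ) : Zbar) ∈ 𝔪) (a : (ZMod ℓ)ˣ) :
    teich hmax hℓ𝔪 a ^ (ℓ - 1) = 1 :=
  (Classical.choose_spec (exists_root_lift hmax hℓ𝔪 a)).1

/-- `ω(a) ≡ a mod 𝔪` -/
theorem teich_cong (hmax : 𝔪.IsMaximal) (hℓ𝔪 : ((ℓ : ℕ) : Zbar) ∈ 𝔪) (a : (ZMod ℓ)ˣ) :
    teich hmax hℓ𝔪 a - (((a : ZMod ℓ).val : ℕ) : Zbar) ∈ 𝔪 :=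
  (Classical.choose_spec (exists_root_lift hmax hℓ𝔪 a)).2

/-- characterisation: an `(ℓ-1)`-th root of unity congruent to `a` is `ω(a)` -/
theorem eq_teich (hmax : 𝔪.IsMaximal) (hℓ𝔪 : ((ℓ : ℕ) : Zbar) ∈ 𝔪) (a : (ZMod ℓ)ˣ) {z : Zbar}
    (hz : z ^ (ℓ - 1) = 1) (hza : z - (((a : ZMod ℓ).val : ℕ) : Zbar) ∈ 𝔪) :
    z = teich hmax hℓ𝔪 a := by
  refine root_unique hmax hℓ𝔪 hz (teich_pow hmax hℓ𝔪 a) ?_
  have := 𝔪.sub_mem hza (teich_cong hmax hℓ𝔪 a)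
  simpa using this

theorem teich_one (hmax : 𝔪.IsMaximal) (hℓ𝔪 : ((ℓ : ℕ) : Zbar) ∈ 𝔪) :
    teich hmax hℓ𝔪 (1 : (ZMod ℓ)ˣ) = 1 := by
  symm
  refine eq_teich hmax hℓ𝔪 1 (one_pow _) ?_
  haveI : Fact (1 < ℓ) := ⟨hℓ.out.one_lt⟩
  rw [Units.val_one, ZMod.val_one]
  simp

theorem teich_mul (hmax : 𝔪.IsMaximal) (hℓ𝔪 : ((ℓ : ℕ) : Zbar) ∈ 𝔪) (a b : (ZMod ℓ)ˣ) :
    teich hmax hℓ𝔪 (a * b) = teich hmax hℓ𝔪 a * teich hmax hℓ𝔪 b := by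
  symm
  refine eq_teich hmax hℓ𝔪 (a * b) ?_ ?_
  · rw [mul_pow, teich_pow, teich_pow, one_mul]
  · -- `ω a ω b ≡ a.val * b.val ≡ (a b).val`
    have h1 : teich hmax hℓ𝔪 a * teich hmax hℓ𝔪 b -
        (((a : ZMod ℓ).val : ℕ) : Zbar) * (((b : ZMod ℓ).val : ℕ) : Zbar) ∈ 𝔪 := by
      have e : teich hmax hℓ𝔪 a * teich hmax hℓ𝔪 b -
          (((a : ZMod ℓ).val : ℕ) : Zbar) * (((b : ZMod ℓ).val : ℕ) : Zbar) =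
          (teich hmax hℓ𝔪 a - (((a : ZMod ℓ).val : ℕ) : Zbar)) * teich hmax hℓ𝔪 b +
          (((a : ZMod ℓ).val : ℕ) : Zbar) * (teich hmax hℓ𝔪 b - (((b : ZMod ℓ).val : ℕ) : Zbar)) := by
        ring
      rw [e]
      exact 𝔪.add_mem (𝔪.mul_mem_right _ (teich_cong hmax hℓ𝔪 a))
        (𝔪.mul_mem_left _ (teich_cong hmax hℓ𝔪 b))
    have h2 : (((a : ZMod ℓ).val * (b : ZMod ℓ).val : ℕ) : Zbar) -
        ((((a * b : (ZMod ℓ)ˣ) : ZMod ℓ).val : ℕ) : Zbar) ∈ 𝔪 := by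
      refine natCast_sub_mem hℓ𝔪 ?_
      rw [Units.val_mul, ZMod.val_mul]
      exact (Nat.mod_modEq _ _).symm
    have := 𝔪.add_mem h1 h2
    push_cast at this
    simpa using this

/-- `ω(a)` as a unit of `ℂ` -/
def teichUnit (hmax : 𝔪.IsMaximal) (hℓ𝔪 : ((ℓ : ℕ) : Zbar) ∈ 𝔪) (a : (ZMod ℓ)ˣ) : ℂˣ :=
  Units.mkOfMulEqOne ((teich hmax hℓ𝔪 a : Zbar) : ℂ) ((teich hmax hℓ𝔪 (a⁻¹) : Zbar) : ℂ) (by
    have := teich_mul hmax hℓ𝔪 a a⁻¹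
    rw [mul_inv_cancel, teich_one] at this
    have h2 := congrArg (fun z : Zbar => (z : ℂ)) this
    simpa using h2.symm)

/-- the Teichmüller character as a homomorphism `𝔽_ℓˣ → ℂˣ` -/
def teichHom (hmax : 𝔪.IsMaximal) (hℓ𝔪 : ((ℓ : ℕ) : Zbar) ∈ 𝔪) : (ZMod ℓ)ˣ →* ℂˣ where
  toFun := teichUnit hmax hℓ𝔪
  map_one' := Units.ext (by
    show ((teich hmax hℓ𝔪 (1 : (ZMod ℓ)ˣ) : Zbar) : ℂ) = 1
    rw [teich_one]; rfl)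
  map_mul' a b := Units.ext (by
    show ((teich hmax hℓ𝔪 (a * b) : Zbar) : ℂ) =
      ((teich hmax hℓ𝔪 a : Zbar) : ℂ) * ((teich hmax hℓ𝔪 b : Zbar) : ℂ)
    rw [teich_mul]; rfl)

/-- **the Teichmüller character** `ω : (ℤ/ℓ)ˣ → ℂˣ` relative to `𝔪`, as a Dirichlet character -/
def teichChar (hmax : 𝔪.IsMaximal) (hℓ𝔪 : ((ℓ : ℕ) : Zbar) ∈ 𝔪) : DirichletCharacter ℂ ℓ :=
  MulChar.ofUnitHom (teichHom hmax hℓ𝔪)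

theorem teichChar_apply (hmax : 𝔪.IsMaximal) (hℓ𝔪 : ((ℓ : ℕ) : Zbar) ∈ 𝔪) (a : (ZMod ℓ)ˣ) :
    teichChar hmax hℓ𝔪 (a : ZMod ℓ) = ((teich hmax hℓ𝔪 a : Zbar) : ℂ) := by
  rw [teichChar, MulChar.ofUnitHom_coe]
  rfl

/-- **`ω(a) ≡ a mod 𝔪`** -/
theorem teichChar_cong (hmax : 𝔪.IsMaximal) (hℓ𝔪 : ((ℓ : ℕ) : Zbar) ∈ 𝔪) (a : (ZMod ℓ)ˣ) :
    ∃ c : Zbar, (c : ℂ) = teichChar hmax hℓ𝔪 (a : ZMod ℓ) ∧
      c - (((a : ZMod ℓ).val : ℕ) : Zbar) ∈ 𝔪 :=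
  ⟨teich hmax hℓ𝔪 a, (teichChar_apply hmax hℓ𝔪 a).symm, teich_cong hmax hℓ𝔪 a⟩

/-- `ω` has order dividing `ℓ - 1` -/
theorem teichChar_pow (hmax : 𝔪.IsMaximal) (hℓ𝔪 : ((ℓ : ℕ) : Zbar) ∈ 𝔪) (a : (ZMod ℓ)ˣ) :
    teichChar hmax hℓ𝔪 (a : ZMod ℓ) ^ (ℓ - 1) = 1 := by
  rw [teichChar_apply]
  have := congrArg (fun z : Zbar => (z : ℂ)) (teich_pow hmax hℓ𝔪 a)
  simpa using this

/-- **`ω` is odd** for `ℓ ≠ 2` -/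
theorem teich_neg_one (hmax : 𝔪.IsMaximal) (hℓ𝔪 : ((ℓ : ℕ) : Zbar) ∈ 𝔪) (hℓ2 : ℓ ≠ 2) :
    teich hmax hℓ𝔪 (-1 : (ZMod ℓ)ˣ) = -1 := by
  symm
  have hodd : Even (ℓ - 1) := by
    rcases hℓ.out.eq_two_or_odd' with h | h
    · exact absurd h hℓ2
    · obtain ⟨k, hk⟩ := h
      exact ⟨k, by omega⟩
  refine eq_teich hmax hℓ𝔪 (-1) (hodd.neg_one_pow) ?_
  -- `(-1 : ZMod ℓ).val = ℓ - 1`
  have hval : ((-1 : (ZMod ℓ)ˣ) : ZMod ℓ).val = ℓ - 1 := by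
    rw [Units.val_neg, Units.val_one]
    haveI : NeZero ℓ := ⟨hℓ.out.ne_zero⟩
    haveI : Fact (1 < ℓ) := ⟨hℓ.out.one_lt⟩
    rw [ZMod.neg_val, if_neg one_ne_zero, ZMod.val_one]
  rw [hval]
  have h1 : (-1 : Zbar) - (((ℓ - 1 : ℕ) : ℕ) : Zbar) = -((ℓ : ℕ) : Zbar) := by
    rw [Nat.cast_pred hℓ.out.pos]
    ring
  rw [h1]
  exact 𝔪.neg_mem hℓ𝔪

theorem teichChar_neg_one (hmax : 𝔪.IsMaximal) (hℓ𝔪 : ((ℓ : ℕ) : Zbar) ∈ 𝔪) (hℓ2 : ℓ ≠ 2) :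
    teichChar hmax hℓ𝔪 (-1 : ZMod ℓ) = -1 := by
  have := teichChar_apply hmax hℓ𝔪 (-1 : (ZMod ℓ)ˣ)
  rw [Units.val_neg, Units.val_one, teich_neg_one hmax hℓ𝔪 hℓ2] at this
  rw [this]
  simp

/-! ### the generalised Bernoulli number `B_{1,ω⁻¹}` -/

/-- `S = ∑_{a ∈ 𝔽_ℓˣ} a · ω(a⁻¹) ∈ ℤ̄`, so that `B_{1,ω⁻¹} = S / ℓ`. -/
def bernoulliSum (hmax : 𝔪.IsMaximal) (hℓ𝔪 : ((ℓ : ℕ) : Zbar) ∈ 𝔪) : Zbar :=
  ∑ a : (ZMod ℓ)ˣ, (((a : ZMod ℓ).val : ℕ) : Zbar) * teich hmax hℓ𝔪 a⁻¹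

/-- each summand is `≡ 1 mod 𝔪` -/
theorem val_mul_teich_inv_cong (hmax : 𝔪.IsMaximal) (hℓ𝔪 : ((ℓ : ℕ) : Zbar) ∈ 𝔪) (a : (ZMod ℓ)ˣ) :
    (((a : ZMod ℓ).val : ℕ) : Zbar) * teich hmax hℓ𝔪 a⁻¹ - 1 ∈ 𝔪 := by
  -- `a.val ≡ ω(a)`, `ω(a) ω(a⁻¹) = 1`
  have h1 : teich hmax hℓ𝔪 a * teich hmax hℓ𝔪 a⁻¹ = 1 := by
    rw [← teich_mul, mul_inv_cancel, teich_one]
  have e : (((a : ZMod ℓ).val : ℕ) : Zbar) * teich hmax hℓ𝔪 a⁻¹ - 1 =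
      -((teich hmax hℓ𝔪 a - (((a : ZMod ℓ).val : ℕ) : Zbar)) * teich hmax hℓ𝔪 a⁻¹) := by
    rw [sub_mul, h1]; ring
  rw [e]
  exact 𝔪.neg_mem (𝔪.mul_mem_right _ (teich_cong hmax hℓ𝔪 a))

/-- **`S ≡ -1 mod 𝔪`** -/
theorem bernoulliSum_cong (hmax : 𝔪.IsMaximal) (hℓ𝔪 : ((ℓ : ℕ) : Zbar) ∈ 𝔪) :
    bernoulliSum hmax hℓ𝔪 + 1 ∈ 𝔪 := by
  have h1 : bernoulliSum hmax hℓ𝔪 - ((Fintype.card (ZMod ℓ)ˣ : ℕ) : Zbar) ∈ 𝔪 := by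
    have : bernoulliSum hmax hℓ𝔪 - ((Fintype.card (ZMod ℓ)ˣ : ℕ) : Zbar) =
        ∑ a : (ZMod ℓ)ˣ, ((((a : ZMod ℓ).val : ℕ) : Zbar) * teich hmax hℓ𝔪 a⁻¹ - 1) := by
      rw [Finset.sum_sub_distrib, bernoulliSum]
      simp
    rw [this]
    exact 𝔪.sum_mem fun a _ => val_mul_teich_inv_cong hmax hℓ𝔪 a
  have hcard : Fintype.card (ZMod ℓ)ˣ = ℓ - 1 := ZMod.card_units ℓ
  rw [hcard] at h1
  have h2 : bernoulliSum hmax hℓ𝔪 + 1 =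
      (bernoulliSum hmax hℓ𝔪 - (((ℓ - 1 : ℕ) : ℕ) : Zbar)) + ((ℓ : ℕ) : Zbar) := by
    rw [Nat.cast_pred hℓ.out.pos]
    ring
  rw [h2]
  exact 𝔪.add_mem h1 hℓ𝔪

/-- **`S ∉ 𝔪`**: `B_{1,ω⁻¹} = S / ℓ` has `𝔪`-adic valuation `-1`. -/
theorem bernoulliSum_not_mem (hmax : 𝔪.IsMaximal) (hℓ𝔪 : ((ℓ : ℕ) : Zbar) ∈ 𝔪) :
    bernoulliSum hmax hℓ𝔪 ∉ 𝔪 := by
  intro h
  have := 𝔪.sub_mem (bernoulliSum_cong hmax hℓ𝔪) h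
  rw [add_sub_cancel_left] at this
  exact one_not_mem hmax this

/-- the sum in terms of the character: `S = ∑ a · ω⁻¹(a)` in `ℂ` -/
theorem coe_bernoulliSum (hmax : 𝔪.IsMaximal) (hℓ𝔪 : ((ℓ : ℕ) : Zbar) ∈ 𝔪) :
    ((bernoulliSum hmax hℓ𝔪 : Zbar) : ℂ) =
      ∑ a : (ZMod ℓ)ˣ, (((a : ZMod ℓ).val : ℕ) : ℂ) * (teichChar hmax hℓ𝔪)⁻¹ (a : ZMod ℓ) := by
  rw [bernoulliSum]
  have : ((∑ a : (ZMod ℓ)ˣ, (((a : ZMod ℓ).val : ℕ) : Zbar) * teich hmax hℓ𝔪 a⁻¹ : Zbar) : ℂ) =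
      (integralClosure ℤ ℂ).val (∑ a : (ZMod ℓ)ˣ, (((a : ZMod ℓ).val : ℕ) : Zbar) *
        teich hmax hℓ𝔪 a⁻¹) := rfl
  rw [this, map_sum]
  refine Finset.sum_congr rfl fun a _ => ?_
  rw [map_mul, map_natCast, MulChar.inv_apply', ← Units.val_inv_eq_inv_val, teichChar_apply]
  rfl

end Teich

end Fermat.Agent.DS.N3
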