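/-
S48 (Deligne–Serre) / node (N3), congruence package, part 2 (helper12).  Mathlib only.

* `locSub 𝔪 ⊂ ℂ` : the localisation `ℤ̄_𝔪` of `ℤ̄ = integralClosure ℤ ℂ` at a maximal ideal, as a subring
  of `ℂ`, and `locMax 𝔪` its maximal ideal (as an additive subgroup stable under `locSub`);
* `eisConst`     : `c = -2ℓ/S`, `S = ∑ a ω⁻¹(a)` — the factor of the normalised weight-one Eisenstein
  series `G = 1 + c ∑_{n ≥ 1} (∑_{d ∣ n} ω⁻¹(d)) qⁿ`; `eisConst_mem : c ∈ locMax 𝔪`;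
* `teichChar_inv_mul_prime` : `ω⁻¹(p) p ≡ 1 mod 𝔪` for every prime `p ≠ ℓ`;
* formal part (any commutative ring `R`, ideal `I`): `coeff_mul_sub_mem` (`G ≡ 1 ⟹ f G ≡ f`) and
  `hecke_cong` : if `f` satisfies the weight-one Hecke relation at `p` with character value `ε_p` and
  eigenvalue `a_p`, `G ≡ 1 mod I` and `ψ_p p ≡ 1 mod I`, then `f G` satisfies the WEIGHT-TWO Hecke
  relation at `p` with character value `ε_p ψ_p` and eigenvalue `a_p` modulo `I`.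
-/
import Mathlib
import Fermat.Agent.DS.N3.Teichmuller

set_option autoImplicit false
set_option linter.style.haveILetI false

noncomputable section

namespace Fermat.Agent.DS.N3

open Finset PowerSeries

/-- `ℤ̄ ⊂ ℂ` -/
local notation "Zbar" => integralClosure ℤ ℂ

/-! ### the formal part -/

section Formal

variable {R : Type*} [CommRing R] (I : Ideal R)

/-- `G ≡ 1 mod I` coefficientwise implies `f G ≡ f mod I` coefficientwise -/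
theorem coeff_mul_sub_mem {f G : PowerSeries R} (hG : ∀ n, coeff n (G - 1) ∈ I) (n : ℕ) :
    coeff n (f * G - f) ∈ I := by
  have e : f * G - f = f * (G - 1) := by ring
  rw [e, coeff_mul]
  exact I.sum_mem fun x _ => I.mul_mem_left _ (hG x.2)

/-- **the Hecke congruence**: weight one times `G ≡ 1` is a weight-two eigen-series mod `I`. -/
theorem hecke_cong {f G : PowerSeries R} (hG : ∀ n, coeff n (G - 1) ∈ I) (p : ℕ)
    (εp ψp ap : R) (hψ : ψp * (p : R) - 1 ∈ I)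
    (hf : ∀ n : ℕ, coeff (p * n) f + εp * (if p ∣ n then coeff (n / p) f else 0) =
      ap * coeff n f) (n : ℕ) :
    coeff (p * n) (f * G) + εp * ψp * (p : R) * (if p ∣ n then coeff (n / p) (f * G) else 0) -
      ap * coeff n (f * G) ∈ I := by
  have key : ∀ m, coeff m (f * G) - coeff m f ∈ I := fun m => by
    have := coeff_mul_sub_mem I (f := f) hG m
    rwa [map_sub] at this
  by_cases hpn : p ∣ n
  · rw [if_pos hpn]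
    have hfn := hf n
    rw [if_pos hpn] at hfn
    have e : coeff (p * n) (f * G) + εp * ψp * (p : R) * coeff (n / p) (f * G) -
        ap * coeff n (f * G) =
        (coeff (p * n) (f * G) - coeff (p * n) f) +
        εp * ψp * (p : R) * (coeff (n / p) (f * G) - coeff (n / p) f) -
        ap * (coeff n (f * G) - coeff n f) +
        εp * coeff (n / p) f * (ψp * (p : R) - 1) +
        (coeff (p * n) f + εp * coeff (n / p) f - ap * coeff n f) := by ring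
    have hz : coeff (p * n) f + εp * coeff (n / p) f - ap * coeff n f = 0 := sub_eq_zero.2 hfn
    rw [e, hz, add_zero]
    exact I.add_mem (I.sub_mem (I.add_mem (key _) (I.mul_mem_left _ (key _)))
      (I.mul_mem_left _ (key _))) (I.mul_mem_left _ hψ)
  · rw [if_neg hpn, mul_zero, add_zero]
    have hfn := hf n
    rw [if_neg hpn, mul_zero, add_zero] at hfn
    have e : coeff (p * n) (f * G) - ap * coeff n (f * G) =
        (coeff (p * n) (f * G) - coeff (p * n) f) - ap * (coeff n (f * G) - coeff n f) +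
        (coeff (p * n) f - ap * coeff n f) := by ring
    have hz : coeff (p * n) f - ap * coeff n f = 0 := sub_eq_zero.2 hfn
    rw [e, hz, add_zero]
    exact I.sub_mem (key _) (I.mul_mem_left _ (key _))

/-- the series `G = 1 + c ∑_{n ≥ 1} (∑_{d ∣ n} ψ d) qⁿ` -/
def eisSeries (c : R) (ψ : ℕ → R) : PowerSeries R :=
  1 + C c * PowerSeries.mk fun n => ∑ d ∈ n.divisors, ψ d

theorem coeff_eisSeries_sub_one_mem {c : R} (hc : c ∈ I) (ψ : ℕ → R) (n : ℕ) :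
    coeff n (eisSeries c ψ - 1) ∈ I := by
  rw [eisSeries, add_sub_cancel_left, coeff_C_mul]
  exact I.mul_mem_right _ hc

theorem coeff_zero_eisSeries (c : R) (ψ : ℕ → R) : coeff 0 (eisSeries c ψ) = 1 := by
  rw [eisSeries, map_add, coeff_C_mul, coeff_mk]
  simp

theorem coeff_eisSeries_of_pos (c : R) (ψ : ℕ → R) {n : ℕ} (hn : 0 < n) :
    coeff n (eisSeries c ψ) = c * ∑ d ∈ n.divisors, ψ d := by
  rw [eisSeries, map_add, coeff_C_mul, coeff_mk, coeff_one, if_neg hn.ne', zero_add]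

end Formal

/-! ### the localisation `ℤ̄_𝔪 ⊂ ℂ` -/

section Loc

variable (𝔪 : Ideal Zbar) [h𝔪 : 𝔪.IsPrime]

/-- `ℤ̄_𝔪` as a subring of `ℂ` -/
def locSub : Subring ℂ where
  carrier := {x | ∃ a b : Zbar, b ∉ 𝔪 ∧ x * (b : ℂ) = (a : ℂ)}
  one_mem' := ⟨1, 1, h𝔪.one_notMem, by simp⟩
  zero_mem' := ⟨0, 1, h𝔪.one_notMem, by simp⟩
  mul_mem' := by
    rintro x y ⟨a, b, hb, hx⟩ ⟨a', b', hb', hy⟩
    refine ⟨a * a', b * b', fun h => (h𝔪.mem_or_mem h).elim hb hb', ?_⟩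
    push_cast
    rw [← hx, ← hy]; ring
  add_mem' := by
    rintro x y ⟨a, b, hb, hx⟩ ⟨a', b', hb', hy⟩
    refine ⟨a * b' + a' * b, b * b', fun h => (h𝔪.mem_or_mem h).elim hb hb', ?_⟩
    push_cast
    rw [← hx, ← hy]; ring
  neg_mem' := by
    rintro x ⟨a, b, hb, hx⟩
    exact ⟨-a, b, hb, by push_cast; rw [← hx]; ring⟩

/-- the maximal ideal of `ℤ̄_𝔪` -/
def locMax : Ideal (locSub 𝔪) where
  carrier := {x | ∃ a b : Zbar, a ∈ 𝔪 ∧ b ∉ 𝔪 ∧ (x : ℂ) * (b : ℂ) = (a : ℂ)}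
  zero_mem' := ⟨0, 1, 𝔪.zero_mem, h𝔪.one_notMem, by simp⟩
  add_mem' := by
    rintro x y ⟨a, b, ha, hb, hx⟩ ⟨a', b', ha', hb', hy⟩
    refine ⟨a * b' + a' * b, b * b', 𝔪.add_mem (𝔪.mul_mem_right _ ha) (𝔪.mul_mem_right _ ha'),
      fun h => (h𝔪.mem_or_mem h).elim hb hb', ?_⟩
    push_cast
    rw [← hx, ← hy]; ring
  smul_mem' := by
    rintro ⟨c, a₀, b₀, hb₀, hc⟩ x ⟨a, b, ha, hb, hx⟩
    refine ⟨a₀ * a, b₀ * b, 𝔪.mul_mem_left _ ha, fun h => (h𝔪.mem_or_mem h).elim hb₀ hb, ?_⟩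
    show (c * (x : ℂ)) * ((b₀ * b : Zbar) : ℂ) = ((a₀ * a : Zbar) : ℂ)
    push_cast
    rw [← hx, ← hc]; ring

theorem coe_mem_locSub (a : Zbar) : (a : ℂ) ∈ locSub 𝔪 := ⟨a, 1, h𝔪.one_notMem, by simp⟩

theorem mem_locMax_of_mem {a : Zbar} (ha : a ∈ 𝔪) :
    (⟨(a : ℂ), coe_mem_locSub 𝔪 a⟩ : locSub 𝔪) ∈ locMax 𝔪 :=
  ⟨a, 1, ha, h𝔪.one_notMem, by simp⟩

/-- a quotient `a / b` with `a ∈ 𝔪`, `b ∉ 𝔪` lies in the maximal ideal -/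
theorem div_mem_locMax {a b : Zbar} (ha : a ∈ 𝔪) (hb : b ∉ 𝔪) (x : ℂ) (hx : x * (b : ℂ) = (a : ℂ)) :
    ∃ hxm : x ∈ locSub 𝔪, (⟨x, hxm⟩ : locSub 𝔪) ∈ locMax 𝔪 :=
  ⟨⟨a, b, hb, hx⟩, a, b, ha, hb, hx⟩

end Loc

/-! ### the Eisenstein constant and the congruence `ω⁻¹(p) p ≡ 1` -/

section Eis

variable {ℓ : ℕ} [hℓ : Fact ℓ.Prime] {𝔪 : Ideal Zbar}

/-- `c = -2ℓ / S`, `S = ∑_{a} a ω⁻¹(a)` : the normalised Eisenstein series of weight one and character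
`ω⁻¹` is `G = 1 + c ∑_{n ≥ 1} (∑_{d ∣ n} ω⁻¹(d)) qⁿ`. -/
def eisConst (hmax : 𝔪.IsMaximal) (hℓ𝔪 : ((ℓ : ℕ) : Zbar) ∈ 𝔪) : ℂ :=
  -2 * (ℓ : ℂ) / ((bernoulliSum hmax hℓ𝔪 : Zbar) : ℂ)

theorem coe_bernoulliSum_ne_zero (hmax : 𝔪.IsMaximal) (hℓ𝔪 : ((ℓ : ℕ) : Zbar) ∈ 𝔪) :
    ((bernoulliSum hmax hℓ𝔪 : Zbar) : ℂ) ≠ 0 := by
  intro h
  have : bernoulliSum hmax hℓ𝔪 = 0 := Subtype.ext h
  exact bernoulliSum_not_mem hmax hℓ𝔪 (this ▸ 𝔪.zero_mem)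

/-- **`c ∈ 𝔪 ℤ̄_𝔪`** -/
theorem eisConst_mem (hmax : 𝔪.IsMaximal) (hℓ𝔪 : ((ℓ : ℕ) : Zbar) ∈ 𝔪) :
    haveI := hmax.isPrime
    ∃ hxm : eisConst hmax hℓ𝔪 ∈ locSub 𝔪,
      (⟨eisConst hmax hℓ𝔪, hxm⟩ : locSub 𝔪) ∈ locMax 𝔪 := by
  haveI := hmax.isPrime
  refine div_mem_locMax 𝔪 (a := -2 * ((ℓ : ℕ) : Zbar)) (𝔪.mul_mem_left _ hℓ𝔪)
    (bernoulliSum_not_mem hmax hℓ𝔪) _ ?_
  rw [eisConst, div_mul_cancel₀ _ (coe_bernoulliSum_ne_zero hmax hℓ𝔪)]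
  show -2 * (ℓ : ℂ) = (integralClosure ℤ ℂ).val (-2 * ((ℓ : ℕ) : Zbar))
  rw [map_mul, map_neg, map_ofNat, map_natCast]

/-- **`ω⁻¹(p) p ≡ 1 mod 𝔪`** for every `p` prime to `ℓ` (in `ℤ̄`) -/
theorem teich_inv_mul_natCast_cong (hmax : 𝔪.IsMaximal) (hℓ𝔪 : ((ℓ : ℕ) : Zbar) ∈ 𝔪) {p : ℕ}
    (hp : Nat.Coprime p ℓ) :
    teich hmax hℓ𝔪 (ZMod.unitOfCoprime p hp)⁻¹ * ((p : ℕ) : Zbar) - 1 ∈ 𝔪 := by
  have h1 := val_mul_teich_inv_cong hmax hℓ𝔪 (ZMod.unitOfCoprime p hp)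
  have h2 : ((p : ℕ) : Zbar) - ((((ZMod.unitOfCoprime p hp : (ZMod ℓ)ˣ) : ZMod ℓ).val : ℕ) : Zbar) ∈ 𝔪 := by
    refine natCast_sub_mem hℓ𝔪 ?_
    rw [ZMod.coe_unitOfCoprime, ZMod.val_natCast]
    exact (Nat.mod_modEq _ _).symm
  have e : teich hmax hℓ𝔪 (ZMod.unitOfCoprime p hp)⁻¹ * ((p : ℕ) : Zbar) - 1 =
      ((((ZMod.unitOfCoprime p hp : (ZMod ℓ)ˣ) : ZMod ℓ).val : ℕ) : Zbar) *
        teich hmax hℓ𝔪 (ZMod.unitOfCoprime p hp)⁻¹ - 1 +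
      teich hmax hℓ𝔪 (ZMod.unitOfCoprime p hp)⁻¹ *
        (((p : ℕ) : Zbar) - ((((ZMod.unitOfCoprime p hp : (ZMod ℓ)ˣ) : ZMod ℓ).val : ℕ) : Zbar)) := by
    ring
  rw [e]
  exact 𝔪.add_mem h1 (𝔪.mul_mem_left _ h2)

/-- the same in terms of the character: `ω⁻¹(p) · p - 1 ∈ 𝔪` with `ω⁻¹(p)` read in `ℤ̄` -/
theorem teichChar_inv_mul_prime (hmax : 𝔪.IsMaximal) (hℓ𝔪 : ((ℓ : ℕ) : Zbar) ∈ 𝔪) {p : ℕ}
    (hp : Nat.Coprime p ℓ) :
    ∃ c : Zbar, (c : ℂ) = (teichChar hmax hℓ𝔪)⁻¹ ((p : ℕ) : ZMod ℓ) ∧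
      c * ((p : ℕ) : Zbar) - 1 ∈ 𝔪 := by
  refine ⟨teich hmax hℓ𝔪 (ZMod.unitOfCoprime p hp)⁻¹, ?_, teich_inv_mul_natCast_cong hmax hℓ𝔪 hp⟩
  have h1 : ((p : ℕ) : ZMod ℓ) = ((ZMod.unitOfCoprime p hp : (ZMod ℓ)ˣ) : ZMod ℓ) :=
    (ZMod.coe_unitOfCoprime p hp).symm
  rw [h1, MulChar.inv_apply', ← Units.val_inv_eq_inv_val, teichChar_apply]

end Eis

end Fermat.Agent.DS.N3
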