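/-
S48 / GATE-N gap (g2): the mod-`λ` eigencharacter of a form that is an eigenform only modulo `λ`.

Abstract setting: a commutative ring `O` with an ideal `I` (`= λ`), an `O`-module `M` (the lattice
of `O`-integral `q`-expansions inside `S_2(Γ1(Nℓ))`), a ring `𝕋` acting `O`-linearly on `M` (the
Hecke algebra generated by the `T_p` and the diamond operators), a `𝕋`-stable `O`-submodule
`Mλ ⊆ M` (the forms all of whose `q`-coefficients lie in `λ`), and `F ∈ M` (`= f · G`) such that
`c • F ∈ Mλ → c ∈ I` (because `a_1(F) = 1`).  If every generator `t` of `𝕋` satisfies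
`t F ≡ c F mod Mλ` for some `c ∈ O`, then there is a ring homomorphism `θ : 𝕋 →+* O ⧸ I` with
`θ t = c mod I` whenever `t F ≡ c F mod Mλ`.  This `θ` is the input of the port's `P5` assembly
(`θ : heckeAlgebra1 →+* k0`); no lifting to characteristic zero is needed.
-/
import Mathlib

set_option autoImplicit false

namespace Fermat.Agent.DS.N3.EigChar

section Abstract

variable {O : Type*} [CommRing O] (I : Ideal O)
variable {M : Type*} [AddCommGroup M] [Module O M]
variable {𝕋 : Type*} [Ring 𝕋] (act : 𝕋 →+* Module.End O M)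
variable (Mlam : Submodule O M) (F : M)

/-- `t F ≡ c F` modulo `Mlam`. -/
def IsEigenMod (t : 𝕋) (c : O) : Prop := act t F - c • F ∈ Mlam

variable {act Mlam F}

theorem isEigenMod_zero : IsEigenMod act Mlam F 0 0 := by
  unfold IsEigenMod
  simp

theorem isEigenMod_one : IsEigenMod act Mlam F 1 1 := by
  unfold IsEigenMod
  simp

theorem IsEigenMod.add {t t' : 𝕋} {c c' : O} (h : IsEigenMod act Mlam F t c)
    (h' : IsEigenMod act Mlam F t' c') : IsEigenMod act Mlam F (t + t') (c + c') := by
  unfold IsEigenMod at *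
  have : act (t + t') F - (c + c') • F = (act t F - c • F) + (act t' F - c' • F) := by
    rw [map_add, LinearMap.add_apply, add_smul]
    abel
  rw [this]
  exact Mlam.add_mem h h'

theorem IsEigenMod.neg {t : 𝕋} {c : O} (h : IsEigenMod act Mlam F t c) :
    IsEigenMod act Mlam F (-t) (-c) := by
  unfold IsEigenMod at *
  have : act (-t) F - (-c) • F = -(act t F - c • F) := by
    rw [map_neg, LinearMap.neg_apply, neg_smul]
    abel
  rw [this]
  exact Mlam.neg_mem h

theorem IsEigenMod.mul (hst : ∀ t : 𝕋, ∀ m ∈ Mlam, act t m ∈ Mlam) {t t' : 𝕋} {c c' : O}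
    (h : IsEigenMod act Mlam F t c) (h' : IsEigenMod act Mlam F t' c') :
    IsEigenMod act Mlam F (t * t') (c * c') := by
  unfold IsEigenMod at *
  have : act (t * t') F - (c * c') • F
      = act t (act t' F - c' • F) + c' • (act t F - c • F) := by
    rw [map_mul, Module.End.mul_apply, map_sub, map_smul, smul_sub, smul_smul, mul_comm c' c]
    abel
  rw [this]
  exact Mlam.add_mem (hst t _ h') (Mlam.smul_mem c' h)

/-- Uniqueness of the eigenvalue modulo `I`. -/
theorem IsEigenMod.sub_mem (hF : ∀ c : O, c • F ∈ Mlam → c ∈ I) {t : 𝕋} {c c' : O}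
    (h : IsEigenMod act Mlam F t c) (h' : IsEigenMod act Mlam F t c') : c - c' ∈ I := by
  apply hF
  unfold IsEigenMod at *
  have : (c - c') • F = (act t F - c' • F) - (act t F - c • F) := by
    rw [sub_smul]
    abel
  rw [this]
  exact Mlam.sub_mem h' h

/-- Every element of `𝕋` has an eigenvalue modulo `Mlam` as soon as the elements of a generating
set do. -/
theorem exists_isEigenMod (hst : ∀ t : 𝕋, ∀ m ∈ Mlam, act t m ∈ Mlam) (S : Set 𝕋)
    (hS : Subring.closure S = ⊤) (h : ∀ t ∈ S, ∃ c : O, IsEigenMod act Mlam F t c) (t : 𝕋) :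
    ∃ c : O, IsEigenMod act Mlam F t c := by
  have ht : t ∈ Subring.closure S := by rw [hS]; exact Subring.mem_top t
  induction ht using Subring.closure_induction with
  | mem x hx => exact h x hx
  | zero => exact ⟨0, isEigenMod_zero⟩
  | one => exact ⟨1, isEigenMod_one⟩
  | add x y _ _ hx hy =>
    obtain ⟨c, hc⟩ := hx
    obtain ⟨c', hc'⟩ := hy
    exact ⟨c + c', hc.add hc'⟩
  | neg x _ hx =>
    obtain ⟨c, hc⟩ := hx
    exact ⟨-c, hc.neg⟩
  | mul x y _ _ hx hy =>
    obtain ⟨c, hc⟩ := hx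
    obtain ⟨c', hc'⟩ := hy
    exact ⟨c * c', hc.mul hst hc'⟩

/-- **The mod-`I` eigencharacter.** -/
theorem exists_eigenChar (hst : ∀ t : 𝕋, ∀ m ∈ Mlam, act t m ∈ Mlam)
    (hF : ∀ c : O, c • F ∈ Mlam → c ∈ I) (S : Set 𝕋) (hS : Subring.closure S = ⊤)
    (h : ∀ t ∈ S, ∃ c : O, IsEigenMod act Mlam F t c) :
    ∃ θ : 𝕋 →+* O ⧸ I, ∀ (t : 𝕋) (c : O), IsEigenMod act Mlam F t c →
      θ t = Ideal.Quotient.mk I c := by
  classical
  have hex := exists_isEigenMod hst S hS h
  choose e he using hex
  have huniq : ∀ (t : 𝕋) (c : O), IsEigenMod act Mlam F t c →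
      Ideal.Quotient.mk I (e t) = Ideal.Quotient.mk I c := by
    intro t c hc
    rw [Ideal.Quotient.eq]
    exact (he t).sub_mem I hF hc
  refine ⟨{ toFun := fun t => Ideal.Quotient.mk I (e t)
            map_one' := ?_
            map_mul' := ?_
            map_zero' := ?_
            map_add' := ?_ }, fun t c hc => huniq t c hc⟩
  · rw [huniq 1 1 isEigenMod_one, map_one]
  · intro t t'
    rw [huniq (t * t') (e t * e t') ((he t).mul hst (he t')), map_mul]
  · rw [huniq 0 0 isEigenMod_zero, map_zero]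
  · intro t t'
    rw [huniq (t + t') (e t + e t') ((he t).add (he t')), map_add]

/-- The eigencharacter with values in a ring `k0` receiving `O` with kernel containing... exactly
`I` is not needed: any `φ : O →+* k0` vanishing on `I`. -/
theorem exists_eigenChar_of_ringHom {k0 : Type*} [CommRing k0] (φ : O →+* k0)
    (hφ : ∀ c ∈ I, φ c = 0)
    (hst : ∀ t : 𝕋, ∀ m ∈ Mlam, act t m ∈ Mlam)
    (hF : ∀ c : O, c • F ∈ Mlam → c ∈ I) (S : Set 𝕋) (hS : Subring.closure S = ⊤)
    (h : ∀ t ∈ S, ∃ c : O, IsEigenMod act Mlam F t c) :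
    ∃ θ : 𝕋 →+* k0, ∀ (t : 𝕋) (c : O), IsEigenMod act Mlam F t c → θ t = φ c := by
  obtain ⟨θ, hθ⟩ := exists_eigenChar I hst hF S hS h
  refine ⟨(Ideal.Quotient.lift I φ hφ).comp θ, fun t c hc => ?_⟩
  rw [RingHom.comp_apply, hθ t c hc, Ideal.Quotient.lift_mk]

end Abstract

end Fermat.Agent.DS.N3.EigChar
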