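/-
S48 / GATE-N node N3-MAIN, file 1: the mod-`λ` eigencharacter in purely formal terms.

`V` a complex vector space with a linear "`q`-coefficient" map `coeff : V →ₗ[ℂ] (ℕ → ℂ)`, a
commutative ring `𝕋` acting on `V`, generated by elements `T p` (`p` in a set `P` of good primes)
and `D d` (`d : Δ`, the diamond operators) with the coefficient formula
`coeff (T p g) n = coeff g (p n) + p · [p ∣ n] coeff (D (u p) g) (n / p)`.
`O ⊆ ℂ` a subring, `I` an ideal of `O`, `χ : Δ → O`, `a : ℕ → O`.  If `F ∈ V` satisfies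
`D d F = χ d • F`, `coeff F 1 = 1`, and the congruences
`coeff F (p n) + χ (u p) p [p ∣ n] coeff F (n / p) - a p · coeff F n ∈ I`,
then there is a ring homomorphism `θ : 𝕋 →+* O ⧸ I` with `θ (T p) = a p` and `θ (D d) = χ d`
modulo `I`.

The congruence submodule is `{g | (∀ d, D d g = χ d • g) ∧ ∀ n, coeff g n ∈ I}`: it is `𝕋`-stable
by commutativity and the coefficient formula, so no integrality statement for the diamond
operators on `q`-expansions is used, and `coeff` need not be injective.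
-/
import Mathlib
import Fermat.Agent.DS.N3.EigChar

set_option autoImplicit false

namespace Fermat.Agent.DS.N3.EigChar

section Stab

variable {O : Type*} [CommRing O]
variable {M : Type*} [AddCommGroup M] [Module O M]
variable {𝕋 : Type*} [Ring 𝕋] (act : 𝕋 →+* Module.End O M) (Mlam : Submodule O M)

/-- A submodule stable under a generating set is stable under the whole ring. -/
theorem stable_of_generators (S : Set 𝕋) (hS : Subring.closure S = ⊤)
    (h : ∀ t ∈ S, ∀ m ∈ Mlam, act t m ∈ Mlam) (t : 𝕋) : ∀ m ∈ Mlam, act t m ∈ Mlam := by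
  have ht : t ∈ Subring.closure S := by rw [hS]; exact Subring.mem_top t
  induction ht using Subring.closure_induction with
  | mem x hx => exact h x hx
  | zero => intro m _; simp
  | one => intro m hm; simpa using hm
  | add x y _ _ hx hy =>
    intro m hm
    rw [map_add, LinearMap.add_apply]
    exact Mlam.add_mem (hx m hm) (hy m hm)
  | neg x _ hx =>
    intro m hm
    rw [map_neg, LinearMap.neg_apply]
    exact Mlam.neg_mem (hx m hm)
  | mul x y _ _ hx hy =>
    intro m hm
    rw [map_mul, Module.End.mul_apply]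
    exact hx _ (hy m hm)

end Stab

section Formal

variable {V : Type*} [AddCommGroup V] [Module ℂ V]
variable {𝕋 : Type*} [CommRing 𝕋]

/-- Restriction of scalars of the action to a subring of `ℂ`. -/
def actRestrict (O : Subring ℂ) (act : 𝕋 →+* Module.End ℂ V) : 𝕋 →+* Module.End O V where
  toFun t := (act t).restrictScalars O
  map_one' := by
    ext v
    simp
  map_mul' s t := by
    ext v
    simp
  map_zero' := by
    ext v
    simp
  map_add' s t := by
    ext v
    simp

@[simp] theorem actRestrict_apply (O : Subring ℂ) (act : 𝕋 →+* Module.End ℂ V) (t : 𝕋) (v : V) :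
    actRestrict O act t v = act t v := rfl

variable (coeff : V →ₗ[ℂ] (ℕ → ℂ)) (act : 𝕋 →+* Module.End ℂ V)
variable {Δ : Type*} (D : Δ → 𝕋) (O : Subring ℂ) (I : Ideal O) (χ : Δ → O)

/-- The congruence submodule: nebentypus `χ` and all coefficients in `I`. -/
def congSubmodule : Submodule O V where
  carrier := {g | (∀ d, act (D d) g = ((χ d : O) : ℂ) • g) ∧
    ∀ n, ∃ x ∈ I, ((x : O) : ℂ) = coeff g n}
  add_mem' := by
    rintro g g' ⟨h1, h2⟩ ⟨h1', h2'⟩
    refine ⟨fun d => ?_, fun n => ?_⟩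
    · rw [map_add, h1 d, h1' d, smul_add]
    · obtain ⟨x, hx, hxe⟩ := h2 n
      obtain ⟨x', hx', hxe'⟩ := h2' n
      refine ⟨x + x', I.add_mem hx hx', ?_⟩
      rw [map_add, Pi.add_apply, ← hxe, ← hxe']
      push_cast
      rfl
  zero_mem' := by
    refine ⟨fun d => by simp, fun n => ⟨0, I.zero_mem, by simp⟩⟩
  smul_mem' := by
    rintro c g ⟨h1, h2⟩
    refine ⟨fun d => ?_, fun n => ?_⟩
    · show act (D d) ((c : ℂ) • g) = ((χ d : O) : ℂ) • ((c : ℂ) • g)
      rw [map_smul, h1 d, smul_comm]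
    · obtain ⟨x, hx, hxe⟩ := h2 n
      refine ⟨c * x, I.mul_mem_left c hx, ?_⟩
      show ((c * x : O) : ℂ) = coeff ((c : ℂ) • g) n
      rw [map_smul, Pi.smul_apply, ← hxe]
      push_cast
      rfl

theorem mem_congSubmodule {g : V} :
    g ∈ congSubmodule coeff act D O I χ ↔
      (∀ d, act (D d) g = ((χ d : O) : ℂ) • g) ∧ ∀ n, ∃ x ∈ I, ((x : O) : ℂ) = coeff g n :=
  Iff.rfl

/-- **The formal mod-`I` eigencharacter.** -/
theorem exists_eigenChar_formal (P : ℕ → Prop) (T : ℕ → 𝕋) (u : ℕ → Δ)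
    (hgen : Subring.closure ({t | ∃ p, P p ∧ t = T p} ∪ Set.range D) = ⊤)
    (hq : ∀ p, P p → ∀ (g : V) (n : ℕ),
      coeff (act (T p) g) n = coeff g (p * n) +
        (p : ℂ) * (if p ∣ n then coeff (act (D (u p)) g) (n / p) else 0))
    (a : ℕ → O) (F : V)
    (hχ : ∀ d, act (D d) F = ((χ d : O) : ℂ) • F) (h1 : coeff F 1 = 1)
    (hcong : ∀ p, P p → ∀ n, ∃ x ∈ I, ((x : O) : ℂ) =
      coeff F (p * n) + ((χ (u p) : O) : ℂ) * (p : ℂ) * (if p ∣ n then coeff F (n / p) else 0)
        - ((a p : O) : ℂ) * coeff F n) :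
    ∃ θ : 𝕋 →+* O ⧸ I, (∀ p, P p → θ (T p) = Ideal.Quotient.mk I (a p)) ∧
      ∀ d, θ (D d) = Ideal.Quotient.mk I (χ d) := by
  set Mlam := congSubmodule coeff act D O I χ with hMlam
  set act' := actRestrict O act with hact'
  -- stability of the congruence submodule under the generators
  have hstT : ∀ p, P p → ∀ m ∈ Mlam, act' (T p) m ∈ Mlam := by
    intro p hp m hm
    obtain ⟨hm1, hm2⟩ := hm
    refine ⟨fun d => ?_, fun n => ?_⟩
    · show act (D d) (act (T p) m) = ((χ d : O) : ℂ) • act (T p) m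
      have hcomm : act (D d) (act (T p) m) = act (T p) (act (D d) m) := by
        rw [← Module.End.mul_apply, ← Module.End.mul_apply, ← map_mul, ← map_mul, mul_comm]
      rw [hcomm, hm1 d, map_smul]
    · show ∃ x ∈ I, ((x : O) : ℂ) = coeff (act (T p) m) n
      rw [hq p hp m n]
      obtain ⟨x1, hx1, hx1e⟩ := hm2 (p * n)
      by_cases hpn : p ∣ n
      · obtain ⟨x2, hx2, hx2e⟩ := hm2 (n / p)
        refine ⟨x1 + (p : O) * (χ (u p) * x2), I.add_mem hx1 (I.mul_mem_left _ (I.mul_mem_left _ hx2)), ?_⟩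
        rw [if_pos hpn, hm1 (u p), map_smul, Pi.smul_apply, ← hx1e, ← hx2e]
        push_cast
        rfl
      · refine ⟨x1, hx1, ?_⟩
        rw [if_neg hpn, mul_zero, add_zero, ← hx1e]
  have hstD : ∀ d, ∀ m ∈ Mlam, act' (D d) m ∈ Mlam := by
    intro d m hm
    have h : act' (D d) m = (χ d : O) • m := by
      show act (D d) m = ((χ d : O) : ℂ) • m
      exact hm.1 d
    rw [h]
    exact Mlam.smul_mem _ hm
  have hst : ∀ t : 𝕋, ∀ m ∈ Mlam, act' t m ∈ Mlam := by
    intro t
    refine stable_of_generators act' Mlam _ hgen ?_ t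
    rintro t (⟨p, hp, rfl⟩ | ⟨d, rfl⟩)
    · exact hstT p hp
    · exact hstD d
  -- `F` detects `I`
  have hF : ∀ c : O, c • F ∈ Mlam → c ∈ I := by
    intro c hc
    obtain ⟨x, hx, hxe⟩ := hc.2 1
    have h2 : coeff (c • F) 1 = (c : ℂ) := by
      show coeff ((c : ℂ) • F) 1 = (c : ℂ)
      rw [map_smul, Pi.smul_apply, h1, smul_eq_mul, mul_one]
    rw [h2] at hxe
    have : x = c := Subtype.ext hxe
    rw [← this]
    exact hx
  -- the generators are eigen modulo the congruence submodule
  have hT : ∀ p, P p → IsEigenMod act' Mlam F (T p) (a p) := by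
    intro p hp
    refine ⟨fun d => ?_, fun n => ?_⟩
    · show act (D d) (act (T p) F - ((a p : O) : ℂ) • F)
        = ((χ d : O) : ℂ) • (act (T p) F - ((a p : O) : ℂ) • F)
      have hcomm : act (D d) (act (T p) F) = act (T p) (act (D d) F) := by
        rw [← Module.End.mul_apply, ← Module.End.mul_apply, ← map_mul, ← map_mul, mul_comm]
      rw [map_sub, hcomm, hχ d, map_smul, map_smul, hχ d, smul_sub, smul_comm]
    · obtain ⟨x, hx, hxe⟩ := hcong p hp n
      refine ⟨x, hx, ?_⟩
      show ((x : O) : ℂ) = coeff (act (T p) F - ((a p : O) : ℂ) • F) n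
      rw [map_sub, Pi.sub_apply, hq p hp F n, map_smul, Pi.smul_apply, hxe, hχ (u p), map_smul,
        Pi.smul_apply]
      by_cases hpn : p ∣ n
      · simp only [if_pos hpn, smul_eq_mul]
        ring
      · simp only [if_neg hpn, smul_eq_mul]
        ring
  have hD : ∀ d, IsEigenMod act' Mlam F (D d) (χ d) := by
    intro d
    have h : act' (D d) F - (χ d : O) • F = 0 := by
      show act (D d) F - ((χ d : O) : ℂ) • F = 0
      rw [hχ d, sub_self]
    show act' (D d) F - (χ d : O) • F ∈ Mlam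
    rw [h]
    exact Mlam.zero_mem
  obtain ⟨θ, hθ⟩ := exists_eigenChar I hst hF _ hgen (by
    rintro t (⟨p, hp, rfl⟩ | ⟨d, rfl⟩)
    · exact ⟨a p, hT p hp⟩
    · exact ⟨χ d, hD d⟩)
  exact ⟨θ, fun p hp => hθ _ _ (hT p hp), fun d => hθ _ _ (hD d)⟩

end Formal

end Fermat.Agent.DS.N3.EigChar
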