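/-
S48 / GATE-N node N3-MAIN, file 2: residue-field bookkeeping.

* `exists_eigenChar_zmod` : a ring homomorphism `θ : 𝕋 →+* O ⧸ I` (`ℓ ∈ I ≠ ⊤`) whose values on a
  generating set are residues of natural numbers factors through the prime field `ZMod ℓ`.
* `exists_maximal_over` : for a ring homomorphism `φ : 𝓞 E →+* ZMod ℓ` and an embedding
  `ι₀ : E →+* ℂ` there is a maximal ideal `𝔪` of `ℤ̄ = integralClosure ℤ ℂ` containing `ℓ` such that
  `ι₀ x ≡ (φ x).val mod 𝔪` for every `x : 𝓞 E`.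
-/
import Mathlib

set_option autoImplicit false
set_option linter.style.haveILetI false
set_option linter.unusedSectionVars false

namespace Fermat.Agent.DS.N3.Residue

open NumberField

section Factor

variable {O : Type*} [CommRing O] (I : Ideal O) (ℓ : ℕ) [hℓ : Fact ℓ.Prime]
variable {𝕋 : Type*} [Ring 𝕋]

/-- The quotient `O ⧸ I` has characteristic `ℓ` when `ℓ ∈ I ≠ ⊤`. -/
theorem charP_quotient (hI : I ≠ ⊤) (hℓI : ((ℓ : ℕ) : O) ∈ I) : CharP (O ⧸ I) ℓ := by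
  haveI : Nontrivial (O ⧸ I) := Ideal.Quotient.nontrivial_iff.mpr hI
  rw [CharP.charP_iff_prime_eq_zero hℓ.out]
  have : ((ℓ : ℕ) : O ⧸ I) = Ideal.Quotient.mk I ((ℓ : ℕ) : O) := by simp
  rw [this, Ideal.Quotient.eq_zero_iff_mem]
  exact hℓI

/-- **Factoring through the prime field.** -/
theorem exists_eigenChar_zmod (hI : I ≠ ⊤) (hℓI : ((ℓ : ℕ) : O) ∈ I)
    (θ : 𝕋 →+* O ⧸ I) (S : Set 𝕋) (hS : Subring.closure S = ⊤)
    (h : ∀ t ∈ S, ∃ n : ℕ, θ t = Ideal.Quotient.mk I ((n : ℕ) : O)) :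
    ∃ θ₀ : 𝕋 →+* ZMod ℓ, ∀ (t : 𝕋) (n : ℕ), θ t = Ideal.Quotient.mk I ((n : ℕ) : O) →
      θ₀ t = (n : ZMod ℓ) := by
  classical
  haveI : CharP (O ⧸ I) ℓ := charP_quotient I ℓ hI hℓI
  haveI : Nontrivial (O ⧸ I) := Ideal.Quotient.nontrivial_iff.mpr hI
  let ι : ZMod ℓ →+* O ⧸ I := ZMod.castHom (dvd_refl ℓ) (O ⧸ I)
  have hι : Function.Injective ι := RingHom.injective ι
  have hιn : ∀ n : ℕ, ι (n : ZMod ℓ) = Ideal.Quotient.mk I ((n : ℕ) : O) := by
    intro n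
    rw [map_natCast, map_natCast]
  have hrange : ∀ t : 𝕋, θ t ∈ ι.range := by
    intro t
    have ht : t ∈ Subring.closure S := by rw [hS]; exact Subring.mem_top t
    have hle : Subring.closure S ≤ ι.range.comap θ := by
      rw [Subring.closure_le]
      intro s hs
      obtain ⟨n, hn⟩ := h s hs
      show θ s ∈ ι.range
      rw [hn, ← hιn n]
      exact ⟨_, rfl⟩
    exact hle ht
  choose e he using hrange
  refine ⟨{ toFun := e
            map_one' := hι (by rw [he, map_one, map_one])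
            map_mul' := fun s t => hι (by rw [he, map_mul, map_mul, he, he])
            map_zero' := hι (by rw [he, map_zero, map_zero])
            map_add' := fun s t => hι (by rw [he, map_add, map_add, he, he]) }, ?_⟩
  intro t n hn
  apply hι
  show ι (e t) = ι (n : ZMod ℓ)
  rw [he, hn, hιn]

end Factor

section Factor'

variable {O : Type*} [CommRing O] (I : Ideal O) (ℓ : ℕ) [hℓ : Fact ℓ.Prime]
variable {𝕋 : Type*} [Ring 𝕋]

/-- Variant of `exists_eigenChar_zmod`: the factorisation through ANY ring homomorphism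
`ι : ZMod ℓ →+* O ⧸ I` (there is exactly one). -/
theorem exists_factor_zmod (hI : I ≠ ⊤) (hℓI : ((ℓ : ℕ) : O) ∈ I)
    (θ : 𝕋 →+* O ⧸ I) (S : Set 𝕋) (hS : Subring.closure S = ⊤)
    (h : ∀ t ∈ S, ∃ n : ℕ, θ t = Ideal.Quotient.mk I ((n : ℕ) : O)) :
    ∃ θ₀ : 𝕋 →+* ZMod ℓ, ∀ (ι : ZMod ℓ →+* O ⧸ I) (t : 𝕋), ι (θ₀ t) = θ t := by
  obtain ⟨θ₀, hθ₀⟩ := exists_eigenChar_zmod I ℓ hI hℓI θ S hS h
  refine ⟨θ₀, fun ι => ?_⟩
  -- both `ι ∘ θ₀` and `θ` are ring homomorphisms agreeing on the generators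
  have hS' : ∀ t ∈ S, ι (θ₀ t) = θ t := by
    intro t ht
    obtain ⟨n, hn⟩ := h t ht
    rw [hθ₀ t n hn, hn, map_natCast, map_natCast]
  intro t
  have ht : t ∈ Subring.closure S := by rw [hS]; exact Subring.mem_top t
  have hle : Subring.closure S ≤ RingHom.eqLocus (ι.comp θ₀) θ := by
    rw [Subring.closure_le]
    intro s hs
    exact hS' s hs
  exact hle ht

end Factor'

section Over

local notation "Zbar" => integralClosure ℤ ℂ

variable {E : Type*} [Field E] [NumberField E] (ι₀ : E →+* ℂ) (ℓ : ℕ) [hℓ : Fact ℓ.Prime]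

/-- The embedding of `𝓞 E` into `ℤ̄` induced by `ι₀`. -/
noncomputable def toZbar : 𝓞 E →+* Zbar :=
  (ι₀.comp (algebraMap (𝓞 E) E)).codRestrict (integralClosure ℤ ℂ).toSubring (fun x => by
    have hx : IsIntegral ℤ (x : E) := RingOfIntegers.isIntegral_coe x
    show IsIntegral ℤ (ι₀ (x : E))
    exact hx.map (ι₀ : E →+* ℂ).toIntAlgHom)

@[simp] theorem coe_toZbar (x : 𝓞 E) : ((toZbar ι₀ x : Zbar) : ℂ) = ι₀ (x : E) := rfl

theorem toZbar_injective : Function.Injective (toZbar ι₀) := by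
  intro x y h
  have h' : ι₀ (x : E) = ι₀ (y : E) := congrArg (fun z : Zbar => (z : ℂ)) h
  exact RingOfIntegers.coe_injective (ι₀.injective h')

/-- Every ring homomorphism `𝓞 E →+* ZMod ℓ` is surjective. -/
theorem surjective_of_ringHom (φ : 𝓞 E →+* ZMod ℓ) : Function.Surjective φ := by
  intro y
  refine ⟨((y.val : ℕ) : 𝓞 E), ?_⟩
  rw [map_natCast, ZMod.natCast_zmod_val]

/-- **A maximal ideal of `ℤ̄` over `ker φ`.** -/
theorem exists_maximal_over (φ : 𝓞 E →+* ZMod ℓ) :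
    ∃ 𝔪 : Ideal Zbar, 𝔪.IsMaximal ∧ ((ℓ : ℕ) : Zbar) ∈ 𝔪 ∧
      ∀ x : 𝓞 E, toZbar ι₀ x - (((φ x).val : ℕ) : Zbar) ∈ 𝔪 := by
  letI : Algebra (𝓞 E) Zbar := (toZbar ι₀).toAlgebra
  haveI : Algebra.IsIntegral (𝓞 E) Zbar := by
    refine ⟨fun z => ?_⟩
    have hz : IsIntegral ℤ z := by
      have := integralClosure.isIntegral (R := ℤ) (A := ℂ) z
      exact this
    exact hz.tower_top
  haveI hmaxP : (RingHom.ker φ).IsMaximal :=
    RingHom.ker_isMaximal_of_surjective φ (surjective_of_ringHom ℓ φ)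
  have hker : RingHom.ker (algebraMap (𝓞 E) Zbar) ≤ RingHom.ker φ := by
    intro x hx
    have h0 : toZbar ι₀ x = 0 := hx
    have : x = 0 := toZbar_injective ι₀ (by rw [h0, map_zero])
    rw [this]
    exact (RingHom.ker φ).zero_mem
  obtain ⟨𝔪, hmax, hcomap⟩ :=
    Ideal.exists_ideal_over_maximal_of_isIntegral (S := Zbar) (RingHom.ker φ) hker
  have hmem : ∀ x : 𝓞 E, φ x = 0 → toZbar ι₀ x ∈ 𝔪 := by
    intro x hx
    have h1 : x ∈ RingHom.ker φ := hx
    rw [← hcomap] at h1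
    exact h1
  refine ⟨𝔪, hmax, ?_, fun x => ?_⟩
  · have := hmem ((ℓ : ℕ) : 𝓞 E) (by rw [map_natCast, ZMod.natCast_self])
    rwa [map_natCast] at this
  · have := hmem (x - (((φ x).val : ℕ) : 𝓞 E)) (by
      rw [map_sub, map_natCast, ZMod.natCast_zmod_val, sub_self])
    rwa [map_sub, map_natCast] at this

end Over

end Fermat.Agent.DS.N3.Residue
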