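/-
S48 / GATE-N node N3-MAIN (= N3-THETA-INST), file 3: the mod-`ℓ` eigencharacter of a weight-two
form `F` on `Γ₁(M)` that is an eigenform modulo `𝔪`, as a ring homomorphism
`θ₀ : 𝕋 →+* ZMod ℓ` on a Hecke package `H : HeckePkg M`, and the resulting `GateModL'` output from
the export of the port (`P3 + P5`: a representation for EVERY `θ₀ : 𝕋 →+* ZMod ℓ`).

`HeckePkg M` lists exactly what is consumed from the operator layer (HECKE-NEB): a commutative
ring `𝕋` acting on `CuspForm (Gamma1 M) 2`, generated by `T p` (`p ∤ M` prime) and the diamond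
operators `D d`, with the `q`-coefficient formula
`a_n(T_p g) = a_{pn}(g) + p · [p ∣ n] a_{n/p}(⟨p⟩ g)`.
-/
import Mathlib
import Fermat.Prelude.Def_FLTPrelim_Modularity
import Fermat.Prelude.Def_GaloisRep_Residual
import Fermat.Agent.DS.N3.Cong
import Fermat.Agent.DS.N3.EigCharFormal
import Fermat.Agent.DS.N3.Residue

set_option autoImplicit false
set_option linter.style.haveILetI false
set_option linter.unusedSectionVars false

noncomputable section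

namespace Fermat.Agent.DS.N3.Theta

open CongruenceSubgroup ModularFormClass UpperHalfPlane
open scoped MatrixGroups

local notation "Γℚ" => (AlgebraicClosure ℚ ≃ₐ[ℚ] AlgebraicClosure ℚ)
local notation "Zbar" => integralClosure ℤ ℂ

/-! ### the coefficient map -/

theorem one_mem_strictPeriods_Gamma1' (M : ℕ) :
    (1 : ℝ) ∈ (Gamma1 M : Subgroup (GL (Fin 2) ℝ)).strictPeriods := by
  rw [CongruenceSubgroup.strictPeriods_Gamma1]
  exact AddSubgroup.mem_zmultiples 1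

/-- The `q`-coefficients as a linear map. -/
def coeffLin (M : ℕ) (k : ℤ) : CuspForm (Gamma1 M) k →ₗ[ℂ] (ℕ → ℂ) where
  toFun g n := qCoeff g n
  map_add' g g' := by
    funext n
    show (qExpansion 1 (⇑(g + g'))).coeff n = (qExpansion 1 ⇑g).coeff n + (qExpansion 1 ⇑g').coeff n
    rw [FunLike.coe_add, ModularForm.qExpansion_add one_pos
      (one_mem_strictPeriods_Gamma1' M) g g', map_add]
  map_smul' c g := by
    funext n
    show (qExpansion 1 (⇑(c • g))).coeff n = c • (qExpansion 1 ⇑g).coeff n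
    rw [FunLike.coe_smul, ModularForm.qExpansion_smul one_pos
      (one_mem_strictPeriods_Gamma1' M) c g, PowerSeries.coeff_smul, smul_eq_mul]

@[simp] theorem coeffLin_apply (M : ℕ) (k : ℤ) (g : CuspForm (Gamma1 M) k) (n : ℕ) :
    coeffLin M k g n = qCoeff g n := rfl

/-! ### the Hecke package -/

/-- The unit of `ZMod M` attached to a natural number prime to `M` (`1` otherwise). -/
def unitOf (M p : ℕ) : (ZMod M)ˣ :=
  if h : Nat.Coprime p M then ZMod.unitOfCoprime p h else 1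

theorem coe_unitOf {M p : ℕ} (h : Nat.Coprime p M) : ((unitOf M p : (ZMod M)ˣ) : ZMod M) = p := by
  rw [unitOf, dif_pos h, ZMod.coe_unitOfCoprime]

/-- What N3 consumes from the operator layer on `CuspForm (Gamma1 M) 2`. -/
structure HeckePkg (M : ℕ) where
  /-- the Hecke algebra -/
  𝕋 : Type
  [instCommRing : CommRing 𝕋]
  /-- its action on cusp forms -/
  act : 𝕋 →+* Module.End ℂ (CuspForm (Gamma1 M) 2)
  /-- `T p` (junk unless `p` is a prime not dividing `M`) -/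
  T : ℕ → 𝕋
  /-- the diamond operators -/
  D : (ZMod M)ˣ → 𝕋
  gen : Subring.closure ({t | ∃ p : ℕ, (p.Prime ∧ ¬ p ∣ M) ∧ t = T p} ∪ Set.range D) = ⊤
  qCoeff_T : ∀ p : ℕ, p.Prime → ¬ p ∣ M → ∀ (g : CuspForm (Gamma1 M) 2) (n : ℕ),
    qCoeff (act (T p) g) n = qCoeff g (p * n) +
      (p : ℂ) * (if p ∣ n then qCoeff (act (D (unitOf M p)) g) (n / p) else 0)

attribute [instance] HeckePkg.instCommRing

section Theta

variable {M : ℕ} (H : HeckePkg M) {ℓ : ℕ} [hℓ : Fact ℓ.Prime]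
variable {𝔪 : Ideal Zbar} [hmax : 𝔪.IsMaximal]

theorem locMax_ne_top : locMax 𝔪 ≠ ⊤ := by
  intro h
  have h1 : (1 : locSub 𝔪) ∈ locMax 𝔪 := by rw [h]; exact Submodule.mem_top
  obtain ⟨a, b, ha, hb, hab⟩ := h1
  apply hb
  have : b = a := by
    apply Subtype.ext
    rw [← hab]
    simp
  rw [this]
  exact ha

theorem natCast_mem_locMax (hℓ𝔪 : ((ℓ : ℕ) : Zbar) ∈ 𝔪) : ((ℓ : ℕ) : locSub 𝔪) ∈ locMax 𝔪 := by
  have := mem_locMax_of_mem 𝔪 hℓ𝔪
  convert this using 1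
  apply Subtype.ext
  simp

/-- **The mod-`ℓ` eigencharacter on a Hecke package.**  `F` has nebentypus `χ` (values in the local
ring `locSub 𝔪`), `a_1(F) = 1`, and satisfies the weight-two Hecke relations with eigenvalues `a p`
modulo `locMax 𝔪`; the `a p` and `χ d` are congruent to natural numbers modulo `locMax 𝔪`.  Then
there is `θ₀ : 𝕋 →+* ZMod ℓ` whose composite with any `ι : ZMod ℓ →+* locSub 𝔪 ⧸ locMax 𝔪` sends
`T p ↦ a p`, `D d ↦ χ d`. -/
theorem exists_theta_zmod (hℓ𝔪 : ((ℓ : ℕ) : Zbar) ∈ 𝔪)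
    (F : CuspForm (Gamma1 M) 2) (χ : (ZMod M)ˣ → locSub 𝔪) (a : ℕ → locSub 𝔪)
    (hχ : ∀ d, H.act (H.D d) F = ((χ d : ℂ)) • F) (h1 : qCoeff F 1 = 1)
    (hcong : ∀ p : ℕ, p.Prime → ¬ p ∣ M → ∀ n : ℕ,
      ∃ x ∈ locMax 𝔪, (x : ℂ) =
        qCoeff F (p * n) + (χ (unitOf M p) : ℂ) * (p : ℂ) *
          (if p ∣ n then qCoeff F (n / p) else 0) - (a p : ℂ) * qCoeff F n)
    (hinta : ∀ p : ℕ, p.Prime → ¬ p ∣ M → ∃ n : ℕ, a p - (n : locSub 𝔪) ∈ locMax 𝔪)
    (hintχ : ∀ d, ∃ n : ℕ, χ d - (n : locSub 𝔪) ∈ locMax 𝔪) :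
    ∃ θ₀ : H.𝕋 →+* ZMod ℓ, ∀ ι : ZMod ℓ →+* (locSub 𝔪 ⧸ locMax 𝔪),
      (∀ p : ℕ, p.Prime → ¬ p ∣ M → ι (θ₀ (H.T p)) = Ideal.Quotient.mk (locMax 𝔪) (a p)) ∧
      ∀ d, ι (θ₀ (H.D d)) = Ideal.Quotient.mk (locMax 𝔪) (χ d) := by
  obtain ⟨θ, hθT, hθD⟩ := EigChar.exists_eigenChar_formal (coeffLin M 2) H.act H.D (locSub 𝔪)
    (locMax 𝔪) χ (fun p => p.Prime ∧ ¬ p ∣ M) H.T (unitOf M) H.gen
    (fun p hp g n => H.qCoeff_T p hp.1 hp.2 g n) a F hχ h1
    (fun p hp n => hcong p hp.1 hp.2 n)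
  obtain ⟨θ₀, hθ₀⟩ := Residue.exists_factor_zmod (locMax 𝔪) ℓ locMax_ne_top
    (natCast_mem_locMax hℓ𝔪) θ _ H.gen (by
      rintro t (⟨p, hp, rfl⟩ | ⟨d, rfl⟩)
      · obtain ⟨n, hn⟩ := hinta p hp.1 hp.2
        refine ⟨n, ?_⟩
        rw [hθT p hp, Ideal.Quotient.eq]
        exact hn
      · obtain ⟨n, hn⟩ := hintχ d
        refine ⟨n, ?_⟩
        rw [hθD d, Ideal.Quotient.eq]
        exact hn)
  refine ⟨θ₀, fun ι => ⟨fun p hp hpM => ?_, fun d => ?_⟩⟩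
  · rw [hθ₀ ι, hθT p ⟨hp, hpM⟩]
  · rw [hθ₀ ι, hθD d]

end Theta

end Fermat.Agent.DS.N3.Theta
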