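/-
S48 (Deligne–Serre) / node (N3), gap (g7): **depletion, analytic part** (helper12).

For `f ∈ S_k(Γ₁(N))` the series `∑_{gcd(n,N)=1} a_n(f) qⁿ` is the `q`-expansion of a cusp form on
`Γ₁(N²)`:  `f' = ∑_{j mod N} c_j f(τ + j/N)`,  `c_j = N⁻¹ ∑_{u ∈ (ℤ/N)ˣ} e(-uj/N)`.

* `slash_upperRightHom`     : `f ∣[k] [1 x; 0 1] = f(x + ·)`;
* `exists_conj_upperRight`  : `[1 b/N; 0 1] Γ₁(N²) [1 -b/N; 0 1] ⊆ Γ₁(N)`;
* `shiftForm N k f b`       : `τ ↦ f(τ + b/N)` as an element of `CuspForm (Gamma1 (N * N)) k`;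
* `hasSum_shiftForm`        : its `q`-expansion `∑ e(jm/N) a_m qᵐ`;
* `depl_char_sum`           : `∑_j c_j e(jm/N) = [gcd(m,N) = 1]`;
* **`exists_depleted`**.

Mathlib + Prelude `qCoeff` + helper16's `DS/Glue/LevelGlue` (`cfRestrict`).
-/
import Mathlib
import Fermat.Prelude.Def_FLTPrelim_Modularity
import Fermat.Agent.DS.Glue.LevelGlue

set_option autoImplicit false

noncomputable section

namespace Fermat.Agent.DS.N3

open CongruenceSubgroup UpperHalfPlane ModularFormClass Matrix.SpecialLinearGroup Matrix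
open scoped MatrixGroups ModularForm
open Fermat.Agent.DS.Glue (one_mem_strictPeriods_Gamma1)

/-! ### translation by a real number -/

/-- the slash action of `[1 x; 0 1]` is the translation by `x` -/
theorem slash_upperRightHom (f : ℍ → ℂ) (k : ℤ) (x : ℝ) (τ : ℍ) :
    (f ∣[k] GeneralLinearGroup.upperRightHom x) τ = f (x +ᵥ τ) := by
  have h : GeneralLinearGroup.upperRightHom x • τ = x +ᵥ τ := by
    ext
    simp [σ, num, denom, coe_vadd, UpperHalfPlane.coe_smul, add_comm]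
  simp_rw [ModularForm.slash_def, h]
  simp [σ, denom, GeneralLinearGroup.val_det_apply]

theorem mapGL_entry (g : SL(2, ℤ)) (i j : Fin 2) :
    (mapGL ℝ g : GL (Fin 2) ℝ) i j = ((g i j : ℤ) : ℝ) := by
  simp

theorem upperRight_entries (x : ℝ) :
    (GeneralLinearGroup.upperRightHom x : GL (Fin 2) ℝ) 0 0 = 1 ∧
    (GeneralLinearGroup.upperRightHom x : GL (Fin 2) ℝ) 0 1 = x ∧
    (GeneralLinearGroup.upperRightHom x : GL (Fin 2) ℝ) 1 0 = 0 ∧
    (GeneralLinearGroup.upperRightHom x : GL (Fin 2) ℝ) 1 1 = 1 := by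
  simp [GeneralLinearGroup.upperRightHom_apply]

/-- conjugating `Γ₁(N²)` by `[1 b/N; 0 1]` lands in `Γ₁(N)` -/
theorem exists_conj_upperRight (N : ℕ) [NeZero N] (b : ℤ) (γ : SL(2, ℤ))
    (hγ : γ ∈ Gamma1 (N * N)) :
    ∃ γ' ∈ Gamma1 N, GeneralLinearGroup.upperRightHom ((b : ℝ) / N) * mapGL ℝ γ =
      mapGL ℝ γ' * GeneralLinearGroup.upperRightHom ((b : ℝ) / N) := by
  rw [Gamma1_mem] at hγ
  obtain ⟨h00, h11, h10⟩ := hγ
  have hc : ((N * N : ℕ) : ℤ) ∣ γ 1 0 := by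
    rwa [← ZMod.intCast_zmod_eq_zero_iff_dvd]
  have ha : ((N * N : ℕ) : ℤ) ∣ γ 0 0 - 1 := by
    rw [← ZMod.intCast_zmod_eq_zero_iff_dvd]; push_cast; rw [h00]; simp
  have hd : ((N * N : ℕ) : ℤ) ∣ γ 1 1 - 1 := by
    rw [← ZMod.intCast_zmod_eq_zero_iff_dvd]; push_cast; rw [h11]; simp
  obtain ⟨c₀, hc₀⟩ := hc
  obtain ⟨a₀, ha₀⟩ := ha
  obtain ⟨d₀, hd₀⟩ := hd
  have hdet : γ 0 0 * γ 1 1 - γ 0 1 * γ 1 0 = 1 := by
    have := γ.det_coe
    rw [Matrix.det_fin_two] at this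
    exact this
  push_cast at hc₀ ha₀ hd₀
  have e1 : γ 0 0 = 1 + N * N * a₀ := by linarith
  have e2 : γ 1 1 = 1 + N * N * d₀ := by linarith
  have hdet' : (!![γ 0 0 + b * N * c₀, γ 0 1 + b * N * (d₀ - a₀) - b * b * c₀;
      γ 1 0, γ 1 1 - b * N * c₀] : Matrix (Fin 2) (Fin 2) ℤ).det = 1 := by
    rw [Matrix.det_fin_two_of]
    rw [e1, e2, hc₀] at hdet ⊢
    linear_combination hdet
  let γ' : SL(2, ℤ) := ⟨!![γ 0 0 + b * N * c₀, γ 0 1 + b * N * (d₀ - a₀) - b * b * c₀;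
      γ 1 0, γ 1 1 - b * N * c₀], hdet'⟩
  have g00 : γ' 0 0 = γ 0 0 + b * N * c₀ := rfl
  have g01 : γ' 0 1 = γ 0 1 + b * N * (d₀ - a₀) - b * b * c₀ := rfl
  have g10 : γ' 1 0 = γ 1 0 := rfl
  have g11 : γ' 1 1 = γ 1 1 - b * N * c₀ := rfl
  refine ⟨γ', ?_, ?_⟩
  · rw [Gamma1_mem]
    refine ⟨?_, ?_, ?_⟩
    · rw [g00, e1]; push_cast; simp
    · rw [g11, e2]; push_cast; simp
    · rw [g10, hc₀]; push_cast; simp
  · have hN : (N : ℝ) ≠ 0 := Nat.cast_ne_zero.2 (NeZero.ne N)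
    obtain ⟨u00, u01, u10, u11⟩ := upperRight_entries ((b : ℝ) / N)
    ext i j
    fin_cases i <;> fin_cases j <;>
    simp only [Fin.zero_eta, Fin.mk_one, Fin.isValue, Units.val_mul, Matrix.mul_apply,
      Fin.sum_univ_two, mapGL_entry, u00, u01, u10, u11, g00, g01, g10, g11, e1, e2, hc₀] <;>
    push_cast <;> field_simp <;> ring

open ConjAct Pointwise in
theorem Gamma1_sq_le_conj (N : ℕ) [NeZero N] (b : ℤ) :
    (Gamma1 (N * N) : Subgroup (GL (Fin 2) ℝ)) ≤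
      toConjAct (GeneralLinearGroup.upperRightHom ((b : ℝ) / N))⁻¹ •
        (Gamma1 N : Subgroup (GL (Fin 2) ℝ)) := by
  rintro _ ⟨γ, hγ, rfl⟩
  obtain ⟨γ', hγ', h⟩ := exists_conj_upperRight N b γ hγ
  rw [Subgroup.mem_pointwise_smul_iff_inv_smul_mem, ← map_inv, inv_inv, ConjAct.smul_def,
    ConjAct.ofConjAct_toConjAct]
  refine ⟨γ', hγ', ?_⟩
  show mapGL ℝ γ' = _
  rw [h]; group

/-- `τ ↦ f (τ + b/N)` as a cusp form on `Γ₁(N²)` -/
def shiftForm (N : ℕ) [NeZero N] (k : ℤ) (f : CuspForm (Gamma1 N) k) (b : ℤ) :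
    CuspForm (Gamma1 (N * N)) k :=
  Fermat.Agent.DS.Glue.cfRestrict (Gamma1_sq_le_conj N b)
    (CuspForm.translate f (GeneralLinearGroup.upperRightHom ((b : ℝ) / N)))

theorem shiftForm_apply (N : ℕ) [NeZero N] (k : ℤ) (f : CuspForm (Gamma1 N) k) (b : ℤ) (τ : ℍ) :
    shiftForm N k f b τ = f (((b : ℝ) / N) +ᵥ τ) := by
  show ((f : ℍ → ℂ) ∣[k] GeneralLinearGroup.upperRightHom ((b : ℝ) / N)) τ = _
  exact slash_upperRightHom _ _ _ _

/-! ### `q`-expansions -/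

theorem cuspForm_sum_apply {Γ : Subgroup (GL (Fin 2) ℝ)} {k : ℤ} {ι : Type*} (s : Finset ι)
    (F : ι → CuspForm Γ k) (τ : ℍ) : (∑ i ∈ s, F i) τ = ∑ i ∈ s, F i τ := by
  classical
  induction s using Finset.induction_on with
  | empty => simp
  | insert a s ha ih => rw [Finset.sum_insert ha, Finset.sum_insert ha, ← ih]; rfl

theorem qParam_vadd (x : ℝ) (τ : ℍ) :
    Function.Periodic.qParam 1 ((x +ᵥ τ : ℍ) : ℂ) =
      Complex.exp (2 * Real.pi * Complex.I * x) * Function.Periodic.qParam 1 (τ : ℂ) := by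
  rw [Function.Periodic.qParam, Function.Periodic.qParam, coe_vadd, ← Complex.exp_add]
  congr 1
  push_cast
  ring

theorem hasSum_qCoeff {N : ℕ} [NeZero N] {k : ℤ} (f : CuspForm (Gamma1 N) k) (τ : ℍ) :
    HasSum (fun m : ℕ => qCoeff f m • Function.Periodic.qParam 1 (τ : ℂ) ^ m) (f τ) := by
  have hΓ := one_mem_strictPeriods_Gamma1 N
  have : Fact (IsCusp OnePoint.infty (Gamma1 N : Subgroup (GL (Fin 2) ℝ))) :=
    ⟨Subgroup.isCusp_of_mem_strictPeriods one_pos hΓ⟩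
  exact UpperHalfPlane.hasSum_qExpansion one_pos
    (SlashInvariantFormClass.periodic_comp_ofComplex f hΓ) (ModularFormClass.holo f)
    (ModularFormClass.bdd_at_infty f) τ

theorem stdAddChar_eq_exp {N : ℕ} [NeZero N] (j : ZMod N) :
    ZMod.stdAddChar j =
      Complex.exp (2 * Real.pi * Complex.I * (((((j.val : ℤ) : ℝ) / (N : ℝ) : ℝ)) : ℂ)) := by
  rw [ZMod.stdAddChar_apply, ZMod.toCircle_apply]
  congr 1
  push_cast
  ring

/-- `q`-expansion of the shifted form -/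
theorem hasSum_shiftForm (N : ℕ) [NeZero N] (k : ℤ) (f : CuspForm (Gamma1 N) k) (j : ZMod N)
    (τ : ℍ) :
    HasSum (fun m : ℕ => (ZMod.stdAddChar (j * (m : ZMod N)) * qCoeff f m) •
      Function.Periodic.qParam 1 (τ : ℂ) ^ m) (shiftForm N k f (j.val : ℤ) τ) := by
  rw [shiftForm_apply]
  have h := hasSum_qCoeff f ((((j.val : ℤ) : ℝ) / N) +ᵥ τ)
  convert h using 2 with m
  rw [qParam_vadd, ← stdAddChar_eq_exp, mul_pow, ← AddChar.map_nsmul_eq_pow, nsmul_eq_mul,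
    smul_eq_mul, smul_eq_mul, mul_comm (m : ZMod N) j]
  ring

/-! ### the character sum -/

theorem depl_char_sum {N : ℕ} [NeZero N] (m : ℕ) :
    ∑ j : ZMod N, ((N : ℂ)⁻¹ * ∑ u : (ZMod N)ˣ, ZMod.stdAddChar (-((u : ZMod N) * j))) *
      ZMod.stdAddChar (j * (m : ZMod N)) = if m.Coprime N then 1 else 0 := by
  classical
  have h1 : ∀ j : ZMod N, ((N : ℂ)⁻¹ * ∑ u : (ZMod N)ˣ, ZMod.stdAddChar (-((u : ZMod N) * j))) *
      ZMod.stdAddChar (j * (m : ZMod N)) =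
      (N : ℂ)⁻¹ * ∑ u : (ZMod N)ˣ, ZMod.stdAddChar (j * ((m : ZMod N) - (u : ZMod N))) := by
    intro j
    rw [mul_assoc, Finset.sum_mul]
    congr 1
    refine Finset.sum_congr rfl fun u _ => ?_
    rw [← AddChar.map_add_eq_mul]
    congr 1
    ring
  simp_rw [h1]
  rw [← Finset.mul_sum, Finset.sum_comm]
  have h2 : ∀ u : (ZMod N)ˣ,
      ∑ j : ZMod N, ZMod.stdAddChar (j * ((m : ZMod N) - (u : ZMod N))) =
      if ((m : ZMod N) - (u : ZMod N) = 0) then (N : ℂ) else 0 := by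
    intro u
    rw [AddChar.sum_mulShift _ (ZMod.isPrimitive_stdAddChar N)]
    simp [ZMod.card]
  simp_rw [h2]
  rw [Finset.mul_sum]
  have hN : (N : ℂ) ≠ 0 := Nat.cast_ne_zero.2 (NeZero.ne N)
  by_cases hm : m.Coprime N
  · rw [if_pos hm, Finset.sum_eq_single (ZMod.unitOfCoprime m hm)]
    · rw [ZMod.coe_unitOfCoprime, sub_self, if_pos rfl, inv_mul_cancel₀ hN]
    · intro u _ hu
      rw [if_neg, mul_zero]
      intro h
      apply hu
      ext
      rw [ZMod.coe_unitOfCoprime]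
      exact (sub_eq_zero.1 h).symm
    · simp
  · rw [if_neg hm]
    apply Finset.sum_eq_zero
    intro u _
    rw [if_neg, mul_zero]
    intro h
    apply hm
    rw [← ZMod.isUnit_iff_coprime, sub_eq_zero.1 h]
    exact u.isUnit

/-! ### the depleted form -/

/-- **depletion**: `∑_{gcd(n,N)=1} a_n(f) qⁿ` is (the `q`-expansion of) a cusp form on `Γ₁(N²)` -/
theorem exists_depleted (N : ℕ) [NeZero N] (k : ℤ) (f : CuspForm (Gamma1 N) k) :
    ∃ g : CuspForm (Gamma1 (N * N)) k,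
      ∀ n, qCoeff g n = if n.Coprime N then qCoeff f n else 0 := by
  classical
  let c : ZMod N → ℂ := fun j =>
    (N : ℂ)⁻¹ * ∑ u : (ZMod N)ˣ, ZMod.stdAddChar (-((u : ZMod N) * j))
  let g : CuspForm (Gamma1 (N * N)) k := ∑ j : ZMod N, c j • shiftForm N k f (j.val : ℤ)
  refine ⟨g, fun n => ?_⟩
  have hsum : ∀ τ : ℍ, HasSum (fun m : ℕ =>
      ((∑ j : ZMod N, c j * ZMod.stdAddChar (j * (m : ZMod N))) * qCoeff f m) •
        Function.Periodic.qParam 1 (τ : ℂ) ^ m) (g τ) := by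
    intro τ
    have h1 : g τ = ∑ j : ZMod N, c j * shiftForm N k f (j.val : ℤ) τ := by
      show (∑ j : ZMod N, c j • shiftForm N k f (j.val : ℤ)) τ = _
      rw [cuspForm_sum_apply]
      rfl
    rw [h1]
    have h2 := hasSum_sum (s := Finset.univ) (fun (j : ZMod N) _ =>
      (hasSum_shiftForm N k f j τ).mul_left (c j))
    have h3 : (fun m : ℕ =>
        ((∑ j : ZMod N, c j * ZMod.stdAddChar (j * (m : ZMod N))) * qCoeff f m) •
          Function.Periodic.qParam 1 (τ : ℂ) ^ m) =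
        fun m : ℕ => ∑ j : ZMod N, c j * ((ZMod.stdAddChar (j * (m : ZMod N)) * qCoeff f m) •
          Function.Periodic.qParam 1 (τ : ℂ) ^ m) := by
      funext m
      rw [Finset.sum_mul, Finset.sum_smul]
      refine Finset.sum_congr rfl fun j _ => ?_
      simp only [smul_eq_mul]
      ring
    rw [h3]
    exact h2
  have hu := ModularFormClass.qExpansion_coeff_unique (f := g) one_pos
    (one_mem_strictPeriods_Gamma1 (N * N)) hsum n
  rw [qCoeff, ← hu, depl_char_sum]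
  split_ifs <;> simp

end Fermat.Agent.DS.N3
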