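/-
S48 (Deligne–Serre) / node (N3), gap (g7): **depletion, formal part** (helper12).

The frozen hypotheses of S48 control the coefficients `a_n` of `f` only for `gcd(n, N) = 1`
(`f` may be `g(z) + c g(dz)` with `c` transcendental).  Replace `(N, ε, f)` by
`(N², ε', f')`, `f' = ∑_{gcd(n,N)=1} a_n qⁿ` (constructed in `Deplete.lean`): then

* `dep_one`, `dep_hecke`  : `f'` satisfies the frozen hypotheses at level `N * N`, character
  `ε' = changeLevel ε`;
* `coeff_mem_of_coprime`, `dep_mem` : all coefficients of `f'` lie in every subring containing the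
  `a_p`, `ε(p)` (`p ∤ N`);
* `s48_of_depleted` : the frozen conclusion for `(N * N, ε', f')` is the frozen conclusion for
  `(N, ε, f)`.
-/
import Mathlib
import Fermat.Prelude.Def_FLTPrelim_Modularity
import Fermat.Prelude.Def_GaloisRep_Residual
import Fermat.Prelude.Def_Deformations_MatrixRepresentation

set_option autoImplicit false
set_option linter.unusedSectionVars false

noncomputable section

namespace Fermat.Agent.DS.N3

open CongruenceSubgroup
open scoped MatrixGroups

local notation "Γℚ" => (AlgebraicClosure ℚ ≃ₐ[ℚ] AlgebraicClosure ℚ)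

section Formal

variable {N : ℕ} [NeZero N]

theorem prime_not_dvd_of_not_dvd_mul_self {p : ℕ} (h : ¬ p ∣ N * N) : ¬ p ∣ N :=
  fun h' => h (h'.mul_right N)

theorem prime_not_dvd_mul_self {p : ℕ} (hp : p.Prime) (h : ¬ p ∣ N) : ¬ p ∣ N * N :=
  fun h' => (hp.dvd_mul.1 h').elim h h

theorem changeLevel_natCast_of_not_dvd (ε : DirichletCharacter ℂ N) {p : ℕ} (hp : p.Prime)
    (h : ¬ p ∣ N) :
    (DirichletCharacter.changeLevel (dvd_mul_right N N) ε) ((p : ℕ) : ZMod (N * N)) =
      ε ((p : ℕ) : ZMod N) := by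
  have hc : p.Coprime (N * N) := (Nat.Prime.coprime_iff_not_dvd hp).2 (prime_not_dvd_mul_self hp h)
  have h1 := DirichletCharacter.changeLevel_eq_cast_of_dvd ε (dvd_mul_right N N)
    (ZMod.unitOfCoprime p hc)
  rw [ZMod.coe_unitOfCoprime] at h1
  rw [h1, ZMod.cast_natCast (dvd_mul_right N N)]

variable (ε : DirichletCharacter ℂ N) (a b : ℕ → ℂ)

/-- the depleted coefficients satisfy the Hecke relations at level `N * N` -/
theorem dep_hecke
    (hT : ∀ p : ℕ, p.Prime → ¬ p ∣ N → ∀ n : ℕ,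
      a (p * n) + ε (p : ZMod N) * (if p ∣ n then a (n / p) else 0) = a p * a n)
    (hb : ∀ n, b n = if n.Coprime N then a n else 0) :
    ∀ p : ℕ, p.Prime → ¬ p ∣ N * N → ∀ n : ℕ,
      b (p * n) + (DirichletCharacter.changeLevel (dvd_mul_right N N) ε) (p : ZMod (N * N)) *
        (if p ∣ n then b (n / p) else 0) = b p * b n := by
  intro p hp hpNN n
  have hpN : ¬ p ∣ N := prime_not_dvd_of_not_dvd_mul_self hpNN
  have hpc : p.Coprime N := (Nat.Prime.coprime_iff_not_dvd hp).2 hpN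
  rw [changeLevel_natCast_of_not_dvd ε hp hpN, hb p, if_pos hpc, hb n, hb (p * n)]
  by_cases hn : n.Coprime N
  · rw [if_pos hn, if_pos (Nat.Coprime.mul_left hpc hn)]
    by_cases hpn : p ∣ n
    · rw [if_pos hpn, hb (n / p), if_pos (Nat.Coprime.coprime_dvd_left (Nat.div_dvd_of_dvd hpn) hn)]
      have := hT p hp hpN n
      rwa [if_pos hpn] at this
    · rw [if_neg hpn]
      have := hT p hp hpN n
      rwa [if_neg hpn] at this
  · rw [if_neg hn, if_neg (fun h => hn (Nat.Coprime.coprime_mul_left h)), mul_zero, zero_add]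
    by_cases hpn : p ∣ n
    · rw [if_pos hpn, hb (n / p), if_neg, mul_zero]
      intro h
      apply hn
      have : n = p * (n / p) := (Nat.mul_div_cancel' hpn).symm
      rw [this]
      exact Nat.Coprime.mul_left hpc h
    · rw [if_neg hpn, mul_zero]

/-- all coefficients prime to `N` lie in the subring generated by the `a_p`, `ε(p)` -/
theorem coeff_mem_of_coprime (S : Subring ℂ) (ha1 : a 1 = 1)
    (hT : ∀ p : ℕ, p.Prime → ¬ p ∣ N → ∀ n : ℕ,
      a (p * n) + ε (p : ZMod N) * (if p ∣ n then a (n / p) else 0) = a p * a n)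
    (hε : ∀ p : ℕ, p.Prime → ¬ p ∣ N → ε (p : ZMod N) ∈ S)
    (hap : ∀ p : ℕ, p.Prime → ¬ p ∣ N → a p ∈ S) :
    ∀ n : ℕ, 0 < n → n.Coprime N → a n ∈ S := by
  intro n
  induction n using Nat.strong_induction_on with
  | _ n ih =>
    intro hn0 hn
    rcases Nat.lt_or_ge n 2 with h2 | h2
    · have : n = 1 := by omega
      rw [this, ha1]
      exact S.one_mem
    · have hn1 : n ≠ 1 := by omega
      set p := n.minFac with hp_def
      have hp : p.Prime := Nat.minFac_prime hn1
      have hpn : p ∣ n := Nat.minFac_dvd n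
      have hpc : p.Coprime N := Nat.Coprime.coprime_dvd_left hpn hn
      have hpN : ¬ p ∣ N := (Nat.Prime.coprime_iff_not_dvd hp).1 hpc
      set m := n / p with hm_def
      have hnm : n = p * m := (Nat.mul_div_cancel' hpn).symm
      have hm0 : 0 < m := Nat.div_pos (Nat.le_of_dvd hn0 hpn) hp.pos
      have hmn : m < n := Nat.div_lt_self hn0 hp.one_lt
      have hmc : m.Coprime N := Nat.Coprime.coprime_dvd_left (Nat.div_dvd_of_dvd hpn) hn
      have key := hT p hp hpN m
      have e : a n = a p * a m - ε (p : ZMod N) * (if p ∣ m then a (m / p) else 0) := by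
        rw [hnm, ← key]; ring
      rw [e]
      refine S.sub_mem (S.mul_mem (hap p hp hpN) (ih m hmn hm0 hmc)) (S.mul_mem (hε p hp hpN) ?_)
      by_cases hpm : p ∣ m
      · rw [if_pos hpm]
        have hmp0 : 0 < m / p := Nat.div_pos (Nat.le_of_dvd hm0 hpm) hp.pos
        exact ih (m / p) (lt_of_le_of_lt (Nat.div_le_self m p) hmn) hmp0
          (Nat.Coprime.coprime_dvd_left (Nat.div_dvd_of_dvd hpm) hmc)
      · rw [if_neg hpm]
        exact S.zero_mem

/-- all coefficients of the depleted series lie in the subring generated by the `a_p`, `ε(p)` -/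
theorem dep_mem (S : Subring ℂ) (ha0 : a 0 = 0) (ha1 : a 1 = 1)
    (hT : ∀ p : ℕ, p.Prime → ¬ p ∣ N → ∀ n : ℕ,
      a (p * n) + ε (p : ZMod N) * (if p ∣ n then a (n / p) else 0) = a p * a n)
    (hε : ∀ p : ℕ, p.Prime → ¬ p ∣ N → ε (p : ZMod N) ∈ S)
    (hap : ∀ p : ℕ, p.Prime → ¬ p ∣ N → a p ∈ S)
    (hb : ∀ n, b n = if n.Coprime N then a n else 0) (n : ℕ) : b n ∈ S := by
  rw [hb n]
  split_ifs with hn
  · rcases Nat.eq_zero_or_pos n with h0 | h0
    · rw [h0, ha0]
      exact S.zero_mem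
    · exact coeff_mem_of_coprime ε a S ha1 hT hε hap n h0 hn
  · exact S.zero_mem

end Formal

section Forms

open ModularFormClass

variable (N : ℕ) [NeZero N] (ε : DirichletCharacter ℂ N) (f : CuspForm (Gamma1 N) 1)
  (g : CuspForm (Gamma1 (N * N)) 1)

/-- `a₁(f') = 1` -/
theorem dep_one (hf₁ : qCoeff f 1 = 1)
    (hg : ∀ n, qCoeff g n = if n.Coprime N then qCoeff f n else 0) : qCoeff g 1 = 1 := by
  rw [hg 1, if_pos (Nat.coprime_one_left N), hf₁]

/-- the frozen Hecke hypothesis of S48 for the depleted form, at level `N * N` -/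
theorem dep_hecke_form
    (hT : ∀ p : ℕ, p.Prime → ¬ p ∣ N → ∀ n : ℕ,
        qCoeff f (p * n) + ε (p : ZMod N) * (if p ∣ n then qCoeff f (n / p) else 0) =
          qCoeff f p * qCoeff f n)
    (hg : ∀ n, qCoeff g n = if n.Coprime N then qCoeff f n else 0) :
    ∀ p : ℕ, p.Prime → ¬ p ∣ N * N → ∀ n : ℕ,
        qCoeff g (p * n) + (DirichletCharacter.changeLevel (dvd_mul_right N N) ε) (p : ZMod (N * N)) *
          (if p ∣ n then qCoeff g (n / p) else 0) = qCoeff g p * qCoeff g n :=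
  dep_hecke ε (fun n => qCoeff f n) (fun n => qCoeff g n) hT hg

/-- **the frozen conclusion of S48 for the depleted form implies it for `f`** -/
theorem s48_of_depleted
    (hg : ∀ n, qCoeff g n = if n.Coprime N then qCoeff f n else 0)
    (h : ∃ ρ : Γℚ →* GL (Fin 2) ℂ, GaloisFactorsThroughFiniteLevel ρ ∧
      (Deformation.matrixRepresentation ρ).IsIrreducible ∧
      ∀ p : ℕ, p.Prime → ¬ p ∣ N * N →
        ∀ A : ValuationSubring (AlgebraicClosure ℚ), A.LiesOverPrime p →
          (∀ σ ∈ A.inertiaSubgroupIn ℚ, ρ σ = 1) ∧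
          ∀ σ : Γℚ, A.IsFrobeniusAt σ p →
            ((ρ σ : GL (Fin 2) ℂ) : Matrix (Fin 2) (Fin 2) ℂ).trace = qCoeff g p ∧
            ((ρ σ : GL (Fin 2) ℂ) : Matrix (Fin 2) (Fin 2) ℂ).det =
              (DirichletCharacter.changeLevel (dvd_mul_right N N) ε) (p : ZMod (N * N))) :
    ∃ ρ : Γℚ →* GL (Fin 2) ℂ, GaloisFactorsThroughFiniteLevel ρ ∧
      (Deformation.matrixRepresentation ρ).IsIrreducible ∧
      ∀ p : ℕ, p.Prime → ¬ p ∣ N →
        ∀ A : ValuationSubring (AlgebraicClosure ℚ), A.LiesOverPrime p →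
          (∀ σ ∈ A.inertiaSubgroupIn ℚ, ρ σ = 1) ∧
          ∀ σ : Γℚ, A.IsFrobeniusAt σ p →
            ((ρ σ : GL (Fin 2) ℂ) : Matrix (Fin 2) (Fin 2) ℂ).trace = qCoeff f p ∧
            ((ρ σ : GL (Fin 2) ℂ) : Matrix (Fin 2) (Fin 2) ℂ).det = ε (p : ZMod N) := by
  obtain ⟨ρ, h1, h2, h3⟩ := h
  refine ⟨ρ, h1, h2, fun p hp hpN A hA => ?_⟩
  obtain ⟨hi, hF⟩ := h3 p hp (prime_not_dvd_mul_self hp hpN) A hA
  refine ⟨hi, fun σ hσ => ?_⟩
  obtain ⟨ht, hd⟩ := hF σ hσ
  have hpc : p.Coprime N := (Nat.Prime.coprime_iff_not_dvd hp).2 hpN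
  rw [hg p, if_pos hpc] at ht
  rw [changeLevel_natCast_of_not_dvd ε hp hpN] at hd
  exact ⟨ht, hd⟩

end Forms

end Fermat.Agent.DS.N3
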