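/-
S48 (Deligne–Serre) / node (N3), gap (g7): **the reduction to forms with integral coefficients**
(helper12).

`s48_reduce` : to prove the frozen S48 it suffices to prove it for those `(N, ε, f)` all of whose
`q`-coefficients lie in the subring `heckeRing N ε f` of `ℂ` generated by the `a_p(f)`, `ε(p)`
(`p ∤ N` prime).  [Apply the statement to the depleted form `∑_{gcd(n,N)=1} a_n qⁿ` of level `N²`.]
-/
import Mathlib
import Fermat.Agent.DS.N3.Deplete
import Fermat.Agent.DS.N3.DepleteHyp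

set_option autoImplicit false

noncomputable section

namespace Fermat.Agent.DS.N3

open CongruenceSubgroup ModularFormClass UpperHalfPlane
open scoped MatrixGroups

local notation "Γℚ" => (AlgebraicClosure ℚ ≃ₐ[ℚ] AlgebraicClosure ℚ)

/-- the subring of `ℂ` generated by the `a_p(f)` and `ε(p)`, `p ∤ N` prime -/
def heckeRing (N : ℕ) (ε : DirichletCharacter ℂ N) (f : ℍ → ℂ) : Subring ℂ :=
  Subring.closure ({x | ∃ p : ℕ, p.Prime ∧ ¬ p ∣ N ∧ x = qCoeff f p} ∪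
    {x | ∃ p : ℕ, p.Prime ∧ ¬ p ∣ N ∧ x = ε (p : ZMod N)})

theorem qCoeff_prime_mem_heckeRing (N : ℕ) (ε : DirichletCharacter ℂ N) (f : ℍ → ℂ) {p : ℕ}
    (hp : p.Prime) (hpN : ¬ p ∣ N) : qCoeff f p ∈ heckeRing N ε f :=
  Subring.subset_closure (Or.inl ⟨p, hp, hpN, rfl⟩)

theorem char_prime_mem_heckeRing (N : ℕ) (ε : DirichletCharacter ℂ N) (f : ℍ → ℂ) {p : ℕ}
    (hp : p.Prime) (hpN : ¬ p ∣ N) : ε (p : ZMod N) ∈ heckeRing N ε f :=
  Subring.subset_closure (Or.inr ⟨p, hp, hpN, rfl⟩)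

/-- the cusp form of the frozen S48 has a depleted companion of level `N * N` with the same
hypotheses, the same `a_p`, `ε(p)` at `p ∤ N`, and ALL coefficients in its Hecke ring -/
theorem exists_depleted_s48 (N : ℕ) [NeZero N] (ε : DirichletCharacter ℂ N)
    (f : CuspForm (Gamma1 N) 1) (hf₁ : qCoeff f 1 = 1)
    (hT : ∀ p : ℕ, p.Prime → ¬ p ∣ N → ∀ n : ℕ,
        qCoeff f (p * n) + ε (p : ZMod N) * (if p ∣ n then qCoeff f (n / p) else 0) =
          qCoeff f p * qCoeff f n) :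
    ∃ g : CuspForm (Gamma1 (N * N)) 1,
      (∀ n, qCoeff g n = if n.Coprime N then qCoeff f n else 0) ∧
      qCoeff g 1 = 1 ∧
      (∀ p : ℕ, p.Prime → ¬ p ∣ N * N → ∀ n : ℕ,
        qCoeff g (p * n) + (DirichletCharacter.changeLevel (dvd_mul_right N N) ε) (p : ZMod (N * N)) *
          (if p ∣ n then qCoeff g (n / p) else 0) = qCoeff g p * qCoeff g n) ∧
      ∀ n, qCoeff g n ∈ heckeRing (N * N) (DirichletCharacter.changeLevel (dvd_mul_right N N) ε) g := by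
  obtain ⟨g, hg⟩ := exists_depleted N 1 f
  refine ⟨g, hg, dep_one N f g hf₁ hg, dep_hecke_form N ε f g hT hg, ?_⟩
  have ha0 : qCoeff f 0 = 0 :=
    CuspFormClass.qExpansion_coeff_zero f one_pos
      (Fermat.Agent.DS.Glue.one_mem_strictPeriods_Gamma1 N)
  refine dep_mem ε (fun n => qCoeff f n) (fun n => qCoeff g n) _ ha0 hf₁ hT ?_ ?_ hg
  · intro p hp hpN
    rw [← changeLevel_natCast_of_not_dvd ε hp hpN]
    exact char_prime_mem_heckeRing _ _ _ hp (prime_not_dvd_mul_self hp hpN)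
  · intro p hp hpN
    have : qCoeff f p = qCoeff g p := by
      rw [hg p, if_pos ((Nat.Prime.coprime_iff_not_dvd hp).2 hpN)]
    show qCoeff f p ∈ _
    rw [this]
    exact qCoeff_prime_mem_heckeRing _ _ _ hp (prime_not_dvd_mul_self hp hpN)

/-- **reduction of the frozen S48 to forms all of whose coefficients lie in the Hecke ring** -/
theorem s48_reduce
    (H : ∀ (N : ℕ) [NeZero N] (ε : DirichletCharacter ℂ N) (f : CuspForm (Gamma1 N) 1),
      qCoeff f 1 = 1 →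
      (∀ p : ℕ, p.Prime → ¬ p ∣ N → ∀ n : ℕ,
        qCoeff f (p * n) + ε (p : ZMod N) * (if p ∣ n then qCoeff f (n / p) else 0) =
          qCoeff f p * qCoeff f n) →
      (∀ n, qCoeff f n ∈ heckeRing N ε f) →
      ∃ ρ : Γℚ →* GL (Fin 2) ℂ, GaloisFactorsThroughFiniteLevel ρ ∧
        (Deformation.matrixRepresentation ρ).IsIrreducible ∧
        ∀ p : ℕ, p.Prime → ¬ p ∣ N →
          ∀ A : ValuationSubring (AlgebraicClosure ℚ), A.LiesOverPrime p →
            (∀ σ ∈ A.inertiaSubgroupIn ℚ, ρ σ = 1) ∧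
            ∀ σ : Γℚ, A.IsFrobeniusAt σ p →
              ((ρ σ : GL (Fin 2) ℂ) : Matrix (Fin 2) (Fin 2) ℂ).trace = qCoeff f p ∧
              ((ρ σ : GL (Fin 2) ℂ) : Matrix (Fin 2) (Fin 2) ℂ).det = ε (p : ZMod N))
    (N : ℕ) [NeZero N] (ε : DirichletCharacter ℂ N) (f : CuspForm (Gamma1 N) 1)
    (hf₁ : qCoeff f 1 = 1)
    (hT : ∀ p : ℕ, p.Prime → ¬ p ∣ N → ∀ n : ℕ,
        qCoeff f (p * n) + ε (p : ZMod N) * (if p ∣ n then qCoeff f (n / p) else 0) =
          qCoeff f p * qCoeff f n) :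
    ∃ ρ : Γℚ →* GL (Fin 2) ℂ, GaloisFactorsThroughFiniteLevel ρ ∧
      (Deformation.matrixRepresentation ρ).IsIrreducible ∧
      ∀ p : ℕ, p.Prime → ¬ p ∣ N →
        ∀ A : ValuationSubring (AlgebraicClosure ℚ), A.LiesOverPrime p →
          (∀ σ ∈ A.inertiaSubgroupIn ℚ, ρ σ = 1) ∧
          ∀ σ : Γℚ, A.IsFrobeniusAt σ p →
            ((ρ σ : GL (Fin 2) ℂ) : Matrix (Fin 2) (Fin 2) ℂ).trace = qCoeff f p ∧
            ((ρ σ : GL (Fin 2) ℂ) : Matrix (Fin 2) (Fin 2) ℂ).det = ε (p : ZMod N) := by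
  obtain ⟨g, hg, hg1, hgT, hgmem⟩ := exists_depleted_s48 N ε f hf₁ hT
  exact s48_of_depleted N ε f g hg (H (N * N) _ g hg1 hgT hgmem)

end Fermat.Agent.DS.N3
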