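/-
S48 (Deligne–Serre) / node (N3), gap (g7): **integrality adapter** (helper12).

After the reduction `s48_reduce` all `q`-coefficients lie in `heckeRing N ε f`; with GateInt
(`a_p` integral for `p ∤ N`) this ring lies in `ℤ̄ = integralClosure ℤ ℂ`, hence in every
localisation `locSub 𝔪` — the hypothesis `hf` of `Theta.hcong_mulLevel` (helper4).
-/
import Mathlib
import Fermat.Agent.DS.N3.DepleteMain
import Fermat.Agent.DS.N3.Cong

set_option autoImplicit false

noncomputable section

namespace Fermat.Agent.DS.N3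

open CongruenceSubgroup ModularFormClass UpperHalfPlane

/-- the values of a Dirichlet character are algebraic integers -/
theorem dirichletCharacter_isIntegral {N : ℕ} [NeZero N] (ε : DirichletCharacter ℂ N)
    (a : ZMod N) : IsIntegral ℤ (ε a) := by
  by_cases ha : IsUnit a
  · obtain ⟨u, rfl⟩ := ha
    have h := MulChar.apply_mem_rootsOfUnity u (χ := ε)
    rw [mem_rootsOfUnity] at h
    have h1 : (ε (u : ZMod N)) ^ Fintype.card (ZMod N)ˣ = 1 := by
      have := congrArg Units.val h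
      rw [Units.val_pow_eq_pow_val, Units.val_one] at this
      rw [← this, MulChar.coe_equivToUnitHom]
    exact IsIntegral.of_pow Fintype.card_pos (h1 ▸ isIntegral_one)
  · rw [MulChar.map_nonunit ε ha]
    exact isIntegral_zero

variable {N : ℕ} [NeZero N] (ε : DirichletCharacter ℂ N) (f : ℍ → ℂ)

/-- GateInt ⟹ the Hecke ring consists of algebraic integers -/
theorem heckeRing_le_integralClosure
    (hint : ∀ p : ℕ, p.Prime → ¬ p ∣ N → IsIntegral ℤ (qCoeff f p)) :
    heckeRing N ε f ≤ (integralClosure ℤ ℂ).toSubring := by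
  rw [heckeRing, Subring.closure_le]
  rintro x (⟨p, hp, hpN, rfl⟩ | ⟨p, hp, hpN, rfl⟩)
  · exact hint p hp hpN
  · exact dirichletCharacter_isIntegral ε _

theorem exists_zbar_of_mem_heckeRing
    (hint : ∀ p : ℕ, p.Prime → ¬ p ∣ N → IsIntegral ℤ (qCoeff f p))
    {x : ℂ} (hx : x ∈ heckeRing N ε f) : ∃ y : integralClosure ℤ ℂ, (y : ℂ) = x :=
  ⟨⟨x, heckeRing_le_integralClosure ε f hint hx⟩, rfl⟩

/-- all coefficients lie in every localisation `ℤ̄_𝔪` -/
theorem qCoeff_mem_locSub_of_heckeRing (𝔪 : Ideal (integralClosure ℤ ℂ)) [𝔪.IsPrime]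
    (hint : ∀ p : ℕ, p.Prime → ¬ p ∣ N → IsIntegral ℤ (qCoeff f p))
    (hring : ∀ n, qCoeff f n ∈ heckeRing N ε f) (n : ℕ) : qCoeff f n ∈ locSub 𝔪 := by
  obtain ⟨y, hy⟩ := exists_zbar_of_mem_heckeRing ε f hint (hring n)
  rw [← hy]
  exact coe_mem_locSub 𝔪 y

end Fermat.Agent.DS.N3
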