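/-
S48 (Deligne–Serre) / node (N3), gap (g7): `s48_reduce` **relative to a class of levels** (helper12).

`s48_reduce_of P hP` : if the class `P` of levels is stable under `N ↦ N * N` (e.g.
`P N := 2 ∣ N ∨ 3 ∣ N`, or `P N := 5 ≤ N`), then to prove the frozen S48 at all levels in `P` it
suffices to prove it at the levels in `P` for forms with all coefficients in `heckeRing N ε f`.
So the depletion composes with `SmallPrimes.s48At_of_div` in either order.
-/
import Mathlib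
import Fermat.Agent.DS.N3.DepleteMain

set_option autoImplicit false

noncomputable section

namespace Fermat.Agent.DS.N3

open CongruenceSubgroup ModularFormClass UpperHalfPlane
open scoped MatrixGroups

local notation "Γℚ" => (AlgebraicClosure ℚ ≃ₐ[ℚ] AlgebraicClosure ℚ)

/-- **reduction of the frozen S48 to forms with coefficients in the Hecke ring, inside a class of
levels stable under squaring** -/
theorem s48_reduce_of (P : ℕ → Prop) (hP : ∀ N, P N → P (N * N))
    (H : ∀ (N : ℕ) [NeZero N], P N → ∀ (ε : DirichletCharacter ℂ N) (f : CuspForm (Gamma1 N) 1),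
      qCoeff f 1 = 1 →
      (∀ p : ℕ, p.Prime → ¬ p ∣ N → ∀ n : ℕ,
        qCoeff f (p * n) + ε (p : ZMod N) * (if p ∣ n then qCoeff f (n / p) else 0) =
          qCoeff f p * qCoeff f n) →
      (∀ n, qCoeff f n ∈ heckeRing N ε f) →
      ∃ ρ : Γℚ →* GL (Fin 2) ℂ, GaloisFactorsThroughFiniteLevel ρ ∧
        (Deformation.matrixRepresentation ρ).IsIrreducible ∧
        ∀ p : ℕ, p.Prime → ¬ p ∣ N →
          ∀ A : ValuationSubring (AlgebraicClosure ℚ), A.LiesOverPrime p →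
            (∀ σ ∈ A.inertiaSubgroupIn ℚ, ρ σ = 1) ∧
            ∀ σ : Γℚ, A.IsFrobeniusAt σ p →
              ((ρ σ : GL (Fin 2) ℂ) : Matrix (Fin 2) (Fin 2) ℂ).trace = qCoeff f p ∧
              ((ρ σ : GL (Fin 2) ℂ) : Matrix (Fin 2) (Fin 2) ℂ).det = ε (p : ZMod N))
    (N : ℕ) [NeZero N] (hN : P N) (ε : DirichletCharacter ℂ N) (f : CuspForm (Gamma1 N) 1)
    (hf₁ : qCoeff f 1 = 1)
    (hT : ∀ p : ℕ, p.Prime → ¬ p ∣ N → ∀ n : ℕ,
        qCoeff f (p * n) + ε (p : ZMod N) * (if p ∣ n then qCoeff f (n / p) else 0) =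
          qCoeff f p * qCoeff f n) :
    ∃ ρ : Γℚ →* GL (Fin 2) ℂ, GaloisFactorsThroughFiniteLevel ρ ∧
      (Deformation.matrixRepresentation ρ).IsIrreducible ∧
      ∀ p : ℕ, p.Prime → ¬ p ∣ N →
        ∀ A : ValuationSubring (AlgebraicClosure ℚ), A.LiesOverPrime p →
          (∀ σ ∈ A.inertiaSubgroupIn ℚ, ρ σ = 1) ∧
          ∀ σ : Γℚ, A.IsFrobeniusAt σ p →
            ((ρ σ : GL (Fin 2) ℂ) : Matrix (Fin 2) (Fin 2) ℂ).trace = qCoeff f p ∧
            ((ρ σ : GL (Fin 2) ℂ) : Matrix (Fin 2) (Fin 2) ℂ).det = ε (p : ZMod N) := by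
  obtain ⟨g, hg, hg1, hgT, hgmem⟩ := exists_depleted_s48 N ε f hf₁ hT
  exact s48_of_depleted N ε f g hg (H (N * N) (hP N hN) _ g hg1 hgT hgmem)

theorem two_or_three_dvd_mul_self {N : ℕ} (h : 2 ∣ N ∨ 3 ∣ N) : 2 ∣ N * N ∨ 3 ∣ N * N :=
  h.imp (fun h => h.mul_right N) (fun h => h.mul_right N)

end Fermat.Agent.DS.N3
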