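/-
S48 / glue (N5) → (N3) (helper86, key S48-N3-EISADAPT).

`eisG hmax hℓ𝔪 : ModularForm (Gamma1 ℓ) 1` is the weight one Eisenstein series of helper86's
`DS/Eis1` stack for the character `ψ = ω⁻¹` (`ω` = helper12's Teichmüller character at `𝔪 ∋ ℓ`),
normalised to constant term `1`:

* `qExpansion_eisG`: its `q`-expansion is helper12's formal series `eisSeries eisConst ψ`
  (`DS/N3/Cong.lean`), so `coeff_eisSeries_sub_one_mem`, `hecke_cong` apply verbatim;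
* `eisG_slash_Gamma0`: nebentypus `ψ`;
* `qCoeff_eisG_zero_sub_one_mem`, `qCoeff_eisG_mem_locMaxAdd`, `mul_mem_locMaxAdd`: the binders
  `hG0 hG hI` of helper16's `Glue.qCoeff_mulLevel_sub_mem`; plugged in `qCoeff_mulLevel_eisG_sub_mem`:
  `f · G ≡ f mod 𝔪` coefficientwise, as a weight two cusp form on `Γ1(N ℓ)`.
-/
import Fermat.Agent.DS.Eis1.EisChar
import Fermat.Agent.DS.N3.Cong
import Fermat.Prelude.Def_FLTPrelim_Modularity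
import Fermat.Agent.DS.Glue.LevelGlue
set_option autoImplicit false
set_option linter.style.haveILetI false
noncomputable section
namespace Fermat.Agent.DS.N3.EisAdapter
open UpperHalfPlane hiding I
open Complex ModularForm CongruenceSubgroup Fermat.Agent.DS.Eis1 Fermat.Agent.DS.N3
open scoped MatrixGroups Real Manifold

/-- `ℤ̄ ⊂ ℂ` -/
local notation "Zbar" => integralClosure ℤ ℂ

variable {ℓ : ℕ} [hℓ : Fact ℓ.Prime] {𝔪 : Ideal Zbar}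


/-- `ψ = ω⁻¹`, the inverse of the Teichmüller character -/
def psiT (hmax : 𝔪.IsMaximal) (hℓ𝔪 : ((ℓ : ℕ) : Zbar) ∈ 𝔪) : DirichletCharacter ℂ ℓ :=
  (teichChar hmax hℓ𝔪)⁻¹

theorem psiT_neg_one (hmax : 𝔪.IsMaximal) (hℓ𝔪 : ((ℓ : ℕ) : Zbar) ∈ 𝔪) (hℓ2 : ℓ ≠ 2) :
    psiT hmax hℓ𝔪 (-1) = -1 := by
  rw [psiT, MulChar.inv_apply', inv_neg_one, teichChar_neg_one hmax hℓ𝔪 hℓ2]

theorem psiT_ne_one (hmax : 𝔪.IsMaximal) (hℓ𝔪 : ((ℓ : ℕ) : Zbar) ∈ 𝔪) (hℓ2 : ℓ ≠ 2) :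
    psiT hmax hℓ𝔪 ≠ 1 := by
  intro h
  have h1 := psiT_neg_one hmax hℓ𝔪 hℓ2
  rw [h, MulChar.one_apply (isUnit_one.neg)] at h1
  norm_num at h1

theorem bernoulliOne_psiT (hmax : 𝔪.IsMaximal) (hℓ𝔪 : ((ℓ : ℕ) : Zbar) ∈ 𝔪) :
    bernoulliOne (psiT hmax hℓ𝔪) = ((bernoulliSum hmax hℓ𝔪 : Zbar) : ℂ) / (ℓ : ℂ) := by
  rw [bernoulliOne, sum_chi_mul_val_eq_sum_units, coe_bernoulliSum, psiT]
  simp only [mul_comm, one_div]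
  rw [div_eq_mul_inv, mul_comm]

theorem neg_two_div_bernoulliOne_psiT (hmax : 𝔪.IsMaximal) (hℓ𝔪 : ((ℓ : ℕ) : Zbar) ∈ 𝔪) :
    -2 / bernoulliOne (psiT hmax hℓ𝔪) = eisConst hmax hℓ𝔪 := by
  have hS := coe_bernoulliSum_ne_zero hmax hℓ𝔪
  have hl : (ℓ : ℂ) ≠ 0 := Nat.cast_ne_zero.mpr hℓ.out.ne_zero
  rw [bernoulliOne_psiT, eisConst]
  field_simp

theorem bernoulliOne_psiT_ne_zero (hmax : 𝔪.IsMaximal) (hℓ𝔪 : ((ℓ : ℕ) : Zbar) ∈ 𝔪) :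
    bernoulliOne (psiT hmax hℓ𝔪) ≠ 0 := by
  have hS := coe_bernoulliSum_ne_zero hmax hℓ𝔪
  have hl : (ℓ : ℂ) ≠ 0 := Nat.cast_ne_zero.mpr hℓ.out.ne_zero
  rw [bernoulliOne_psiT]
  exact div_ne_zero hS hl


/-- **the weight one Eisenstein series `G ≡ 1 mod 𝔪`** on `Γ1(ℓ)`, with nebentypus `ω⁻¹` -/
def eisG (hmax : 𝔪.IsMaximal) (hℓ𝔪 : ((ℓ : ℕ) : Zbar) ∈ 𝔪) : ModularForm (Gamma1 ℓ) 1 :=
  eisNorm (psiT hmax hℓ𝔪)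

/-- the `q`-expansion of `G` is helper12's formal series `eisSeries eisConst ω⁻¹` -/
theorem qExpansion_eisG (hmax : 𝔪.IsMaximal) (hℓ𝔪 : ((ℓ : ℕ) : Zbar) ∈ 𝔪) (hℓ2 : ℓ ≠ 2) :
    qExpansion 1 (eisG hmax hℓ𝔪) =
      eisSeries (eisConst hmax hℓ𝔪) (fun d : ℕ => psiT hmax hℓ𝔪 (d : ZMod ℓ)) := by
  ext n
  rcases Nat.eq_zero_or_pos n with rfl | hn
  · rw [coeff_zero_eisSeries, eisG, qExpansion_eisNorm_zero _ (psiT_ne_one hmax hℓ𝔪 hℓ2)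
      (bernoulliOne_psiT_ne_zero hmax hℓ𝔪)]
  · rw [coeff_eisSeries_of_pos _ _ hn, eisG, qExpansion_eisNorm_pos _ (psiT_neg_one hmax hℓ𝔪 hℓ2)
      (bernoulliOne_psiT_ne_zero hmax hℓ𝔪) hn.ne', neg_two_div_bernoulliOne_psiT]

theorem qCoeff_eisG_zero (hmax : 𝔪.IsMaximal) (hℓ𝔪 : ((ℓ : ℕ) : Zbar) ∈ 𝔪) (hℓ2 : ℓ ≠ 2) :
    ModularFormClass.qCoeff (eisG hmax hℓ𝔪) 0 = 1 := by
  rw [ModularFormClass.qCoeff, qExpansion_eisG hmax hℓ𝔪 hℓ2, coeff_zero_eisSeries]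

theorem qCoeff_eisG_pos (hmax : 𝔪.IsMaximal) (hℓ𝔪 : ((ℓ : ℕ) : Zbar) ∈ 𝔪) (hℓ2 : ℓ ≠ 2) {n : ℕ}
    (hn : 0 < n) :
    ModularFormClass.qCoeff (eisG hmax hℓ𝔪) n =
      eisConst hmax hℓ𝔪 * ∑ d ∈ n.divisors, psiT hmax hℓ𝔪 (d : ZMod ℓ) := by
  rw [ModularFormClass.qCoeff, qExpansion_eisG hmax hℓ𝔪 hℓ2, coeff_eisSeries_of_pos _ _ hn]

/-- nebentypus of `G` -/
theorem eisG_slash_Gamma0 (hmax : 𝔪.IsMaximal) (hℓ𝔪 : ((ℓ : ℕ) : Zbar) ∈ 𝔪) {γ : SL(2, ℤ)}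
    (hγ : γ ∈ Gamma0 ℓ) :
    (⇑(eisG hmax hℓ𝔪)) ∣[(1 : ℤ)] γ = psiT hmax hℓ𝔪 ((γ 1 1 : ℤ) : ZMod ℓ) • ⇑(eisG hmax hℓ𝔪) :=
  eisNorm_slash_Gamma0 _ hγ


/-! ### integrality: the coefficients of `G` lie in `ℤ̄_𝔪`, and `G ≡ 1` modulo its maximal ideal -/

/-- the maximal ideal of `ℤ̄_𝔪`, as an additive subgroup of `ℂ` -/
def locMaxAdd (𝔪 : Ideal Zbar) [𝔪.IsPrime] : AddSubgroup ℂ where
  carrier := {x | ∃ hx : x ∈ locSub 𝔪, (⟨x, hx⟩ : locSub 𝔪) ∈ locMax 𝔪}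
  zero_mem' := ⟨(locSub 𝔪).zero_mem, (locMax 𝔪).zero_mem⟩
  add_mem' := by
    rintro x y ⟨hx, hx'⟩ ⟨hy, hy'⟩
    exact ⟨(locSub 𝔪).add_mem hx hy, (locMax 𝔪).add_mem hx' hy'⟩
  neg_mem' := by
    rintro x ⟨hx, hx'⟩
    exact ⟨(locSub 𝔪).neg_mem hx, (locMax 𝔪).neg_mem hx'⟩

theorem mem_locMaxAdd (𝔪 : Ideal Zbar) [𝔪.IsPrime] {x : ℂ} :
    x ∈ locMaxAdd 𝔪 ↔ ∃ hx : x ∈ locSub 𝔪, (⟨x, hx⟩ : locSub 𝔪) ∈ locMax 𝔪 := Iff.rfl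

/-- `ℤ̄_𝔪 · 𝔪ℤ̄_𝔪 ⊆ 𝔪ℤ̄_𝔪`: the `hI` binder of `Glue.qCoeff_mulLevel_sub_mem` -/
theorem mul_mem_locMaxAdd (𝔪 : Ideal Zbar) [𝔪.IsPrime] :
    ∀ a ∈ locSub 𝔪, ∀ x ∈ locMaxAdd 𝔪, a * x ∈ locMaxAdd 𝔪 := by
  rintro a ha x ⟨hx, hx'⟩
  exact ⟨(locSub 𝔪).mul_mem ha hx, (locMax 𝔪).mul_mem_left ⟨a, ha⟩ hx'⟩

theorem psiT_mem_locSub (hmax : 𝔪.IsMaximal) (hℓ𝔪 : ((ℓ : ℕ) : Zbar) ∈ 𝔪) (d : ZMod ℓ) :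
    haveI := hmax.isPrime
    psiT hmax hℓ𝔪 d ∈ locSub 𝔪 := by
  haveI := hmax.isPrime
  by_cases hd : IsUnit d
  · obtain ⟨u, rfl⟩ := hd
    rw [psiT, MulChar.inv_apply', ← Units.val_inv_eq_inv_val, teichChar_apply]
    exact coe_mem_locSub 𝔪 _
  · rw [MulChar.map_nonunit _ hd]
    exact (locSub 𝔪).zero_mem

theorem eisConst_mem_locMaxAdd (hmax : 𝔪.IsMaximal) (hℓ𝔪 : ((ℓ : ℕ) : Zbar) ∈ 𝔪) :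
    haveI := hmax.isPrime
    eisConst hmax hℓ𝔪 ∈ locMaxAdd 𝔪 :=
  eisConst_mem hmax hℓ𝔪

/-- `hG0` of `Glue.qCoeff_mulLevel_sub_mem` -/
theorem qCoeff_eisG_zero_sub_one_mem (hmax : 𝔪.IsMaximal) (hℓ𝔪 : ((ℓ : ℕ) : Zbar) ∈ 𝔪)
    (hℓ2 : ℓ ≠ 2) :
    haveI := hmax.isPrime
    ModularFormClass.qCoeff (eisG hmax hℓ𝔪) 0 - 1 ∈ locMaxAdd 𝔪 := by
  haveI := hmax.isPrime
  rw [qCoeff_eisG_zero hmax hℓ𝔪 hℓ2, sub_self]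
  exact (locMaxAdd 𝔪).zero_mem

/-- `hG` of `Glue.qCoeff_mulLevel_sub_mem` -/
theorem qCoeff_eisG_mem_locMaxAdd (hmax : 𝔪.IsMaximal) (hℓ𝔪 : ((ℓ : ℕ) : Zbar) ∈ 𝔪)
    (hℓ2 : ℓ ≠ 2) (n : ℕ) (hn : 1 ≤ n) :
    haveI := hmax.isPrime
    ModularFormClass.qCoeff (eisG hmax hℓ𝔪) n ∈ locMaxAdd 𝔪 := by
  haveI := hmax.isPrime
  rw [qCoeff_eisG_pos hmax hℓ𝔪 hℓ2 hn, mul_comm]
  exact mul_mem_locMaxAdd 𝔪 _ ((locSub 𝔪).sum_mem fun d _ => psiT_mem_locSub hmax hℓ𝔪 _) _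
    (eisConst_mem_locMaxAdd hmax hℓ𝔪)

/-- all coefficients of `G` lie in `ℤ̄_𝔪` -/
theorem qCoeff_eisG_mem_locSub (hmax : 𝔪.IsMaximal) (hℓ𝔪 : ((ℓ : ℕ) : Zbar) ∈ 𝔪)
    (hℓ2 : ℓ ≠ 2) (n : ℕ) :
    haveI := hmax.isPrime
    ModularFormClass.qCoeff (eisG hmax hℓ𝔪) n ∈ locSub 𝔪 := by
  haveI := hmax.isPrime
  rcases Nat.eq_zero_or_pos n with rfl | hn
  · rw [qCoeff_eisG_zero hmax hℓ𝔪 hℓ2]
    exact (locSub 𝔪).one_mem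
  · exact (qCoeff_eisG_mem_locMaxAdd hmax hℓ𝔪 hℓ2 n hn).1


/-- **PLUG**: for a weight one cusp form `f` on `Γ1(N)` with `𝔪`-integral coefficients, the weight two
cusp form `f · G` on `Γ1(N ℓ)` is congruent to `f` modulo `𝔪`, coefficientwise -/
theorem qCoeff_mulLevel_eisG_sub_mem (hmax : 𝔪.IsMaximal) (hℓ𝔪 : ((ℓ : ℕ) : Zbar) ∈ 𝔪)
    (hℓ2 : ℓ ≠ 2) {N : ℕ} (f : CuspForm (Gamma1 N) 1)
    (hf : haveI := hmax.isPrime; ∀ n, ModularFormClass.qCoeff f n ∈ locSub 𝔪) (n : ℕ) :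
    haveI := hmax.isPrime
    ModularFormClass.qCoeff (Glue.mulLevel f (eisG hmax hℓ𝔪)) n - ModularFormClass.qCoeff f n ∈
      locMaxAdd 𝔪 := by
  haveI := hmax.isPrime
  exact Glue.qCoeff_mulLevel_sub_mem (locSub 𝔪) (locMaxAdd 𝔪) (mul_mem_locMaxAdd 𝔪) f
    (eisG hmax hℓ𝔪) hf (qCoeff_eisG_zero_sub_one_mem hmax hℓ𝔪 hℓ2)
    (qCoeff_eisG_mem_locMaxAdd hmax hℓ𝔪 hℓ2) n

/-- the coefficients of `f · G` stay `𝔪`-integral -/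
theorem qCoeff_mulLevel_eisG_mem (hmax : 𝔪.IsMaximal) (hℓ𝔪 : ((ℓ : ℕ) : Zbar) ∈ 𝔪)
    (hℓ2 : ℓ ≠ 2) {N : ℕ} (f : CuspForm (Gamma1 N) 1)
    (hf : haveI := hmax.isPrime; ∀ n, ModularFormClass.qCoeff f n ∈ locSub 𝔪) (n : ℕ) :
    haveI := hmax.isPrime
    ModularFormClass.qCoeff (Glue.mulLevel f (eisG hmax hℓ𝔪)) n ∈ locSub 𝔪 := by
  haveI := hmax.isPrime
  exact Glue.qCoeff_mulLevel_mem (locSub 𝔪) f (eisG hmax hℓ𝔪) hf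
    (qCoeff_eisG_mem_locSub hmax hℓ𝔪 hℓ2) n

end Fermat.Agent.DS.N3.EisAdapter
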