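/-
S48 / GATE-N node N3-MAIN, file 5: from the eigencharacter to `GateModL'`.

`exists_rhobar` : the export of the port (`P3 + P5`: for EVERY `θ₀ : 𝕋 →+* ZMod ℓ` a representation
`ρ̄ : G_ℚ → GL₂(ZMod ℓ)` with `tr ρ̄(Frob_p) = θ₀ (T p)`, `det ρ̄(Frob_p) = p · θ₀ (⟨p⟩)`) applied to
the eigencharacter of `Theta.exists_theta_zmod`.

`exists_rhobar_phi` : the same in the language of `GateModL'` (helper51 `N6/Main`, helper72 TOP):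
`tr ρ̄(Frob_p) = φ (a' p)`, `det ρ̄(Frob_p) = φ (e' p)` for a ring homomorphism
`φ : 𝓞 E →+* ZMod ℓ`, when `𝔪` lies over `ker φ` (`Residue.exists_maximal_over`), the eigenvalues
are `ι₀ (a' p)`, and the nebentypus at `p` is `ι₀ (e' p) · ψ_p` with `ψ_p · p ≡ 1 mod 𝔪`
(`teichChar_inv_mul_prime`).
-/
import Mathlib
import Fermat.Agent.DS.N3.Theta

set_option autoImplicit false
set_option linter.style.haveILetI false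
set_option linter.unusedSectionVars false

noncomputable section

namespace Fermat.Agent.DS.N3.Theta

open CongruenceSubgroup ModularFormClass UpperHalfPlane NumberField
open scoped MatrixGroups

local notation "Γℚ" => (AlgebraicClosure ℚ ≃ₐ[ℚ] AlgebraicClosure ℚ)
local notation "Zbar" => integralClosure ℤ ℂ

section Gate

variable {M : ℕ} (H : HeckePkg M) {ℓ : ℕ} [hℓ : Fact ℓ.Prime]
variable {𝔪 : Ideal Zbar} [hmax : 𝔪.IsMaximal]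

/-- The export of the port, as a property of a Hecke package: every ring homomorphism
`θ₀ : 𝕋 →+* ZMod ℓ` has a Galois representation. -/
def PortExport (H : HeckePkg M) (ℓ : ℕ) : Prop :=
  ∀ θ₀ : H.𝕋 →+* ZMod ℓ, ∃ ρ : Γℚ →* GL (Fin 2) (ZMod ℓ), GaloisFactorsThroughFiniteLevel ρ ∧
    ∀ p : ℕ, p.Prime → ¬ p ∣ M * ℓ →
      ∀ A : ValuationSubring (AlgebraicClosure ℚ), A.LiesOverPrime p →
        (∀ σ ∈ A.inertiaSubgroupIn ℚ, ρ σ = 1) ∧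
        ∀ τ : Γℚ, A.IsFrobeniusAt τ p →
          ((ρ τ : GL (Fin 2) (ZMod ℓ)) : Matrix (Fin 2) (Fin 2) (ZMod ℓ)).trace = θ₀ (H.T p) ∧
          ((ρ τ : GL (Fin 2) (ZMod ℓ)) : Matrix (Fin 2) (Fin 2) (ZMod ℓ)).det =
            (p : ZMod ℓ) * θ₀ (H.D (unitOf M p))

theorem not_dvd_of_not_dvd_mul {p M ℓ : ℕ} (h : ¬ p ∣ M * ℓ) : ¬ p ∣ M :=
  fun hd => h (Dvd.dvd.mul_right hd ℓ)

/-- **The residual representation attached to a form that is an eigenform modulo `𝔪`.** -/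
theorem exists_rhobar (hℓ𝔪 : ((ℓ : ℕ) : Zbar) ∈ 𝔪)
    (F : CuspForm (Gamma1 M) 2) (χ : (ZMod M)ˣ → locSub 𝔪) (a : ℕ → locSub 𝔪)
    (hχ : ∀ d, H.act (H.D d) F = ((χ d : ℂ)) • F) (h1 : qCoeff F 1 = 1)
    (hcong : ∀ p : ℕ, p.Prime → ¬ p ∣ M → ∀ n : ℕ,
      ∃ x ∈ locMax 𝔪, (x : ℂ) =
        qCoeff F (p * n) + (χ (unitOf M p) : ℂ) * (p : ℂ) *
          (if p ∣ n then qCoeff F (n / p) else 0) - (a p : ℂ) * qCoeff F n)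
    (hinta : ∀ p : ℕ, p.Prime → ¬ p ∣ M → ∃ n : ℕ, a p - (n : locSub 𝔪) ∈ locMax 𝔪)
    (hintχ : ∀ d, ∃ n : ℕ, χ d - (n : locSub 𝔪) ∈ locMax 𝔪)
    (hPort : PortExport H ℓ) (ι : ZMod ℓ →+* (locSub 𝔪 ⧸ locMax 𝔪)) :
    ∃ ρ : Γℚ →* GL (Fin 2) (ZMod ℓ), GaloisFactorsThroughFiniteLevel ρ ∧
      ∀ p : ℕ, p.Prime → ¬ p ∣ M * ℓ →
        ∀ A : ValuationSubring (AlgebraicClosure ℚ), A.LiesOverPrime p →
          (∀ σ ∈ A.inertiaSubgroupIn ℚ, ρ σ = 1) ∧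
          ∀ τ : Γℚ, A.IsFrobeniusAt τ p →
            ι ((ρ τ : GL (Fin 2) (ZMod ℓ)) : Matrix (Fin 2) (Fin 2) (ZMod ℓ)).trace =
              Ideal.Quotient.mk (locMax 𝔪) (a p) ∧
            ι ((ρ τ : GL (Fin 2) (ZMod ℓ)) : Matrix (Fin 2) (Fin 2) (ZMod ℓ)).det =
              Ideal.Quotient.mk (locMax 𝔪) ((p : locSub 𝔪) * χ (unitOf M p)) := by
  obtain ⟨θ₀, hθ₀⟩ := exists_theta_zmod H hℓ𝔪 F χ a hχ h1 hcong hinta hintχ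
  obtain ⟨ρ, hfin, hρ⟩ := hPort θ₀
  refine ⟨ρ, hfin, fun p hp hpMℓ A hA => ⟨(hρ p hp hpMℓ A hA).1, fun τ hτ => ?_⟩⟩
  obtain ⟨ht, hd⟩ := (hρ p hp hpMℓ A hA).2 τ hτ
  have hpM : ¬ p ∣ M := not_dvd_of_not_dvd_mul hpMℓ
  obtain ⟨hT, hD⟩ := hθ₀ ι
  refine ⟨by rw [ht, hT p hp hpM], ?_⟩
  rw [hd, map_mul, hD, map_natCast, map_mul, map_natCast]

/-- `y - n ∈ locMax 𝔪` from `toZbar x - n ∈ 𝔪` when `y = ι₀ x`. -/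
theorem sub_natCast_mem_locMax {E : Type*} [Field E] [NumberField E] (ι₀ : E →+* ℂ)
    (x : 𝓞 E) (n : ℕ) (h : Residue.toZbar ι₀ x - ((n : ℕ) : Zbar) ∈ 𝔪)
    (y : locSub 𝔪) (hy : (y : ℂ) = ι₀ (x : E)) : y - ((n : ℕ) : locSub 𝔪) ∈ locMax 𝔪 := by
  have h2 := mem_locMax_of_mem 𝔪 h
  have e : y - ((n : ℕ) : locSub 𝔪) =
      (⟨((Residue.toZbar ι₀ x - ((n : ℕ) : Zbar) : Zbar) : ℂ), coe_mem_locSub 𝔪 _⟩ : locSub 𝔪) := by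
    apply Subtype.ext
    show ((y - ((n : ℕ) : locSub 𝔪) : locSub 𝔪) : ℂ)
      = ((Residue.toZbar ι₀ x - ((n : ℕ) : Zbar) : Zbar) : ℂ)
    rw [AddSubgroupClass.coe_sub, Subring.coe_natCast, hy]
    have : ((Residue.toZbar ι₀ x - ((n : ℕ) : Zbar) : Zbar) : ℂ)
        = ((Residue.toZbar ι₀ x : Zbar) : ℂ) - (((n : ℕ) : Zbar) : ℂ) := rfl
    rw [this, Residue.coe_toZbar]
    congr 1
  rw [e]
  exact h2

/-- Compatibility of `φ` with reduction modulo `𝔪`, for `𝔪` over `ker φ`. -/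
theorem ι_φ_eq {E : Type*} [Field E] [NumberField E] (ι₀ : E →+* ℂ) (φ : 𝓞 E →+* ZMod ℓ)
    (hφ𝔪 : ∀ x : 𝓞 E, Residue.toZbar ι₀ x - (((φ x).val : ℕ) : Zbar) ∈ 𝔪)
    (ι : ZMod ℓ →+* (locSub 𝔪 ⧸ locMax 𝔪)) (x : 𝓞 E) (y : locSub 𝔪)
    (hy : (y : ℂ) = ι₀ (x : E)) :
    ι (φ x) = Ideal.Quotient.mk (locMax 𝔪) y := by
  have h1 : φ x = (((φ x).val : ℕ) : ZMod ℓ) := (ZMod.natCast_zmod_val (φ x)).symm
  rw [h1, map_natCast, ← map_natCast (Ideal.Quotient.mk (locMax 𝔪)), eq_comm, Ideal.Quotient.eq]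
  exact sub_natCast_mem_locMax ι₀ x _ (hφ𝔪 x) y hy

/-- **`GateModL'` from the port export.** -/
theorem exists_rhobar_phi {E : Type*} [Field E] [NumberField E] (ι₀ : E →+* ℂ)
    (φ : 𝓞 E →+* ZMod ℓ) (hℓ𝔪 : ((ℓ : ℕ) : Zbar) ∈ 𝔪)
    (hφ𝔪 : ∀ x : 𝓞 E, Residue.toZbar ι₀ x - (((φ x).val : ℕ) : Zbar) ∈ 𝔪)
    (a' e' : ℕ → 𝓞 E)
    (F : CuspForm (Gamma1 M) 2) (χ : (ZMod M)ˣ → locSub 𝔪) (a : ℕ → locSub 𝔪)
    (hχ : ∀ d, H.act (H.D d) F = ((χ d : ℂ)) • F) (h1 : qCoeff F 1 = 1)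
    (hcong : ∀ p : ℕ, p.Prime → ¬ p ∣ M → ∀ n : ℕ,
      ∃ x ∈ locMax 𝔪, (x : ℂ) =
        qCoeff F (p * n) + (χ (unitOf M p) : ℂ) * (p : ℂ) *
          (if p ∣ n then qCoeff F (n / p) else 0) - (a p : ℂ) * qCoeff F n)
    (ha : ∀ p : ℕ, p.Prime → ¬ p ∣ M → ((a p : locSub 𝔪) : ℂ) = ι₀ (a' p : E))
    (hχe : ∀ p : ℕ, p.Prime → ¬ p ∣ M → ∃ ep ψp : locSub 𝔪, (ep : ℂ) = ι₀ (e' p : E) ∧
      χ (unitOf M p) = ep * ψp ∧ ψp * (p : locSub 𝔪) - 1 ∈ locMax 𝔪)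
    (hintχ : ∀ d, ∃ n : ℕ, χ d - (n : locSub 𝔪) ∈ locMax 𝔪)
    (hPort : PortExport H ℓ) :
    ∃ ρ : Γℚ →* GL (Fin 2) (ZMod ℓ), GaloisFactorsThroughFiniteLevel ρ ∧
      ∀ p : ℕ, p.Prime → ¬ p ∣ M * ℓ →
        ∀ A : ValuationSubring (AlgebraicClosure ℚ), A.LiesOverPrime p →
          (∀ σ ∈ A.inertiaSubgroupIn ℚ, ρ σ = 1) ∧
          ∀ τ : Γℚ, A.IsFrobeniusAt τ p →
            ((ρ τ : GL (Fin 2) (ZMod ℓ)) : Matrix (Fin 2) (Fin 2) (ZMod ℓ)).trace = φ (a' p) ∧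
            ((ρ τ : GL (Fin 2) (ZMod ℓ)) : Matrix (Fin 2) (Fin 2) (ZMod ℓ)).det = φ (e' p) := by
  haveI : CharP (locSub 𝔪 ⧸ locMax 𝔪) ℓ :=
    Residue.charP_quotient (locMax 𝔪) ℓ locMax_ne_top (natCast_mem_locMax hℓ𝔪)
  haveI : Nontrivial (locSub 𝔪 ⧸ locMax 𝔪) := Ideal.Quotient.nontrivial_iff.mpr locMax_ne_top
  let ι : ZMod ℓ →+* (locSub 𝔪 ⧸ locMax 𝔪) := ZMod.castHom (dvd_refl ℓ) _
  have hι : Function.Injective ι := RingHom.injective ι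
  have hinta : ∀ p : ℕ, p.Prime → ¬ p ∣ M → ∃ n : ℕ, a p - (n : locSub 𝔪) ∈ locMax 𝔪 := by
    intro p hp hpM
    exact ⟨(φ (a' p)).val,
      sub_natCast_mem_locMax ι₀ (a' p) _ (hφ𝔪 (a' p)) (a p) (ha p hp hpM)⟩
  obtain ⟨ρ, hfin, hρ⟩ := exists_rhobar H hℓ𝔪 F χ a hχ h1 hcong hinta hintχ hPort ι
  refine ⟨ρ, hfin, fun p hp hpMℓ A hA => ⟨(hρ p hp hpMℓ A hA).1, fun τ hτ => ?_⟩⟩
  obtain ⟨ht, hd⟩ := (hρ p hp hpMℓ A hA).2 τ hτ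
  have hpM : ¬ p ∣ M := not_dvd_of_not_dvd_mul hpMℓ
  refine ⟨hι ?_, hι ?_⟩
  · rw [ht, ι_φ_eq ι₀ φ hφ𝔪 ι (a' p) (a p) (ha p hp hpM)]
  · obtain ⟨ep, ψp, hep, hχp, hψ⟩ := hχe p hp hpM
    rw [hd, ι_φ_eq ι₀ φ hφ𝔪 ι (e' p) ep hep, Ideal.Quotient.eq, hχp]
    have : (p : locSub 𝔪) * (ep * ψp) - ep = ep * (ψp * (p : locSub 𝔪) - 1) := by ring
    rw [this]
    exact (locMax 𝔪).mul_mem_left _ hψ

end Gate

end Fermat.Agent.DS.N3.Theta
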