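/-
S48 / GATE-N node N3-MAIN, file 6: the Hecke package of helper18's `heckeAlgebra1 M 2 ∅`, and the
port export in the shape of `DS/P5/Final.exists_rep_of_theta` (at `S = ∅`, `k0 = ZMod ℓ`).
-/
import Mathlib
import Fermat.Agent.DS.N3.ThetaGate
import Fermat.Agent.DS.Hecke.HeckeAlgebra1Gen

set_option autoImplicit false
set_option linter.style.haveILetI false
set_option linter.unusedSectionVars false

noncomputable section

namespace Fermat.Agent.DS.N3.Theta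

open CongruenceSubgroup ModularFormClass UpperHalfPlane
open Fermat.Agent.DS.Hecke
open scoped MatrixGroups

local notation "Γℚ" => (AlgebraicClosure ℚ ≃ₐ[ℚ] AlgebraicClosure ℚ)

section Pkg

variable (M : ℕ) [NeZero M]

/-- `T p` in `heckeAlgebra1 M 2 ∅` (junk `0` unless `p` is a prime not dividing `M`). -/
def pkgT (p : ℕ) : heckeAlgebra1 M 2 (∅ : Set ℕ) := by
  classical
  exact if h : p.Prime ∧ ¬ p ∣ M then heckeAlgebra1.T h.1 h.2 (Set.notMem_empty p) else 0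

theorem pkgT_eq {p : ℕ} (hp : p.Prime) (hpM : ¬ p ∣ M) :
    pkgT M p = heckeAlgebra1.T hp hpM (Set.notMem_empty p) := by
  classical
  unfold pkgT
  rw [dif_pos ⟨hp, hpM⟩]

theorem unitOf_eq_primeUnit {p : ℕ} (hp : p.Prime) (hpM : ¬ p ∣ M) :
    unitOf M p = primeUnit hp hpM := by
  apply Units.ext
  rw [coe_unitOf ((Nat.Prime.coprime_iff_not_dvd hp).2 hpM), coe_primeUnit]

/-- **The Hecke package of `heckeAlgebra1 M 2 ∅`.** -/
def heckePkg1 : HeckePkg M where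
  𝕋 := heckeAlgebra1 M 2 (∅ : Set ℕ)
  act := heckeAlgebra1.act M 2 ∅
  T := pkgT M
  D := heckeAlgebra1.D
  gen := by
    rw [eq_top_iff, ← heckeAlgebra1.closure_range_gen (N := M) (S := (∅ : Set ℕ)) (k := 2)]
    apply Subring.closure_mono
    rintro t ⟨i, rfl⟩
    rcases i with ⟨ℓ, hℓ, hℓM, hℓS⟩ | d
    · left
      exact ⟨ℓ, ⟨hℓ, hℓM⟩, (pkgT_eq M hℓ hℓM).symm⟩
    · right
      exact ⟨d, rfl⟩
  qCoeff_T := by
    intro p hp hpM g n
    rw [pkgT_eq M hp hpM, unitOf_eq_primeUnit M hp hpM]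
    have h := coeffLin_act_T (N := M) (k := 2) (S := (∅ : Set ℕ)) hp hpM (Set.notMem_empty p) g n
    simp only [Fermat.Agent.DS.Hecke.coeffLin_apply] at h
    rw [h]
    norm_num

/-- The export of the port in the shape of `DS/P5/Final.exists_rep_of_theta` at `S = ∅`,
`k0 = ZMod ℓ` (with helper18's `primeUnit` for the unit of `p`). -/
def PortExport1 (ℓ : ℕ) : Prop :=
  ∀ θ : heckeAlgebra1 M 2 (∅ : Set ℕ) →+* ZMod ℓ,
    ∃ ρ : Γℚ →* GL (Fin 2) (ZMod ℓ), GaloisFactorsThroughFiniteLevel ρ ∧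
      ∀ (p : ℕ) (hp : p.Prime) (hpMℓ : ¬ p ∣ M * ℓ)
        (A : ValuationSubring (AlgebraicClosure ℚ)), A.LiesOverPrime p →
        (∀ σ ∈ A.inertiaSubgroupIn ℚ, ρ σ = 1) ∧
        ∀ τ : Γℚ, A.IsFrobeniusAt τ p →
          ((ρ τ : GL (Fin 2) (ZMod ℓ)) : Matrix (Fin 2) (Fin 2) (ZMod ℓ)).trace =
            θ (heckeAlgebra1.T hp (not_dvd_of_not_dvd_mul hpMℓ) (Set.notMem_empty p)) ∧
          ((ρ τ : GL (Fin 2) (ZMod ℓ)) : Matrix (Fin 2) (Fin 2) (ZMod ℓ)).det =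
            (p : ZMod ℓ) * θ (heckeAlgebra1.D (primeUnit hp (not_dvd_of_not_dvd_mul hpMℓ)))

theorem portExport_of_portExport1 {ℓ : ℕ} (h : PortExport1 M ℓ) : PortExport (heckePkg1 M) ℓ := by
  intro θ₀
  obtain ⟨ρ, hfin, hρ⟩ := h θ₀
  refine ⟨ρ, hfin, fun p hp hpMℓ A hA => ⟨(hρ p hp hpMℓ A hA).1, fun τ hτ => ?_⟩⟩
  obtain ⟨ht, hd⟩ := (hρ p hp hpMℓ A hA).2 τ hτ
  have hpM : ¬ p ∣ M := not_dvd_of_not_dvd_mul hpMℓ
  refine ⟨?_, ?_⟩
  · rw [ht]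
    show θ₀ _ = θ₀ (pkgT M p)
    rw [pkgT_eq M hp hpM]
  · rw [hd]
    show _ = (p : ZMod ℓ) * θ₀ (heckeAlgebra1.D (unitOf M p))
    rw [unitOf_eq_primeUnit M hp hpM]
    rfl

end Pkg

end Fermat.Agent.DS.N3.Theta
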