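/-
S48 / GATE-N node N3-MAIN, file 4: the hypotheses `h1`, `hcong` of `Theta.exists_theta_zmod` for
the product `F = f · G` (`Glue.mulLevel f G`), `f` a weight-one form whose coefficients lie in the
local ring `locSub 𝔪` and which satisfies the weight-one Hecke relation at `p`, `G` a weight-one
form with `q`-expansion `eisSeries c ψ`, `c ∈ locMax 𝔪`, `ψ p · p ≡ 1 mod locMax 𝔪`.
-/
import Mathlib
import Fermat.Agent.DS.N3.Theta
import Fermat.Agent.DS.Glue.LevelGlue

set_option autoImplicit false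
set_option linter.style.haveILetI false
set_option linter.unusedSectionVars false

noncomputable section

namespace Fermat.Agent.DS.N3.Theta

open CongruenceSubgroup ModularFormClass UpperHalfPlane PowerSeries
open Fermat.Agent.DS.Glue

local notation "Zbar" => integralClosure ℤ ℂ

section Prod

variable {N ℓ : ℕ} {𝔪 : Ideal Zbar} [hmax : 𝔪.IsMaximal]

/-- The power series over `locSub 𝔪` with given complex coefficients lying in `locSub 𝔪`. -/
def liftSeries (c : ℕ → ℂ) (hc : ∀ n, c n ∈ locSub 𝔪) : PowerSeries (locSub 𝔪) :=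
  PowerSeries.mk fun n => ⟨c n, hc n⟩

@[simp] theorem coe_coeff_liftSeries (c : ℕ → ℂ) (hc : ∀ n, c n ∈ locSub 𝔪) (n : ℕ) :
    ((PowerSeries.coeff n (liftSeries c hc) : locSub 𝔪) : ℂ) = c n := by
  rw [liftSeries, PowerSeries.coeff_mk]

/-- The coefficients of `f · G` are those of the product of the lifted series. -/
theorem qCoeff_mulLevel_eq_coe (f : CuspForm (Gamma1 N) 1) (G : ModularForm (Gamma1 ℓ) 1)
    (hf : ∀ n, qCoeff f n ∈ locSub 𝔪) (Gs : PowerSeries (locSub 𝔪))
    (hG : ∀ n, qCoeff G n = ((PowerSeries.coeff n Gs : locSub 𝔪) : ℂ)) (m : ℕ) :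
    qCoeff (mulLevel f G) m =
      ((PowerSeries.coeff m (liftSeries (fun n => qCoeff f n) hf * Gs) : locSub 𝔪) : ℂ) := by
  rw [qCoeff_mulLevel, PowerSeries.coeff_mul]
  have hsum := map_sum (locSub 𝔪).subtype
    (fun p : ℕ × ℕ => PowerSeries.coeff p.1 (liftSeries (fun n => qCoeff f n) hf) *
      PowerSeries.coeff p.2 Gs) (Finset.HasAntidiagonal.antidiagonal m)
  simp only [Subring.subtype_apply] at hsum
  rw [hsum]
  refine Finset.sum_congr rfl (fun p _ => ?_)
  rw [Subring.coe_mul, coe_coeff_liftSeries, hG]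

/-- **`hcong` for `F = f · G`.** -/
theorem hcong_mulLevel (f : CuspForm (Gamma1 N) 1) (G : ModularForm (Gamma1 ℓ) 1)
    (hf : ∀ n, qCoeff f n ∈ locSub 𝔪) (Gs : PowerSeries (locSub 𝔪))
    (hG : ∀ n, qCoeff G n = ((PowerSeries.coeff n Gs : locSub 𝔪) : ℂ))
    (hGI : ∀ n, PowerSeries.coeff n (Gs - 1) ∈ locMax 𝔪)
    (p : ℕ) (εp ψp ap : locSub 𝔪) (hψ : ψp * (p : locSub 𝔪) - 1 ∈ locMax 𝔪)
    (hrel : ∀ n : ℕ, qCoeff f (p * n) + (εp : ℂ) * (if p ∣ n then qCoeff f (n / p) else 0) =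
      (ap : ℂ) * qCoeff f n) (n : ℕ) :
    ∃ x ∈ locMax 𝔪, (x : ℂ) =
      qCoeff (mulLevel f G) (p * n) + ((εp * ψp : locSub 𝔪) : ℂ) * (p : ℂ) *
        (if p ∣ n then qCoeff (mulLevel f G) (n / p) else 0) -
      (ap : ℂ) * qCoeff (mulLevel f G) n := by
  set fs := liftSeries (fun n => qCoeff f n) hf with hfs
  have hrel' : ∀ n : ℕ, PowerSeries.coeff (p * n) fs +
      εp * (if p ∣ n then PowerSeries.coeff (n / p) fs else 0) = ap * PowerSeries.coeff n fs := by
    intro n
    apply Subtype.ext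
    have := hrel n
    by_cases hpn : p ∣ n
    · simp only [if_pos hpn] at this ⊢
      rw [Subring.coe_add, Subring.coe_mul, Subring.coe_mul, hfs, coe_coeff_liftSeries,
        coe_coeff_liftSeries, coe_coeff_liftSeries]
      exact this
    · simp only [if_neg hpn, mul_zero, add_zero] at this ⊢
      rw [Subring.coe_mul, hfs, coe_coeff_liftSeries, coe_coeff_liftSeries]
      exact this
  have hmem := hecke_cong (locMax 𝔪) (f := fs) (G := Gs) hGI p εp ψp ap hψ hrel' n
  refine ⟨_, hmem, ?_⟩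
  rw [qCoeff_mulLevel_eq_coe f G hf Gs hG (p * n), qCoeff_mulLevel_eq_coe f G hf Gs hG n]
  by_cases hpn : p ∣ n
  · simp only [if_pos hpn]
    rw [qCoeff_mulLevel_eq_coe f G hf Gs hG (n / p)]
    push_cast
    ring
  · simp only [if_neg hpn, mul_zero, add_zero]
    push_cast
    ring

/-- **`h1` for `F = f · G`**: `a_1(f G) = a_1(f) a_0(G)`. -/
theorem qCoeff_one_mulLevel (f : CuspForm (Gamma1 N) 1) (G : ModularForm (Gamma1 ℓ) 1)
    (hf1 : qCoeff f 1 = 1) (hG0 : qCoeff G 0 = 1) : qCoeff (mulLevel f G) 1 = 1 := by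
  have hf0 : qCoeff f 0 = 0 :=
    CuspFormClass.qExpansion_coeff_zero f one_pos (one_mem_strictPeriods_Gamma1' N)
  rw [qCoeff_mulLevel]
  have hanti : Finset.HasAntidiagonal.antidiagonal 1 = {((0 : ℕ), (1 : ℕ)), ((1 : ℕ), (0 : ℕ))} := by
    decide
  rw [hanti, Finset.sum_pair (by decide)]
  simp only
  rw [hf0, hf1, hG0]
  simp

end Prod

end Fermat.Agent.DS.N3.Theta
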