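/-
S48 / GATE-N node N3-MAIN, file 7: `GateModL'` at one prime `ℓ` and one `φ : 𝓞 E →+* ZMod ℓ`,
from the export of the port.

Chain: `Residue.exists_maximal_over` (a maximal ideal `𝔪` of `ℤ̄` over `ker φ`)  →
`EisAdapter.eisG` (helper86/helper12: `G = E_{1,ω⁻¹} ≡ 1 mod 𝔪` on `Γ₁(ℓ)`)  →
`Glue.mulLevel f G` (helper16)  →  nebentypus `ε ω⁻¹` (N0 + `eisG_slash_Gamma0`)  →
`ThetaProd` (Hecke congruences of `f G`)  →  `Theta.exists_theta_zmod` on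
`heckePkg1 (N ℓ)` (helper18's `heckeAlgebra1`)  →  `PortExport1`  →  `ρ̄`.
-/
import Mathlib
import Fermat.Agent.DS.N3.Pkg1
import Fermat.Agent.DS.N3.ThetaProd
import Fermat.Agent.DS.N3.EisAdapter
import Fermat.Agent.DS.N0.Nebentypus

set_option autoImplicit false
set_option linter.style.haveILetI false
set_option linter.unusedSectionVars false

noncomputable section

namespace Fermat.Agent.DS.N3.Theta

open CongruenceSubgroup ModularFormClass UpperHalfPlane NumberField Matrix.SpecialLinearGroup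
open Fermat.Agent.DS.Hecke Fermat.Agent.DS.Glue
open scoped MatrixGroups ModularForm

local notation "Γℚ" => (AlgebraicClosure ℚ ≃ₐ[ℚ] AlgebraicClosure ℚ)
local notation "Zbar" => integralClosure ℤ ℂ

section Neb

variable {N ℓ : ℕ}

/-- Nebentypus of a product: `f ∣ σ = ε(σ) f` on `Γ₀(N)`, `G ∣ σ = ψ(σ) G` on `Γ₀(ℓ)` give
`(f G) ∣ σ = ε(σ) ψ(σ) (f G)` on `Γ₀(N ℓ)`. -/
theorem mulLevel_slash (f : CuspForm (Gamma1 N) 1) (G : ModularForm (Gamma1 ℓ) 1)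
    (ε ψ : SL(2, ℤ) → ℂ)
    (hf : ∀ σ ∈ Gamma0 N, (f : ℍ → ℂ) ∣[(1 : ℤ)] mapGL ℝ σ = ε σ • (f : ℍ → ℂ))
    (hG : ∀ σ ∈ Gamma0 ℓ, (G : ℍ → ℂ) ∣[(1 : ℤ)] mapGL ℝ σ = ψ σ • (G : ℍ → ℂ))
    (σ : SL(2, ℤ)) (hσN : σ ∈ Gamma0 N) (hσℓ : σ ∈ Gamma0 ℓ) :
    (mulLevel f G : ℍ → ℂ) ∣[(2 : ℤ)] mapGL ℝ σ = (ε σ * ψ σ) • (mulLevel f G : ℍ → ℂ) := by
  rw [coe_mulLevel]
  have h := ModularForm.mul_slash_SL2 (1 : ℤ) (1 : ℤ) σ (f : ℍ → ℂ) (G : ℍ → ℂ)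
  rw [ModularForm.SL_slash, ModularForm.SL_slash, ModularForm.SL_slash] at h
  have h2 : ((1 : ℤ) + 1) = 2 := by norm_num
  rw [h2] at h
  have h' : ((f : ℍ → ℂ) * (G : ℍ → ℂ)) ∣[(2 : ℤ)] mapGL ℝ σ =
      ((f : ℍ → ℂ) ∣[(1 : ℤ)] mapGL ℝ σ) * ((G : ℍ → ℂ) ∣[(1 : ℤ)] mapGL ℝ σ) := h
  rw [h', hf σ hσN, hG σ hσℓ]
  ext τ
  simp only [Pi.mul_apply, Pi.smul_apply, smul_eq_mul]
  ring

end Neb


section Aux

theorem mem_Gamma0_of_dvd {M M' : ℕ} (h : M ∣ M') {σ : SL(2, ℤ)} (hσ : σ ∈ Gamma0 M') :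
    σ ∈ Gamma0 M := by
  rw [Gamma0_mem] at hσ ⊢
  rw [ZMod.intCast_zmod_eq_zero_iff_dvd] at hσ ⊢
  exact dvd_trans (Int.natCast_dvd_natCast.mpr h) hσ

variable {ℓ : ℕ} [hℓ : Fact ℓ.Prime] {𝔪 : Ideal Zbar}

open EisAdapter in
/-- `ω⁻¹(u) ≡ (u⁻¹).val mod 𝔪` in `locSub 𝔪`. -/
theorem psiT_unit_cong (hmax : 𝔪.IsMaximal) (hℓ𝔪 : ((ℓ : ℕ) : Zbar) ∈ 𝔪) (u : (ZMod ℓ)ˣ) :
    haveI := hmax.isPrime
    ∃ y : locSub 𝔪, (y : ℂ) = psiT hmax hℓ𝔪 (u : ZMod ℓ) ∧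
      y - ((((u⁻¹ : (ZMod ℓ)ˣ) : ZMod ℓ).val : ℕ) : locSub 𝔪) ∈ locMax 𝔪 := by
  haveI := hmax.isPrime
  have h1 : psiT hmax hℓ𝔪 (u : ZMod ℓ) = ((teich hmax hℓ𝔪 u⁻¹ : Zbar) : ℂ) := by
    rw [psiT, MulChar.inv_apply', ← Units.val_inv_eq_inv_val, teichChar_apply]
  refine ⟨⟨((teich hmax hℓ𝔪 u⁻¹ : Zbar) : ℂ), coe_mem_locSub 𝔪 _⟩, h1.symm, ?_⟩
  have h2 := mem_locMax_of_mem 𝔪 (teich_cong hmax hℓ𝔪 u⁻¹)
  convert h2 using 1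
  apply Subtype.ext
  rw [AddSubgroupClass.coe_sub, Subring.coe_natCast]
  rfl

end Aux

section Main

open EisAdapter

variable {N : ℕ} [NeZero N] (ε : DirichletCharacter ℂ N) (f : CuspForm (Gamma1 N) 1)
variable {ℓ : ℕ} [hℓ : Fact ℓ.Prime]

/-- **`GateModL'` at `(ℓ, φ)` from the port export.**  `f` is the (depleted) S48 form: `a_1 = 1`,
the frozen Hecke relations, all coefficients and all values of `ε` in `ι₀ (𝓞 E)`. -/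
theorem exists_rhobar_of_port
    (hf₁ : qCoeff f 1 = 1)
    (hT : ∀ p : ℕ, p.Prime → ¬ p ∣ N → ∀ n : ℕ,
      qCoeff f (p * n) + ε (p : ZMod N) * (if p ∣ n then qCoeff f (n / p) else 0) =
        qCoeff f p * qCoeff f n)
    {E : Type*} [Field E] [NumberField E] (ι₀ : E →+* ℂ) (a' e' : ℕ → 𝓞 E)
    (ha' : ∀ p : ℕ, p.Prime → ¬ p ∣ N → ι₀ (a' p : E) = qCoeff f p)
    (he' : ∀ p : ℕ, p.Prime → ¬ p ∣ N → ι₀ (e' p : E) = ε (p : ZMod N))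
    (hcoeff : ∀ n : ℕ, ∃ x : 𝓞 E, ι₀ (x : E) = qCoeff f n)
    (hεE : ∀ d : (ZMod N)ˣ, ∃ x : 𝓞 E, ι₀ (x : E) = ε (d : ZMod N))
    (hℓ2 : ℓ ≠ 2) (φ : 𝓞 E →+* ZMod ℓ) [NeZero (N * ℓ)]
    (hPort : PortExport1 (N * ℓ) ℓ) :
    ∃ ρ : Γℚ →* GL (Fin 2) (ZMod ℓ), GaloisFactorsThroughFiniteLevel ρ ∧
      ∀ p : ℕ, p.Prime → ¬ p ∣ N → p ≠ ℓ →
        ∀ A : ValuationSubring (AlgebraicClosure ℚ), A.LiesOverPrime p →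
          (∀ σ ∈ A.inertiaSubgroupIn ℚ, ρ σ = 1) ∧
          ∀ τ : Γℚ, A.IsFrobeniusAt τ p →
            ((ρ τ : GL (Fin 2) (ZMod ℓ)) : Matrix (Fin 2) (Fin 2) (ZMod ℓ)).trace = φ (a' p) ∧
            ((ρ τ : GL (Fin 2) (ZMod ℓ)) : Matrix (Fin 2) (Fin 2) (ZMod ℓ)).det = φ (e' p) := by
  classical
  obtain ⟨𝔪, hmax, hℓ𝔪, hφ𝔪⟩ := Residue.exists_maximal_over ι₀ ℓ φ
  haveI : 𝔪.IsMaximal := hmax
  -- integrality in `locSub 𝔪`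
  have hmemE : ∀ x : 𝓞 E, ι₀ (x : E) ∈ locSub 𝔪 := by
    intro x
    have := coe_mem_locSub 𝔪 (Residue.toZbar ι₀ x)
    rwa [Residue.coe_toZbar] at this
  have hf : ∀ n, qCoeff f n ∈ locSub 𝔪 := by
    intro n
    obtain ⟨x, hx⟩ := hcoeff n
    rw [← hx]
    exact hmemE x
  have hεmem : ∀ y : ZMod N, ε y ∈ locSub 𝔪 := by
    intro y
    by_cases hy : IsUnit y
    · obtain ⟨d, rfl⟩ := hy
      obtain ⟨x, hx⟩ := hεE d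
      rw [← hx]
      exact hmemE x
    · rw [MulChar.map_nonunit _ hy]
      exact (locSub 𝔪).zero_mem
  have hψmem : ∀ y : ZMod ℓ, psiT hmax hℓ𝔪 y ∈ locSub 𝔪 := fun y => psiT_mem_locSub hmax hℓ𝔪 y
  -- the forms
  set G : ModularForm (Gamma1 ℓ) 1 := eisG hmax hℓ𝔪 with hGdef
  set F : CuspForm (Gamma1 (N * ℓ)) 2 := mulLevel f G with hFdef
  -- the nebentypus
  let cN : ZMod (N * ℓ) →+* ZMod N := ZMod.castHom (dvd_mul_right N ℓ) (ZMod N)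
  let cℓ : ZMod (N * ℓ) →+* ZMod ℓ := ZMod.castHom (dvd_mul_left ℓ N) (ZMod ℓ)
  let χfun : ZMod (N * ℓ) → ℂ := fun x => ε (cN x) * psiT hmax hℓ𝔪 (cℓ x)
  have hχmem : ∀ x, χfun x ∈ locSub 𝔪 := fun x => (locSub 𝔪).mul_mem (hεmem _) (hψmem _)
  let χ : (ZMod (N * ℓ))ˣ → locSub 𝔪 := fun d => ⟨χfun (d : ZMod (N * ℓ)), hχmem _⟩
  let a : ℕ → locSub 𝔪 := fun p => ⟨qCoeff f p, hf p⟩
  -- `hχ`
  have hslash : ∀ σ : SL(2, ℤ), σ ∈ Gamma0 (N * ℓ) →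
      (F : ℍ → ℂ) ∣[(2 : ℤ)] mapGL ℝ σ = χfun ((σ 1 1 : ℤ) : ZMod (N * ℓ)) • (F : ℍ → ℂ) := by
    intro σ hσ
    have hσN : σ ∈ Gamma0 N := mem_Gamma0_of_dvd (dvd_mul_right N ℓ) hσ
    have hσℓ : σ ∈ Gamma0 ℓ := mem_Gamma0_of_dvd (dvd_mul_left ℓ N) hσ
    have h := mulLevel_slash f G (fun σ => ε ((σ 1 1 : ℤ) : ZMod N))
      (fun σ => psiT hmax hℓ𝔪 ((σ 1 1 : ℤ) : ZMod ℓ))
      (fun σ hσ => Fermat.Agent.DS.N0.slash_eq_of_mem_Gamma0 ε f hT hσ)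
      (fun σ hσ => by
        have := eisG_slash_Gamma0 hmax hℓ𝔪 hσ
        rw [ModularForm.SL_slash] at this
        exact this) σ hσN hσℓ
    rw [h]
    simp only [χfun, cN, cℓ, map_intCast]
    rfl
  have hχ : ∀ d, (heckePkg1 (N * ℓ)).act ((heckePkg1 (N * ℓ)).D d) F = ((χ d : ℂ)) • F := by
    intro d
    exact diamondLin_eq_smul_of_slash F χfun hslash d
  -- `h1`
  have h1 : qCoeff F 1 = 1 := qCoeff_one_mulLevel f G hf₁ (qCoeff_eisG_zero hmax hℓ𝔪 hℓ2)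
  -- the formal Eisenstein series over `locSub 𝔪`
  obtain ⟨hcmem, hcmax⟩ := eisConst_mem hmax hℓ𝔪
  let c : locSub 𝔪 := ⟨eisConst hmax hℓ𝔪, hcmem⟩
  let ψs : ℕ → locSub 𝔪 := fun d => ⟨psiT hmax hℓ𝔪 (d : ZMod ℓ), hψmem _⟩
  let Gs : PowerSeries (locSub 𝔪) := eisSeries c ψs
  have hG : ∀ n, qCoeff G n = ((PowerSeries.coeff n Gs : locSub 𝔪) : ℂ) := by
    intro n
    rcases Nat.eq_zero_or_pos n with rfl | hn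
    · rw [hGdef, qCoeff_eisG_zero hmax hℓ𝔪 hℓ2, coeff_zero_eisSeries]
      rfl
    · rw [hGdef, qCoeff_eisG_pos hmax hℓ𝔪 hℓ2 hn, coeff_eisSeries_of_pos _ _ hn, Subring.coe_mul]
      congr 1
      have hsum := map_sum (locSub 𝔪).subtype ψs n.divisors
      simp only [Subring.subtype_apply] at hsum
      rw [hsum]
  have hGI : ∀ n, PowerSeries.coeff n (Gs - 1) ∈ locMax 𝔪 :=
    fun n => coeff_eisSeries_sub_one_mem (locMax 𝔪) hcmax ψs n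
  -- `ω⁻¹(p) p ≡ 1`
  have hψp : ∀ p : ℕ, Nat.Coprime p ℓ → ψs p * (p : locSub 𝔪) - 1 ∈ locMax 𝔪 := by
    intro p hp
    obtain ⟨c0, hc0, hc0m⟩ := teichChar_inv_mul_prime hmax hℓ𝔪 hp
    have h2 := mem_locMax_of_mem 𝔪 hc0m
    convert h2 using 1
    apply Subtype.ext
    rw [AddSubgroupClass.coe_sub, Subring.coe_mul, Subring.coe_natCast, Subring.coe_one]
    show psiT hmax hℓ𝔪 (p : ZMod ℓ) * (p : ℂ) - 1 = ((c0 * ((p : ℕ) : Zbar) - 1 : Zbar) : ℂ)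
    rw [psiT, ← hc0]
    rfl
  -- `χ` at the unit of a prime
  have hχp : ∀ p : ℕ, p.Prime → ¬ p ∣ N * ℓ →
      χ (unitOf (N * ℓ) p) = (⟨ε (p : ZMod N), hεmem _⟩ : locSub 𝔪) * ψs p := by
    intro p hp hpM
    apply Subtype.ext
    show χfun ((unitOf (N * ℓ) p : (ZMod (N * ℓ))ˣ) : ZMod (N * ℓ)) = _
    rw [coe_unitOf ((Nat.Prime.coprime_iff_not_dvd hp).2 hpM)]
    simp only [χfun, cN, cℓ, map_natCast]
    rfl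
  have hnotN : ∀ p : ℕ, ¬ p ∣ N * ℓ → ¬ p ∣ N := fun p h hd => h (Dvd.dvd.mul_right hd ℓ)
  have hcop : ∀ p : ℕ, p.Prime → ¬ p ∣ N * ℓ → Nat.Coprime p ℓ := by
    intro p hp hpM
    rw [Nat.Prime.coprime_iff_not_dvd hp]
    exact fun hd => hpM (Dvd.dvd.mul_left hd N)
  -- `hcong`
  have hcong : ∀ p : ℕ, p.Prime → ¬ p ∣ N * ℓ → ∀ n : ℕ,
      ∃ x ∈ locMax 𝔪, (x : ℂ) =
        qCoeff F (p * n) + (χ (unitOf (N * ℓ) p) : ℂ) * (p : ℂ) *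
          (if p ∣ n then qCoeff F (n / p) else 0) - (a p : ℂ) * qCoeff F n := by
    intro p hp hpM n
    have h := hcong_mulLevel f G hf Gs hG hGI p ⟨ε (p : ZMod N), hεmem _⟩ (ψs p) (a p)
      (hψp p (hcop p hp hpM)) (fun n => hT p hp (hnotN p hpM) n) n
    rw [hχp p hp hpM]
    exact h
  -- `ha`, `hχe`
  have ha : ∀ p : ℕ, p.Prime → ¬ p ∣ N * ℓ → ((a p : locSub 𝔪) : ℂ) = ι₀ (a' p : E) :=
    fun p hp hpM => (ha' p hp (hnotN p hpM)).symm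
  have hχe : ∀ p : ℕ, p.Prime → ¬ p ∣ N * ℓ → ∃ ep ψp : locSub 𝔪, (ep : ℂ) = ι₀ (e' p : E) ∧
      χ (unitOf (N * ℓ) p) = ep * ψp ∧ ψp * (p : locSub 𝔪) - 1 ∈ locMax 𝔪 :=
    fun p hp hpM => ⟨⟨ε (p : ZMod N), hεmem _⟩, ψs p, (he' p hp (hnotN p hpM)).symm,
      hχp p hp hpM, hψp p (hcop p hp hpM)⟩
  -- `hintχ`
  have hintχ : ∀ d, ∃ n : ℕ, χ d - (n : locSub 𝔪) ∈ locMax 𝔪 := by
    intro d
    let dN : (ZMod N)ˣ := Units.map (cN : ZMod (N * ℓ) →* ZMod N) d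
    let dℓ : (ZMod ℓ)ˣ := Units.map (cℓ : ZMod (N * ℓ) →* ZMod ℓ) d
    obtain ⟨x, hx⟩ := hεE dN
    obtain ⟨y, hy, hym⟩ := psiT_unit_cong hmax hℓ𝔪 dℓ
    set n₁ : ℕ := (φ x).val
    set n₂ : ℕ := (((dℓ⁻¹ : (ZMod ℓ)ˣ) : ZMod ℓ)).val
    have hx1 : (⟨ε (dN : ZMod N), hεmem _⟩ : locSub 𝔪) - ((n₁ : ℕ) : locSub 𝔪) ∈ locMax 𝔪 :=
      sub_natCast_mem_locMax ι₀ x n₁ (hφ𝔪 x) _ hx.symm
    refine ⟨n₁ * n₂, ?_⟩
    have e : χ d - ((n₁ * n₂ : ℕ) : locSub 𝔪) =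
        ((⟨ε (dN : ZMod N), hεmem _⟩ : locSub 𝔪) - ((n₁ : ℕ) : locSub 𝔪)) * y +
          ((n₁ : ℕ) : locSub 𝔪) * (y - ((n₂ : ℕ) : locSub 𝔪)) := by
      have hχd : χ d = (⟨ε (dN : ZMod N), hεmem _⟩ : locSub 𝔪) * y := by
        apply Subtype.ext
        rw [Subring.coe_mul, hy]
        rfl
      rw [hχd]
      push_cast
      ring
    rw [e]
    exact (locMax 𝔪).add_mem ((locMax 𝔪).mul_mem_right _ hx1) ((locMax 𝔪).mul_mem_left _ hym)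
  -- conclusion
  obtain ⟨ρ, hfin, hρ⟩ := exists_rhobar_phi (heckePkg1 (N * ℓ)) ι₀ φ hℓ𝔪 hφ𝔪 a' e' F χ a hχ h1
    hcong ha hχe hintχ (portExport_of_portExport1 (N * ℓ) hPort)
  refine ⟨ρ, hfin, fun p hp hpN hpℓ A hA => hρ p hp ?_ A hA⟩
  intro hd
  rcases (Nat.Prime.dvd_mul hp).mp hd with h | h
  · rcases (Nat.Prime.dvd_mul hp).mp h with h' | h'
    · exact hpN h'
    · exact hpℓ ((Nat.prime_dvd_prime_iff_eq hp hℓ.out).mp h')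
  · exact hpℓ ((Nat.prime_dvd_prime_iff_eq hp hℓ.out).mp h)

end Main

end Fermat.Agent.DS.N3.Theta
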