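/-
S48 / GATE-N node N3-MAIN, file 8: **`GateModL'`** (board 3384 (B)) for a form all of whose
coefficients lie in its Hecke ring (helper12's `s48_reduce` reduces the frozen S48 to such forms),
from the export of the port at the levels `N ℓ`; and the adapter from helper69's
`DS/P5/FinalCl.exists_rep_of_thetaCl` to `PortExport1`.
-/
import Mathlib
import Fermat.Agent.DS.N3.Main
import Fermat.Agent.DS.N3.DepleteMain
import Fermat.Agent.DS.P5.FinalCl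

set_option autoImplicit false
set_option linter.style.haveILetI false
set_option linter.unusedSectionVars false

noncomputable section

namespace Fermat.Agent.DS.N3.Theta

open CongruenceSubgroup ModularFormClass UpperHalfPlane NumberField
open Fermat.Agent.DS.Hecke
open scoped MatrixGroups

local notation "Γℚ" => (AlgebraicClosure ℚ ≃ₐ[ℚ] AlgebraicClosure ℚ)

section Adapter

open Fermat.Agent.DS.P5 Fermat.Agent.DS.P5.KumType1 Fermat.Agent.DS.P5.KumTypeCl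
  Fermat.Agent.DS.P5.Final Fermat.Agent.DS.P5.FinalCl Fermat.Agent.GJ.KumGroup

/-- **The port export from helper69's `exists_rep_of_thetaCl`** (at `S = ∅`, `k0 = ZMod ℓ`). -/
theorem portExport1_of_cl {M : ℕ} [NeZero M] {ℓ : ℕ} [Fact ℓ.Prime]
    {F₀ : IntermediateField ℚ (LaurentSeries ℚ)}
    {diaCl : (ZMod M)ˣ → (FL F₀ ≃ₐ[AlgebraicClosure ℚ] FL F₀)}
    (hδ : ∀ u, DiaComm (diaCl u))
    (hM : ∀ (p : ℕ) (hp : p.Prime) (hpM : ¬ p ∣ M), HNMem1 p (diaP (diaMod diaCl) hp hpM))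
    (hD : ∀ (p : ℕ) (hp : p.Prime) (hpM : ¬ p ∣ M), HNDiv1 ℓ p (diaP (diaMod diaCl) hp hpM))
    (hI : ∀ p : ℕ, p.Prime → ¬ p ∣ M * ℓ → ESInertia1 F₀ ℓ p)
    (hF : ∀ (p : ℕ) (hp : p.Prime) (hpMℓ : ¬ p ∣ M * ℓ),
      ESFrob1 ℓ p (diaP (diaMod diaCl) hp (not_dvd_left_of_not_dvd_mul hpMℓ)))
    (hE : EIG1AllCl F₀ ℓ diaCl (∅ : Set ℕ)) : PortExport1 M ℓ := by
  intro θ
  obtain ⟨ρ, hfin, hρ⟩ := exists_rep_of_thetaCl hδ hM hD hI hF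
    (fun p _ _ => Set.notMem_empty p) hE (ZMod ℓ) θ
  exact ⟨ρ, hfin, fun p hp hpMℓ A hA => hρ p hp hpMℓ A hA⟩

end Adapter

section Gate

variable (N : ℕ) [NeZero N] (ε : DirichletCharacter ℂ N) (f : CuspForm (Gamma1 N) 1)

/-- The Hecke ring lies in the image of `𝓞 E` as soon as its generators do. -/
theorem exists_of_mem_heckeRing {E : Type*} [Field E] [NumberField E] (ι₀ : E →+* ℂ)
    (a' e' : ℕ → 𝓞 E)
    (ha' : ∀ p : ℕ, p.Prime → ¬ p ∣ N → ι₀ (a' p : E) = qCoeff f p)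
    (he' : ∀ p : ℕ, p.Prime → ¬ p ∣ N → ι₀ (e' p : E) = ε (p : ZMod N))
    {z : ℂ} (hz : z ∈ heckeRing N ε f) : ∃ x : 𝓞 E, ι₀ (x : E) = z := by
  have hle : heckeRing N ε f ≤ (ι₀.comp (algebraMap (𝓞 E) E)).range := by
    unfold heckeRing
    rw [Subring.closure_le]
    rintro x (⟨p, hp, hpN, rfl⟩ | ⟨p, hp, hpN, rfl⟩)
    · exact ⟨a' p, ha' p hp hpN⟩
    · exact ⟨e' p, he' p hp hpN⟩
  obtain ⟨x, hx⟩ := hle hz
  exact ⟨x, hx⟩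

/-- The values of `ε` on units are values at primes `p ∤ N` (Dirichlet). -/
theorem exists_prime_eq_unit (d : (ZMod N)ˣ) :
    ∃ p : ℕ, p.Prime ∧ ¬ p ∣ N ∧ (p : ZMod N) = (d : ZMod N) := by
  obtain ⟨p, hpN, hp, hpd⟩ := Nat.forall_exists_prime_gt_and_eq_mod d.isUnit N
  refine ⟨p, hp, fun hd => ?_, hpd⟩
  exact absurd (Nat.le_of_dvd (Nat.pos_of_ne_zero (NeZero.ne N)) hd) (not_le.mpr hpN)

/-- **`GateModL'`** (board 3384 (B)) from the port exports at the levels `N ℓ`, for a form all of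
whose coefficients lie in its Hecke ring. -/
theorem gateModL_of_port
    (hf₁ : qCoeff f 1 = 1)
    (hT : ∀ p : ℕ, p.Prime → ¬ p ∣ N → ∀ n : ℕ,
      qCoeff f (p * n) + ε (p : ZMod N) * (if p ∣ n then qCoeff f (n / p) else 0) =
        qCoeff f p * qCoeff f n)
    (hring : ∀ n, qCoeff f n ∈ heckeRing N ε f)
    (ℓ₁ : ℕ)
    (hPort : ∀ (ℓ : ℕ) [Fact ℓ.Prime] [NeZero (N * ℓ)], ℓ₁ ≤ ℓ → ¬ ℓ ∣ N →
      PortExport1 (N * ℓ) ℓ)
    {E : Type*} [Field E] [NumberField E] (ι₀ : E →+* ℂ) (a' e' : ℕ → 𝓞 E)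
    (ha' : ∀ p : ℕ, p.Prime → ¬ p ∣ N → ι₀ (a' p : E) = qCoeff f p)
    (he' : ∀ p : ℕ, p.Prime → ¬ p ∣ N → ι₀ (e' p : E) = ε (p : ZMod N)) :
    ∃ ℓ₀ : ℕ, ∀ ℓ : ℕ, ℓ.Prime → ℓ₀ ≤ ℓ → ¬ ℓ ∣ N → ∀ φ : 𝓞 E →+* ZMod ℓ,
      ∃ ρ : Γℚ →* GL (Fin 2) (ZMod ℓ), GaloisFactorsThroughFiniteLevel ρ ∧
        ∀ p : ℕ, p.Prime → ¬ p ∣ N → p ≠ ℓ →
          ∀ A : ValuationSubring (AlgebraicClosure ℚ), A.LiesOverPrime p →
            (∀ σ ∈ A.inertiaSubgroupIn ℚ, ρ σ = 1) ∧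
            ∀ τ : Γℚ, A.IsFrobeniusAt τ p →
              ((ρ τ : GL (Fin 2) (ZMod ℓ)) : Matrix (Fin 2) (Fin 2) (ZMod ℓ)).trace =
                φ (a' p) ∧
              ((ρ τ : GL (Fin 2) (ZMod ℓ)) : Matrix (Fin 2) (Fin 2) (ZMod ℓ)).det =
                φ (e' p) := by
  refine ⟨max ℓ₁ 3, fun ℓ hℓ hℓ₀ hℓN φ => ?_⟩
  haveI : Fact ℓ.Prime := ⟨hℓ⟩
  haveI : NeZero (N * ℓ) := ⟨Nat.mul_ne_zero (NeZero.ne N) hℓ.ne_zero⟩
  have hℓ2 : ℓ ≠ 2 := by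
    have : 3 ≤ ℓ := le_trans (le_max_right _ _) hℓ₀
    omega
  refine exists_rhobar_of_port ε f hf₁ hT ι₀ a' e' ha' he'
    (fun n => exists_of_mem_heckeRing N ε f ι₀ a' e' ha' he' (hring n)) ?_ hℓ2 φ
    (hPort ℓ (le_trans (le_max_left _ _) hℓ₀) hℓN)
  intro d
  obtain ⟨p, hp, hpN, hpd⟩ := exists_prime_eq_unit N d
  exact ⟨e' p, by rw [he' p hp hpN, hpd]⟩

end Gate

end Fermat.Agent.DS.N3.Theta
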