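/-
S48 / GATE-N node N3-MAIN, file 9: bridges between the three spellings of the port export
(`PortExport1 M ℓ` of `DS/N3/Pkg1`, `PortExport (DS.Hecke.heckePkg1 M) ℓ` of helper69's
`DS/P5/PortExport1`, and helper69's hypothesis bundle), and `GateModL'` from helper69's bundle.
-/
import Mathlib
import Fermat.Agent.DS.N3.GateModL
import Fermat.Agent.DS.P5.PortExport1

set_option autoImplicit false
set_option linter.style.haveILetI false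
set_option linter.unusedSectionVars false

noncomputable section

namespace Fermat.Agent.DS.N3.Theta

open CongruenceSubgroup ModularFormClass UpperHalfPlane NumberField
open scoped MatrixGroups

local notation "Γℚ" => (AlgebraicClosure ℚ ≃ₐ[ℚ] AlgebraicClosure ℚ)

/-- helper69's export (on helper18's `DS.Hecke.heckePkg1`) gives `PortExport1`. -/
theorem portExport1_of_hecke {M : ℕ} [NeZero M] {ℓ : ℕ}
    (h : PortExport (Fermat.Agent.DS.Hecke.heckePkg1 M) ℓ) : PortExport1 M ℓ := by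
  intro θ
  obtain ⟨ρ, hfin, hρ⟩ := h θ
  refine ⟨ρ, hfin, fun p hp hpMℓ A hA => ⟨(hρ p hp hpMℓ A hA).1, fun τ hτ => ?_⟩⟩
  obtain ⟨h1, h2⟩ := (hρ p hp hpMℓ A hA).2 τ hτ
  have hpM : ¬ p ∣ M := not_dvd_of_not_dvd_mul hpMℓ
  refine ⟨?_, ?_⟩
  · rw [h1, Fermat.Agent.DS.Hecke.heckePkg1_T M hp hpM]
    rfl
  · rw [h2, unitOf_eq_primeUnit M hp hpM]
    rfl

section Bundle

open Fermat.Agent.DS.Hecke Fermat.Agent.DS.P5 Fermat.Agent.DS.P5.KumType1 Fermat.Agent.GJ.KumGroup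
  Fermat.Agent.DS.P5.Final Fermat.Agent.DS.P5.Final2 Fermat.Agent.DS.P5.PortExport1

/-- helper69's hypothesis bundle at level `M` and the prime `ℓ` (the named exports of P0–P4 and
P3's eigen-relation at the prime field). -/
def PortBundle (M : ℕ) [NeZero M] (ℓ : ℕ) [Fact ℓ.Prime] : Prop :=
  ∃ (F₀ : IntermediateField ℚ (LaurentSeries ℚ))
    (dia : (ZMod M)ˣ → (FL F₀ ≃ₐ[AlgebraicClosure ℚ] FL F₀)),
    (∀ u, DiaComm (dia u)) ∧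
    (∀ (q : ℕ) (hq : q.Prime) (hqM : ¬ q ∣ M), HNMem1 q (diaP dia hq hqM)) ∧
    (∀ (q : ℕ) (hq : q.Prime) (hqM : ¬ q ∣ M), HNDiv1 ℓ q (diaP dia hq hqM)) ∧
    (∀ q : ℕ, q.Prime → ¬ q ∣ M * ℓ → ESInertia1 F₀ ℓ q) ∧
    (∀ (q : ℕ) (hq : q.Prime) (hqMℓ : ¬ q ∣ M * ℓ),
      ESFrob1 ℓ q (diaP dia hq (not_dvd_left_of_not_dvd_mul hqMℓ))) ∧
    EIG1Prime F₀ ℓ dia

theorem portExport1_of_bundle {M : ℕ} [NeZero M] {ℓ : ℕ} [Fact ℓ.Prime]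
    (h : PortBundle M ℓ) : PortExport1 M ℓ := by
  obtain ⟨F₀, dia, hδ, hM, hD, hI, hF, hE⟩ := h
  exact portExport1_of_hecke (portExport_heckePkg1 hδ hM hD hI hF hE)

end Bundle

/-- **`GateModL'`** (board 3384 (B)) from helper69's bundle at the levels `N ℓ`. -/
theorem gateModL_of_bundle (N : ℕ) [NeZero N] (ε : DirichletCharacter ℂ N)
    (f : CuspForm (Gamma1 N) 1)
    (hf₁ : qCoeff f 1 = 1)
    (hT : ∀ p : ℕ, p.Prime → ¬ p ∣ N → ∀ n : ℕ,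
      qCoeff f (p * n) + ε (p : ZMod N) * (if p ∣ n then qCoeff f (n / p) else 0) =
        qCoeff f p * qCoeff f n)
    (hring : ∀ n, qCoeff f n ∈ heckeRing N ε f)
    (ℓ₁ : ℕ)
    (hPort : ∀ (ℓ : ℕ) [Fact ℓ.Prime] [NeZero (N * ℓ)], ℓ₁ ≤ ℓ → ¬ ℓ ∣ N →
      PortBundle (N * ℓ) ℓ)
    {E : Type*} [Field E] [NumberField E] (ι₀ : E →+* ℂ) (a' e' : ℕ → 𝓞 E)
    (ha' : ∀ p : ℕ, p.Prime → ¬ p ∣ N → ι₀ (a' p : E) = qCoeff f p)
    (he' : ∀ p : ℕ, p.Prime → ¬ p ∣ N → ι₀ (e' p : E) = ε (p : ZMod N)) :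
    ∃ ℓ₀ : ℕ, ∀ ℓ : ℕ, ℓ.Prime → ℓ₀ ≤ ℓ → ¬ ℓ ∣ N → ∀ φ : 𝓞 E →+* ZMod ℓ,
      ∃ ρ : Γℚ →* GL (Fin 2) (ZMod ℓ), GaloisFactorsThroughFiniteLevel ρ ∧
        ∀ p : ℕ, p.Prime → ¬ p ∣ N → p ≠ ℓ →
          ∀ A : ValuationSubring (AlgebraicClosure ℚ), A.LiesOverPrime p →
            (∀ σ ∈ A.inertiaSubgroupIn ℚ, ρ σ = 1) ∧
            ∀ τ : Γℚ, A.IsFrobeniusAt τ p →
              ((ρ τ : GL (Fin 2) (ZMod ℓ)) : Matrix (Fin 2) (Fin 2) (ZMod ℓ)).trace =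
                φ (a' p) ∧
              ((ρ τ : GL (Fin 2) (ZMod ℓ)) : Matrix (Fin 2) (Fin 2) (ZMod ℓ)).det =
                φ (e' p) :=
  gateModL_of_port N ε f hf₁ hT hring ℓ₁
    (fun ℓ _ _ h1 h2 => portExport1_of_bundle (hPort ℓ h1 h2)) ι₀ a' e' ha' he'

end Fermat.Agent.DS.N3.Theta
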