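import Fermat.Agent.GS.Eis1.EisForm

/-!
# GATE-N / S48 glue `N5 → N3` (helper59, key `S48-N3-PROD`)

* `restrictCusp`, `restrictMF` : restriction of a cusp / modular form from a finite-index subgroup
  `Γ ≤ SL(2, ℤ)` to a smaller finite-index subgroup `Γ' ≤ Γ` (same underlying function).
* `Gamma1_mul_le_left`, `Gamma1_mul_le_right` : `Γ₁(N * ℓ) ≤ Γ₁(N)`, `Γ₁(N * ℓ) ≤ Γ₁(ℓ)`.
* `prodForm f G : CuspForm (Gamma1 (N * ℓ)) 2` for `f : CuspForm (Gamma1 N) 1`,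
  `G : ModularForm (Gamma1 ℓ) 1`, with `prodForm_apply` (pointwise product) and
  `qExpansion_prodForm` (`qExpansion 1 (prodForm f G) = qExpansion 1 f * qExpansion 1 G`).
* `prodForm_slash` : the nebentypus of the product on `Γ₀(N * ℓ)` is the product of the nebentypus
  of the factors (in the slash form `f ∣[1] γ = ε γ • f`).
-/

set_option autoImplicit false

namespace Fermat.Agent.DS.N3.Prod

open UpperHalfPlane hiding I
open CongruenceSubgroup ModularForm Matrix.SpecialLinearGroup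
open scoped MatrixGroups ModularForm Manifold

noncomputable section

/-- Restriction of a cusp form to a smaller finite-index subgroup. -/
def restrictCusp {Γ Γ' : Subgroup SL(2, ℤ)} [Γ.FiniteIndex] [Γ'.FiniteIndex] (h : Γ' ≤ Γ)
    {k : ℤ} (f : CuspForm Γ k) : CuspForm Γ' k where
  toFun := f
  slash_action_eq' A hA := f.slash_action_eq' A (Subgroup.map_mono h hA)
  holo' := f.holo'
  zero_at_cusps' {c} hc := by
    apply f.zero_at_cusps'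
    rw [Subgroup.IsArithmetic.isCusp_iff_isCusp_SL2Z] at hc ⊢
    exact hc

@[simp] lemma restrictCusp_apply {Γ Γ' : Subgroup SL(2, ℤ)} [Γ.FiniteIndex] [Γ'.FiniteIndex]
    (h : Γ' ≤ Γ) {k : ℤ} (f : CuspForm Γ k) (τ : ℍ) : restrictCusp h f τ = f τ := rfl

/-- Restriction of a modular form to a smaller finite-index subgroup. -/
def restrictMF {Γ Γ' : Subgroup SL(2, ℤ)} [Γ.FiniteIndex] [Γ'.FiniteIndex] (h : Γ' ≤ Γ)
    {k : ℤ} (f : ModularForm Γ k) : ModularForm Γ' k where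
  toFun := f
  slash_action_eq' A hA := f.slash_action_eq' A (Subgroup.map_mono h hA)
  holo' := f.holo'
  bdd_at_cusps' {c} hc := by
    apply f.bdd_at_cusps'
    rw [Subgroup.IsArithmetic.isCusp_iff_isCusp_SL2Z] at hc ⊢
    exact hc

@[simp] lemma restrictMF_apply {Γ Γ' : Subgroup SL(2, ℤ)} [Γ.FiniteIndex] [Γ'.FiniteIndex]
    (h : Γ' ≤ Γ) {k : ℤ} (f : ModularForm Γ k) (τ : ℍ) : restrictMF h f τ = f τ := rfl

/-! ### `Γ₁(N * ℓ)` inside `Γ₁(N)` and `Γ₁(ℓ)` -/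

lemma cast_eq_one_of_dvd {M M' : ℕ} (h : M ∣ M') {x : ℤ} (hx : ((x : ℤ) : ZMod M') = 1) :
    ((x : ℤ) : ZMod M) = 1 := by
  have h1 : ((x - 1 : ℤ) : ZMod M') = 0 := by push_cast; rw [hx]; ring
  have h2 : (M' : ℤ) ∣ x - 1 := (ZMod.intCast_zmod_eq_zero_iff_dvd _ _).mp h1
  have h3 : (M : ℤ) ∣ x - 1 := (Int.natCast_dvd_natCast.mpr h).trans h2
  have h4 : ((x - 1 : ℤ) : ZMod M) = 0 := (ZMod.intCast_zmod_eq_zero_iff_dvd _ _).mpr h3
  have h5 : ((x : ℤ) : ZMod M) - 1 = 0 := by simpa using h4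
  exact sub_eq_zero.mp h5

lemma cast_eq_zero_of_dvd {M M' : ℕ} (h : M ∣ M') {x : ℤ} (hx : ((x : ℤ) : ZMod M') = 0) :
    ((x : ℤ) : ZMod M) = 0 := by
  have h2 : (M' : ℤ) ∣ x := (ZMod.intCast_zmod_eq_zero_iff_dvd _ _).mp hx
  exact (ZMod.intCast_zmod_eq_zero_iff_dvd _ _).mpr ((Int.natCast_dvd_natCast.mpr h).trans h2)

theorem Gamma1_le_of_dvd {M M' : ℕ} (h : M ∣ M') : Gamma1 M' ≤ Gamma1 M := by
  intro γ hγ
  rw [Gamma1_mem] at hγ ⊢
  exact ⟨cast_eq_one_of_dvd h hγ.1, cast_eq_one_of_dvd h hγ.2.1, cast_eq_zero_of_dvd h hγ.2.2⟩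

theorem Gamma0_le_of_dvd {M M' : ℕ} (h : M ∣ M') : Gamma0 M' ≤ Gamma0 M := by
  intro γ hγ
  rw [Gamma0_mem] at hγ ⊢
  exact cast_eq_zero_of_dvd h hγ

theorem one_mem_strictPeriods_Gamma1 (N : ℕ) :
    (1 : ℝ) ∈ (Subgroup.map (mapGL ℝ) (Gamma1 N)).strictPeriods := by
  have hT : ModularGroup.T ∈ Gamma1 N := by
    rw [Gamma1_mem]
    simp [ModularGroup.T]
  rw [Subgroup.strictPeriods_eq_zmultiples_one_of_T_mem hT]
  exact AddSubgroup.mem_zmultiples (1 : ℝ)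

/-! ### The product form -/

variable {N ℓ : ℕ} [NeZero N] [NeZero ℓ]

/-- `f · G` as a cusp form of weight two on `Γ₁(N * ℓ)`. -/
def prodForm (f : CuspForm (Gamma1 N) 1) (G : ModularForm (Gamma1 ℓ) 1) :
    CuspForm (Gamma1 (N * ℓ)) 2 :=
  CuspForm.mcast (by norm_num)
    ((restrictCusp (Gamma1_le_of_dvd (dvd_mul_right N ℓ)) f).mulModularForm
      (restrictMF (Gamma1_le_of_dvd (dvd_mul_left ℓ N)) G))

@[simp] lemma prodForm_apply (f : CuspForm (Gamma1 N) 1) (G : ModularForm (Gamma1 ℓ) 1) (τ : ℍ) :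
    prodForm f G τ = f τ * G τ := rfl

lemma coe_prodForm (f : CuspForm (Gamma1 N) 1) (G : ModularForm (Gamma1 ℓ) 1) :
    (prodForm f G : ℍ → ℂ) = (f : ℍ → ℂ) * (G : ℍ → ℂ) := rfl

/-- The `q`-expansion (period `1`) of the product is the product of the `q`-expansions. -/
theorem qExpansion_prodForm (f : CuspForm (Gamma1 N) 1) (G : ModularForm (Gamma1 ℓ) 1) :
    qExpansion 1 (prodForm f G) = qExpansion 1 f * qExpansion 1 G := by
  rw [coe_prodForm]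
  exact qExpansion_mul
    (ModularFormClass.analyticAt_cuspFunction_zero f one_pos (one_mem_strictPeriods_Gamma1 N))
    (ModularFormClass.analyticAt_cuspFunction_zero G one_pos (one_mem_strictPeriods_Gamma1 ℓ))

/-- Coefficientwise form of `qExpansion_prodForm`. -/
theorem qExpansion_prodForm_coeff (f : CuspForm (Gamma1 N) 1) (G : ModularForm (Gamma1 ℓ) 1)
    (n : ℕ) :
    (qExpansion 1 (prodForm f G)).coeff n =
      ∑ p ∈ Finset.HasAntidiagonal.antidiagonal n,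
        (qExpansion 1 f).coeff p.1 * (qExpansion 1 G).coeff p.2 := by
  rw [qExpansion_prodForm, PowerSeries.coeff_mul]

/-- Nebentypus of the product: if `f ∣[1] γ = ε γ • f` on `Γ₀(N)` and `G ∣[1] γ = ψ γ • G` on
`Γ₀(ℓ)`, then `f G ∣[2] γ = (ε γ * ψ γ) • f G` on `Γ₀(N * ℓ)`. -/
theorem prodForm_slash (f : CuspForm (Gamma1 N) 1) (G : ModularForm (Gamma1 ℓ) 1)
    (ε ψ : SL(2, ℤ) → ℂ)
    (hf : ∀ γ ∈ Gamma0 N, (f : ℍ → ℂ) ∣[(1 : ℤ)] γ = ε γ • (f : ℍ → ℂ))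
    (hG : ∀ γ ∈ Gamma0 ℓ, (G : ℍ → ℂ) ∣[(1 : ℤ)] γ = ψ γ • (G : ℍ → ℂ))
    (γ : SL(2, ℤ)) (hγ : γ ∈ Gamma0 (N * ℓ)) :
    (prodForm f G : ℍ → ℂ) ∣[(2 : ℤ)] γ = (ε γ * ψ γ) • (prodForm f G : ℍ → ℂ) := by
  have h1 := hf γ (Gamma0_le_of_dvd (dvd_mul_right N ℓ) hγ)
  have h2 := hG γ (Gamma0_le_of_dvd (dvd_mul_left ℓ N) hγ)
  rw [coe_prodForm]
  have : ((f : ℍ → ℂ) * (G : ℍ → ℂ)) ∣[(2 : ℤ)] γ =
      ((f : ℍ → ℂ) ∣[(1 : ℤ)] γ) * ((G : ℍ → ℂ) ∣[(1 : ℤ)] γ) := by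
    have := ModularForm.mul_slash_SL2 (1 : ℤ) (1 : ℤ) γ (f : ℍ → ℂ) (G : ℍ → ℂ)
    simpa using this
  rw [this, h1, h2]
  ext τ
  simp only [Pi.mul_apply, Pi.smul_apply, smul_eq_mul]
  ring

end

end Fermat.Agent.DS.N3.Prod
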